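import Fermat.Agent.S36.H630.Final
import Fermat.Agent.S36.H987.PureCtx
import Fermat.Agent.S36.Alg3.Spec

/-!
# S36 / ALG3 — leaf PURE closed (helper630)

`leafPure : Alg3.LeafPure` VERBATIM (`S36/Alg3/Spec.lean`, sub-architect helper586), from

* `H630.exists_kappa_basePure` (G4 + KAPPA + CHART-CHANGE: label data at every closed point of both
  charts from purity data), and
* `H987.ctx_pure_fin`, `H987.ctx_pure_cusp` (G3, helper987: purity data at every closed point of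
  the finite chart and at the cusps).

Off the cusps of the chart at infinity the purity datum is transported from the finite chart
(`pure_fwd`).
-/

set_option autoImplicit false
set_option linter.unusedSectionVars false
set_option linter.style.haveILetI false
set_option synthInstance.maxHeartbeats 400000
set_option maxHeartbeats 1600000

namespace Fermat.Agent.S36.H630

open Fermat.Agent.S18.H138 (chart mem_chart)
open Fermat.Agent.S36.H193 (BasePureValuesAt)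
open Fermat.Agent.S36.Eng (TripleCtx)
open AlgebraicCurve

section Fwd

variable {R : Type*} [CommRing R] {F : Type*} [Field F] [Algebra R F]
variable {B B' : Subalgebra R F} {n' : Ideal B'} {y : F}
variable (hy : y ∈ B') (hclear : ∀ b : B, ∃ k : ℕ, y ^ k * (b : F) ∈ B')

/-- **A purity datum at the point of `B` gives a purity datum at `n'`.** -/
theorem pure_fwd [hn' : n'.IsPrime] (hyn : (⟨y, hy⟩ : B') ∉ n') {m : ℕ} {u : F}
    (h : ∃ (d : F) (a₀ s₀ : B), a₀ ∉ backIdeal B n' y hy hclear ∧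
      s₀ ∉ backIdeal B n' y hy hclear ∧ u * d ^ m * (s₀ : F) = a₀) :
    ∃ (d : F) (a₀ s₀ : B'), a₀ ∉ n' ∧ s₀ ∉ n' ∧ u * d ^ m * (s₀ : F) = a₀ := by
  obtain ⟨d, a₀, s₀, ha₀, hs₀, hpure⟩ := h
  obtain ⟨k, hka, hks⟩ := exists_clear₂ hy hclear a₀ s₀
  refine ⟨d, ⟨_, hka⟩, ⟨_, hks⟩, ?_, ?_, ?_⟩
  · intro h1
    exact ha₀ ((mem_backIdeal_iff hy hclear hyn a₀ k hka).2 h1)
  · intro h1
    exact hs₀ ((mem_backIdeal_iff hy hclear hyn s₀ k hks).2 h1)
  · show u * d ^ m * (y ^ k * (s₀ : F)) = y ^ k * (a₀ : F)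
    rw [← hpure]
    ring

end Fwd

section Ctx

variable {R E F F' : Type*} [CommRing R] [IsDomain R] [IsDiscreteValuationRing R]
  [IsAlgClosed (IsLocalRing.ResidueField R)]
  [Field E] [Algebra R E] [Field F] [Algebra E F] [Algebra R F] [IsScalarTower R E F]
  [Field F'] [Algebra E F'] [Algebra R F'] [IsScalarTower R E F']
  {w : R} {q : ℕ} {α β : F' →ₐ[E] F} {x : F} {x' : F'}
  {V₁ V₂ V₃ : ValuationSubring F} {V₁' V₂' : ValuationSubring F'}

/-- **Label data at every closed point of both charts, from purity data on the finite chart and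
at the cusps.** -/
theorem exists_kappa_basePure_of_fin_cusp (ctx : TripleCtx w q α β x x' V₁ V₂ V₃ V₁' V₂')
    (hw : Irreducible w) (hq : 0 < q) (hinjE : Function.Injective (algebraMap R E))
    {m : ℕ} (hm : 0 < m) {ζ : R} (hζ : IsPrimitiveRoot ζ m)
    {u : F} (hu₁ : u - 1 ∈ V₁.nonunits) (hu₂ : u - 1 ∈ V₂.nonunits)
    (hu₃ : u - 1 ∈ V₃.nonunits)
    {k₁ k₂ : F'} (hk₁ : S29.H395.normAlong α u = k₁ ^ m)
    (hk₂ : S29.H395.normAlong β u = k₂ ^ m)
    (hpur_fin : ∀ n : Ideal (chart R ({x} : Set F)), n.IsMaximal →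
      algebraMap R (chart R ({x} : Set F)) w ∈ n →
      ∃ (d : F) (a₀ s₀ : chart R ({x} : Set F)), a₀ ∉ n ∧ s₀ ∉ n ∧ u * d ^ m * (s₀ : F) = a₀)
    (hpur_cusp : ∀ n : Ideal (chart R ({x⁻¹} : Set F)), n.IsMaximal →
      algebraMap R (chart R ({x⁻¹} : Set F)) w ∈ n →
      (⟨x⁻¹, Fermat.Agent.S18.H138.mem_chart_of_mem rfl⟩ : chart R ({x⁻¹} : Set F)) ∈ n →
      ∃ (d : F) (a₀ s₀ : chart R ({x⁻¹} : Set F)), a₀ ∉ n ∧ s₀ ∉ n ∧
        u * d ^ m * (s₀ : F) = a₀) :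
    ∃ κ : ValuationSubring F → ℕ,
      (∀ n : Ideal (chart R ({x} : Set F)), n.IsMaximal →
        algebraMap R (chart R ({x} : Set F)) w ∈ n →
        BasePureValuesAt {V | V = V₁ ∨ V = V₂ ∨ V = V₃} (chart R ({x} : Set F)) n m
          (u ^ ((q - 1) * (q + 1))) ζ κ) ∧
      (∀ n : Ideal (chart R ({x⁻¹} : Set F)), n.IsMaximal →
        algebraMap R (chart R ({x⁻¹} : Set F)) w ∈ n →
        BasePureValuesAt {V | V = V₁ ∨ V = V₂ ∨ V = V₃} (chart R ({x⁻¹} : Set F)) n m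
          (u ^ ((q - 1) * (q + 1))) ζ κ) := by
  obtain ⟨κ, hfin, hinf⟩ := exists_kappa_basePure ctx hw hq hinjE hm hζ hu₁ hu₂ hu₃ hk₁ hk₂
  refine ⟨κ, fun n hn hwn => hfin n hn hwn (hpur_fin n hn hwn), fun n' hn' hwn' => ?_⟩
  refine hinf n' hn' hwn' ?_
  haveI := hn'
  have hn'p : n'.IsPrime := hn'.isPrime
  have hyB' : x⁻¹ ∈ chart R ({x⁻¹} : Set F) := Fermat.Agent.S18.H138.mem_chart_of_mem rfl
  by_cases hy : (⟨x⁻¹, hyB'⟩ : chart R ({x⁻¹} : Set F)) ∈ n'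
  · exact hpur_cusp n' hn' hwn' hy
  · have hx0 : x ≠ 0 := ctx.x_unit₁.1
    have h𝔪n' := maximalIdeal_map_mem hw hwn'
    have hrat' := rat_chart x⁻¹ n' hn' h𝔪n'
    have hclear : ∀ b : chart R ({x} : Set F),
        ∃ k : ℕ, x⁻¹ ^ k * (b : F) ∈ chart R ({x⁻¹} : Set F) :=
      fun b => Fermat.Agent.S18.H138.exists_inv_pow_mul_mem_chart hx0 b.2
    have hnmax : (backIdeal (chart R ({x} : Set F)) n' x⁻¹ hyB' hclear).IsMaximal :=
      backIdeal_isMaximal hyB' hclear hy h𝔪n' hrat'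
    have hwn : algebraMap R (chart R ({x} : Set F)) w
        ∈ backIdeal (chart R ({x} : Set F)) n' x⁻¹ hyB' hclear :=
      (algebraMap_mem_backIdeal_iff hyB' hclear hy w).2 hwn'
    exact pure_fwd hyB' hclear hy (hpur_fin _ hnmax hwn)

end Ctx

/-- **Leaf PURE of ALG3** (`S36/Alg3/Spec.lean`), VERBATIM. -/
theorem leafPure : Fermat.Agent.S36.Alg3.LeafPure := by
  intro R E F F' _ _ _ _ _ _ _ _ _ _ _ _ _ _ _ _ _ w hw q hq hqR α β x x' V₁ V₂ V₃ V₁' V₂' T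
    m hm hqm ζ hζ u hu0 hdiv hu₁ hu₂ hu₃ k₁ k₂ hk₁ hk₂
  have hU₁ : Fermat.Agent.S36.Eng.UnitAt V₁ u := unit_of_split hu₁
  have hU₂ : Fermat.Agent.S36.Eng.UnitAt V₂ u := unit_of_split hu₂
  have hU₃ : Fermat.Agent.S36.Eng.UnitAt V₃ u := unit_of_split hu₃
  refine exists_kappa_basePure_of_fin_cusp T hw hq.pos (IsFractionRing.injective R E) hm hζ
    hu₁ hu₂ hu₃ hk₁ hk₂ ?_ ?_
  · intro n hn hwn
    obtain ⟨d, -, a₀, s₀, ha₀, hs₀, hpure⟩ :=
      Fermat.Agent.S36.H987.ctx_pure_fin hw hq T n hn hwn hm hdiv hU₁ hU₂ hU₃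
    exact ⟨d, a₀, s₀, ha₀, hs₀, hpure⟩
  · intro n hn hwn hxn
    obtain ⟨d, -, a₀, s₀, ha₀, hs₀, hpure⟩ :=
      Fermat.Agent.S36.H987.ctx_pure_cusp hw hq T n hn hwn hxn hm hdiv hU₁ hU₂ hU₃
    exact ⟨d, a₀, s₀, ha₀, hs₀, hpure⟩

end Fermat.Agent.S36.H630
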