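import Fermat.Agent.S36.Alg3.Skel
import Fermat.Agent.S36.H586.LeafStepA
import Fermat.Agent.S36.H79.LeafSheets
import Fermat.Agent.S36.H630.LeafPure

/-!
# S36 engine — `Eng.Alg3Statement` closed (assembly of the three leaves on main)

    alg3Statement : Eng.Alg3Statement
      := Alg3.alg3_of_leaves H586.leafStepA H79.leafSheets H630.leafPure

(skeleton: helper586; leaves: STEP-A helper586, SHEETS helper79/helper919, PURE helper630 +
helper987; wall: helper193).  UNCONDITIONAL.
-/

set_option autoImplicit false

namespace Fermat.Agent.S36.H630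

/-- **ALG3**, unconditional. -/
theorem alg3Statement : Fermat.Agent.S36.Eng.Alg3Statement :=
  Fermat.Agent.S36.Alg3.alg3_of_leaves Fermat.Agent.S36.H586.leafStepA
    Fermat.Agent.S36.H79.leafSheets leafPure

end Fermat.Agent.S36.H630
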