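import Fermat.Agent.S36.H630.CoverLocal

/-!
# S36 engine, LABEL core (helper630), part 4: LAB-NORM (norm compatibility of the values)

`F' ⊆ F` a finite extension of function fields (level `qM'` inside level `q²M'` via `α` or via
`β`), `A ⊆ F'`, `B ⊆ F` the charts, `n` a closed point of `B` over the closed point `N₁` of `A`.

Interface to the cell NR (norm–residue formulas, `S36/H253`, `S36/H203`), elementwise:

* `NormResSplit V' V₁ V₂ e` : `V₁` (`e = f = 1`) and `V₂` (ramification `e`, `f = 1`) are the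
  extensions of `V'`:   `res_{V'} (N y) = res_{V₁} y · (res_{V₂} y) ^ e`;
* `NormResInsep V' V q`    : `V` is the only extension of `V'`, purely inseparable residue
  extension of degree `q`:   `res_{V'} (N y) = (res_V y) ^ q`.

Interface to MOD3 (residue rings of the components):

* `ResLift A B V`      : `B / p_V = A / p_{V'}`  (`f = 1`, `A / p_{V'}` normal);
* `ResLiftPow A B V q` : `(B / p_V) ^ q ⊆ A / p_{V'}`  (purely inseparable of degree `q`).

Results:

* `valAt_norm_split` : values `η₁`, `η₂` of `d` at `n` along `V₁`, `V₂`  ⟹  `N d` has the value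
  `η₁ η₂ ^ e` at `N₁` along `V'`;
* `valAt_norm_insep` : value `η` of `d` at `n` along `V`  ⟹  `N d` has the value `η ^ q` at `N₁`
  along `V'`;
* `label_eq_of_norm` (**the label equation**) : if `u d ^ m ∈ B_{N₁}` (purity at the unique point
  `n` over the node `N₁`) and `N u = k ^ m` with `k ≡ ξ₁` on `V₁'`, `k ≡ ξ₂` on `V₂'`, then

      `ξ₁ · η_FF · η_mid ^ e  ≡  ξ₂ · η_VV ^ q`   modulo `N₁`.
-/

set_option autoImplicit false
set_option linter.unusedSectionVars false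

namespace Fermat.Agent.S36.H630

variable {R : Type*} [CommRing R] {F' : Type*} [Field F'] [Algebra R F']
variable {F : Type*} [Field F] [Algebra R F] [Algebra F' F] [IsScalarTower R F' F]

/-- Norm–residue formula, split case with ramification `e` on the second sheet. -/
def NormResSplit (V' : ValuationSubring F') (V₁ V₂ : ValuationSubring F) (e : ℕ) : Prop :=
  ∀ y : F, y ∈ V₁ → y ∈ V₂ → ∀ y₁ y₂ : F',
    y - algebraMap F' F y₁ ∈ V₁.nonunits → y - algebraMap F' F y₂ ∈ V₂.nonunits →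
      Algebra.norm F' y - y₁ * y₂ ^ e ∈ V'.nonunits

/-- Norm–residue formula, purely inseparable case of degree `q`. -/
def NormResInsep (V' : ValuationSubring F') (V : ValuationSubring F) (q : ℕ) : Prop :=
  ∀ y : F, y ∈ V → ∀ y' : F', y ^ q - algebraMap F' F y' ∈ V.nonunits →
    Algebra.norm F' y - y' ∈ V'.nonunits

/-- The residue ring of `B` on the sheet `V` is the residue ring of `A`. -/
def ResLift (A : Subalgebra R F') (B : Subalgebra R F) (V : ValuationSubring F) : Prop :=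
  ∀ b : B, ∃ a : A, (b : F) - algebraMap F' F (a : F') ∈ V.nonunits

/-- The `q`-th powers of the residue ring of `B` on the sheet `V` lie in the residue ring of
`A`. -/
def ResLiftPow (A : Subalgebra R F') (B : Subalgebra R F) (V : ValuationSubring F) (q : ℕ) :
    Prop :=
  ∀ b : B, ∃ a : A, (b : F) ^ q - algebraMap F' F (a : F') ∈ V.nonunits

section Lift

variable {A : Subalgebra R F'} {B : Subalgebra R F}
variable {N₁ : Ideal A} {n : Ideal B}

/-- `x ^ q - y ^ q ∈ (x - y) V`. -/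
theorem pow_sub_pow_mem_nonunits (V : ValuationSubring F) {x y : F} (hx : x ∈ V) (hy : y ∈ V)
    (h : x - y ∈ V.nonunits) (q : ℕ) : x ^ q - y ^ q ∈ V.nonunits := by
  rw [← geom_sum₂_mul]
  exact vnu_mul_left V h
    (V.sum_mem fun i _ => V.mul_mem _ _ (V.pow_mem hx i) (V.pow_mem hy _))

/-- `x ^ q - y ^ q ∈ (x - y) B`. -/
theorem pow_sub_pow_mem_ideal (I : Ideal B) {x y : B} (h : x - y ∈ I) (q : ℕ) :
    x ^ q - y ^ q ∈ I := by
  rw [← geom_sum₂_mul]
  exact I.mul_mem_left _ h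

/-- **Lifting the residue to the base, `f = 1`.**  If `d` has the value `η` at `n` along `V`
and the residue ring of `B` on `V` is that of `A`, then `d ≡ y₁` on `V` for some `y₁ ∈ A_{N₁}`
with value `η` at `N₁`. -/
theorem exists_lift_of_valAt [n.IsPrime]
    (hAB : ∀ a : A, algebraMap F' F (a : F') ∈ B)
    (hNn : ∀ a : A, a ∈ N₁ ↔ (⟨algebraMap F' F (a : F'), hAB a⟩ : B) ∈ n)
    {V : ValuationSubring F} (hBV : ChartLe B V) (hth : PassThrough B n V)
    (hlift : ResLift A B V) {d : F} {η : R} (h : ValAt B n V d η) :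
    ∃ (a₁ b₁ : A), b₁ ∉ N₁ ∧ a₁ - algebraMap R A η * b₁ ∈ N₁ ∧
      algebraMap F' F (b₁ : F') * d - algebraMap F' F (a₁ : F') ∈ V.nonunits := by
  have hdV : d ∈ V := h.mem hBV hth
  obtain ⟨a, b, hb, hV, hn⟩ := h
  obtain ⟨a₁, ha₁⟩ := hlift a
  obtain ⟨b₁, hb₁⟩ := hlift b
  -- the differences as elements of `B`
  have hda : a - (⟨_, hAB a₁⟩ : B) ∈ n := hth _ ha₁
  have hdb : b - (⟨_, hAB b₁⟩ : B) ∈ n := hth _ hb₁
  refine ⟨a₁, b₁, ?_, ?_, ?_⟩
  · intro h1
    apply hb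
    have h2 := (hNn b₁).1 h1
    have : b = (b - (⟨_, hAB b₁⟩ : B)) + (⟨_, hAB b₁⟩ : B) := by ring
    rw [this]
    exact n.add_mem hdb h2
  · rw [hNn]
    have h3 : (⟨algebraMap F' F ((a₁ - algebraMap R A η * b₁ : A) : F'), hAB _⟩ : B)
        = (a - algebraMap R B η * b) - (a - (⟨_, hAB a₁⟩ : B))
          + algebraMap R B η * (b - (⟨_, hAB b₁⟩ : B)) := by
      apply Subtype.ext
      have e1 : ((a₁ - algebraMap R A η * b₁ : A) : F')
          = (a₁ : F') - algebraMap R F' η * (b₁ : F') := rfl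
      show algebraMap F' F ((a₁ - algebraMap R A η * b₁ : A) : F') = _
      rw [e1, map_sub, map_mul, ← IsScalarTower.algebraMap_apply]
      show _ = ((a : F) - algebraMap R F η * (b : F)) - ((a : F) - algebraMap F' F (a₁ : F'))
          + algebraMap R F η * ((b : F) - algebraMap F' F (b₁ : F'))
      ring
    rw [h3]
    exact n.add_mem (n.sub_mem hn hda) (n.mul_mem_left _ hdb)
  · have : algebraMap F' F (b₁ : F') * d - algebraMap F' F (a₁ : F')
        = ((b : F) * d - a) - ((b : F) - algebraMap F' F (b₁ : F')) * d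
          + ((a : F) - algebraMap F' F (a₁ : F')) := by ring
    rw [this]
    exact vnu_add V (vnu_sub V hV (vnu_mul_right V hb₁ hdV)) ha₁

/-- **Lifting the residue to the base, purely inseparable case.** -/
theorem exists_lift_pow_of_valAt [n.IsPrime]
    (hAB : ∀ a : A, algebraMap F' F (a : F') ∈ B)
    (hNn : ∀ a : A, a ∈ N₁ ↔ (⟨algebraMap F' F (a : F'), hAB a⟩ : B) ∈ n)
    {V : ValuationSubring F} (hBV : ChartLe B V) (hth : PassThrough B n V)
    {q : ℕ} (hlift : ResLiftPow A B V q) {d : F} {η : R} (h : ValAt B n V d η) :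
    ∃ (a₁ b₁ : A), b₁ ∉ N₁ ∧ a₁ - algebraMap R A (η ^ q) * b₁ ∈ N₁ ∧
      algebraMap F' F (b₁ : F') * d ^ q - algebraMap F' F (a₁ : F') ∈ V.nonunits := by
  have hdV : d ∈ V := h.mem hBV hth
  obtain ⟨a, b, hb, hV, hn⟩ := h
  obtain ⟨a₁, ha₁⟩ := hlift a
  obtain ⟨b₁, hb₁⟩ := hlift b
  have hda : a ^ q - (⟨_, hAB a₁⟩ : B) ∈ n := hth _ ha₁
  have hdb : b ^ q - (⟨_, hAB b₁⟩ : B) ∈ n := hth _ hb₁
  have hbq : b ^ q ∉ n := fun h1 => hb (Ideal.IsPrime.mem_of_pow_mem ‹n.IsPrime› q h1)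
  have hnq : a ^ q - (algebraMap R B η * b) ^ q ∈ n := pow_sub_pow_mem_ideal n hn q
  refine ⟨a₁, b₁, ?_, ?_, ?_⟩
  · intro h1
    apply hbq
    have h2 := (hNn b₁).1 h1
    have : b ^ q = (b ^ q - (⟨_, hAB b₁⟩ : B)) + (⟨_, hAB b₁⟩ : B) := by ring
    rw [this]
    exact n.add_mem hdb h2
  · rw [hNn]
    have h3 : (⟨algebraMap F' F ((a₁ - algebraMap R A (η ^ q) * b₁ : A) : F'), hAB _⟩ : B)
        = (a ^ q - (algebraMap R B η * b) ^ q) - (a ^ q - (⟨_, hAB a₁⟩ : B))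
          + algebraMap R B (η ^ q) * (b ^ q - (⟨_, hAB b₁⟩ : B)) := by
      apply Subtype.ext
      have e1 : ((a₁ - algebraMap R A (η ^ q) * b₁ : A) : F')
          = (a₁ : F') - algebraMap R F' (η ^ q) * (b₁ : F') := rfl
      show algebraMap F' F ((a₁ - algebraMap R A (η ^ q) * b₁ : A) : F') = _
      rw [e1, map_sub, map_mul, ← IsScalarTower.algebraMap_apply]
      show _ = ((a : F) ^ q - (algebraMap R F η * (b : F)) ^ q)
          - ((a : F) ^ q - algebraMap F' F (a₁ : F'))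
          + algebraMap R F (η ^ q) * ((b : F) ^ q - algebraMap F' F (b₁ : F'))
      rw [map_pow]
      ring
    rw [h3]
    exact n.add_mem (n.sub_mem hnq hda) (n.mul_mem_left _ hdb)
  · have hbd : (b : F) * d ∈ V := V.mul_mem _ _ (hBV b) hdV
    have h4 : ((b : F) * d) ^ q - (a : F) ^ q ∈ V.nonunits :=
      pow_sub_pow_mem_nonunits V hbd (hBV a) hV q
    have : algebraMap F' F (b₁ : F') * d ^ q - algebraMap F' F (a₁ : F')
        = (((b : F) * d) ^ q - (a : F) ^ q) - ((b : F) ^ q - algebraMap F' F (b₁ : F')) * d ^ q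
          + ((a : F) ^ q - algebraMap F' F (a₁ : F')) := by ring
    rw [this]
    exact vnu_add V (vnu_sub V h4 (vnu_mul_right V hb₁ (V.pow_mem hdV q))) ha₁

/-- From `b₁ d ≡ a₁` on `V` with `b₁ ∉ N₁`: `d ≡ a₁ / b₁` on `V`. -/
theorem sub_div_mem_nonunits [n.IsPrime]
    (hAB : ∀ a : A, algebraMap F' F (a : F') ∈ B)
    (hNn : ∀ a : A, a ∈ N₁ ↔ (⟨algebraMap F' F (a : F'), hAB a⟩ : B) ∈ n)
    {V : ValuationSubring F} (hBV : ChartLe B V) (hth : PassThrough B n V)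
    {a₁ b₁ : A} (hb₁ : b₁ ∉ N₁) {y : F}
    (h : algebraMap F' F (b₁ : F') * y - algebraMap F' F (a₁ : F') ∈ V.nonunits) :
    y - algebraMap F' F ((a₁ : F') / (b₁ : F')) ∈ V.nonunits := by
  have hbn : (⟨_, hAB b₁⟩ : B) ∉ n := fun h1 => hb₁ ((hNn b₁).2 h1)
  have hbu : algebraMap F' F (b₁ : F') ∉ V.nonunits := fun h1 => hbn (hth ⟨_, hAB b₁⟩ h1)
  have hbV : algebraMap F' F (b₁ : F') ∈ V := hBV ⟨_, hAB b₁⟩
  have hb0 : algebraMap F' F (b₁ : F') ≠ 0 := by
    intro h0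
    apply hbu
    rw [h0]
    exact vnu_zero V
  have : y - algebraMap F' F ((a₁ : F') / (b₁ : F'))
      = (algebraMap F' F (b₁ : F'))⁻¹
        * (algebraMap F' F (b₁ : F') * y - algebraMap F' F (a₁ : F')) := by
    rw [map_div₀]
    field_simp
  rw [this]
  exact vnu_mul_left V h (vnu_inv_mem V hbV hbu)

end Lift

section Norm

variable {A : Subalgebra R F'} {B : Subalgebra R F}
variable {N₁ : Ideal A} {n : Ideal B}

/-- a quotient `a₁ / b₁` with `b₁ ∉ N₁` has the value of its numerator -/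
theorem valAt_div [N₁.IsPrime] {V' : ValuationSubring F'} {a₁ b₁ : A} (hb₁ : b₁ ∉ N₁) {η : R}
    (hη : a₁ - algebraMap R A η * b₁ ∈ N₁) : ValAt A N₁ V' ((a₁ : F') / (b₁ : F')) η := by
  have hb0 : (b₁ : F') ≠ 0 := by
    intro h0
    apply hb₁
    have : b₁ = 0 := Subtype.ext h0
    rw [this]
    exact N₁.zero_mem
  exact ValAt.of_frac hb₁ (mul_div_cancel₀ _ hb0) hη

/-- **LAB-NORM, split side.** -/
theorem valAt_norm_split [n.IsPrime] [N₁.IsPrime]
    (hAB : ∀ a : A, algebraMap F' F (a : F') ∈ B)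
    (hNn : ∀ a : A, a ∈ N₁ ↔ (⟨algebraMap F' F (a : F'), hAB a⟩ : B) ∈ n)
    {V' : ValuationSubring F'} (hAV' : ChartLe A V') (hth' : PassThrough A N₁ V')
    {V₁ V₂ : ValuationSubring F} (hBV₁ : ChartLe B V₁) (hth₁ : PassThrough B n V₁)
    (hBV₂ : ChartLe B V₂) (hth₂ : PassThrough B n V₂)
    (hlift₁ : ResLift A B V₁) (hlift₂ : ResLift A B V₂)
    {e : ℕ} (hNR : NormResSplit V' V₁ V₂ e)
    {d : F} {η₁ η₂ : R} (h₁ : ValAt B n V₁ d η₁) (h₂ : ValAt B n V₂ d η₂) :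
    ValAt A N₁ V' (Algebra.norm F' d) (η₁ * η₂ ^ e) := by
  obtain ⟨a₁, b₁, hb₁, hη₁, hd₁⟩ := exists_lift_of_valAt hAB hNn hBV₁ hth₁ hlift₁ h₁
  obtain ⟨a₂, b₂, hb₂, hη₂, hd₂⟩ := exists_lift_of_valAt hAB hNn hBV₂ hth₂ hlift₂ h₂
  have hy₁ := sub_div_mem_nonunits hAB hNn hBV₁ hth₁ hb₁ hd₁
  have hy₂ := sub_div_mem_nonunits hAB hNn hBV₂ hth₂ hb₂ hd₂
  have hN := hNR d (h₁.mem hBV₁ hth₁) (h₂.mem hBV₂ hth₂) _ _ hy₁ hy₂
  have hv₁ : ValAt A N₁ V' ((a₁ : F') / (b₁ : F')) η₁ := valAt_div hb₁ hη₁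
  have hv₂ : ValAt A N₁ V' ((a₂ : F') / (b₂ : F')) η₂ := valAt_div hb₂ hη₂
  have hv : ValAt A N₁ V' ((a₁ : F') / (b₁ : F') * ((a₂ : F') / (b₂ : F')) ^ e) (η₁ * η₂ ^ e) :=
    hv₁.mul hAV' hth' (hv₂.pow hAV' hth' e)
  refine hv.congr hAV' ?_
  have : (a₁ : F') / (b₁ : F') * ((a₂ : F') / (b₂ : F')) ^ e - Algebra.norm F' d
      = -(Algebra.norm F' d - (a₁ : F') / (b₁ : F') * ((a₂ : F') / (b₂ : F')) ^ e) := by ring
  rw [this]
  exact vnu_neg V' hN

/-- **LAB-NORM, purely inseparable side.** -/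
theorem valAt_norm_insep [n.IsPrime] [N₁.IsPrime]
    (hAB : ∀ a : A, algebraMap F' F (a : F') ∈ B)
    (hNn : ∀ a : A, a ∈ N₁ ↔ (⟨algebraMap F' F (a : F'), hAB a⟩ : B) ∈ n)
    {V' : ValuationSubring F'} (hAV' : ChartLe A V')
    {V : ValuationSubring F} (hBV : ChartLe B V) (hth : PassThrough B n V)
    {q : ℕ} (hlift : ResLiftPow A B V q) (hNR : NormResInsep V' V q)
    {d : F} {η : R} (h : ValAt B n V d η) :
    ValAt A N₁ V' (Algebra.norm F' d) (η ^ q) := by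
  obtain ⟨a₁, b₁, hb₁, hη₁, hd₁⟩ := exists_lift_pow_of_valAt hAB hNn hBV hth hlift h
  have hy := sub_div_mem_nonunits hAB hNn hBV hth hb₁ hd₁
  have hN := hNR d (h.mem hBV hth) _ hy
  have hv : ValAt A N₁ V' ((a₁ : F') / (b₁ : F')) (η ^ q) := valAt_div hb₁ hη₁
  refine hv.congr hAV' ?_
  have : (a₁ : F') / (b₁ : F') - Algebra.norm F' d
      = -(Algebra.norm F' d - (a₁ : F') / (b₁ : F')) := by ring
  rw [this]
  exact vnu_neg V' hN

end Norm

end Fermat.Agent.S36.H630
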