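import Fermat.Agent.S36.H630.LabAlg
import Fermat.Agent.S36.H630.LabNorm

/-!
# S36 engine, LABEL core (helper630), part 12: change of chart

`B`, `B'` two charts of `F` (`B = chart R {x}`, `B' = chart R {x⁻¹}`), `y ∈ B'` (`y = x⁻¹`) such
that every element of `B` lands in `B'` after multiplication by a power of `y`
(`B[y] = B'[y⁻¹]`).  A closed point `n'` of `B'` with `y ∉ n'` is also a closed point of `B`:

* `backIdeal`            : the ideal `n = {b ∈ B | y ^ k b ∈ n'}` of `B`;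
* `mem_backIdeal_iff`    : `b ∈ n ↔ y ^ k b ∈ n'` for EVERY `k` with `y ^ k b ∈ B'`;
* `backIdeal_rat`        : `n` is rational if `n'` is;
* `backIdeal_isMaximal`  : `n` is maximal;
* `pure_back`            : a purity datum at `n'` gives a purity datum at `n`;
* `LabelAt.of_back`      : a label datum at `n` gives a label datum at `n'`.
-/

set_option autoImplicit false
set_option linter.unusedSectionVars false

namespace Fermat.Agent.S36.H630

variable {R : Type*} [CommRing R] {F : Type*} [Field F] [Algebra R F]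

section Back

variable {B B' : Subalgebra R F} {n' : Ideal B'} {y : F}

/-- transport of membership along an equality of underlying elements -/
theorem mem_congr_val {c c' : B'} (hcc : (c : F) = (c' : F)) (h : c ∈ n') : c' ∈ n' := by
  have : c = c' := Subtype.ext hcc
  rwa [← this]

/-- The closed point of `B` defined by the closed point `n'` of `B'`. -/
def backIdeal (B : Subalgebra R F) (n' : Ideal B') (y : F) (hy : y ∈ B')
    (hclear : ∀ b : B, ∃ k : ℕ, y ^ k * (b : F) ∈ B') : Ideal B where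
  carrier := {b | ∃ (k : ℕ) (h : y ^ k * (b : F) ∈ B'), (⟨_, h⟩ : B') ∈ n'}
  zero_mem' := by
    refine ⟨0, ?_, ?_⟩
    · rw [ZeroMemClass.coe_zero, mul_zero]
      exact B'.zero_mem
    · refine mem_congr_val ?_ n'.zero_mem
      show ((0 : B') : F) = y ^ 0 * ((0 : B) : F)
      rw [ZeroMemClass.coe_zero, ZeroMemClass.coe_zero, mul_zero]
  add_mem' := by
    rintro a b ⟨k₁, h₁, m₁⟩ ⟨k₂, h₂, m₂⟩
    have e : y ^ (k₁ + k₂) * ((a + b : B) : F)
        = y ^ k₂ * (y ^ k₁ * (a : F)) + y ^ k₁ * (y ^ k₂ * (b : F)) := by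
      push_cast
      ring
    have hmem : y ^ k₂ * (y ^ k₁ * (a : F)) + y ^ k₁ * (y ^ k₂ * (b : F)) ∈ B' :=
      B'.add_mem (B'.mul_mem (B'.pow_mem hy k₂) h₁) (B'.mul_mem (B'.pow_mem hy k₁) h₂)
    refine ⟨k₁ + k₂, by rw [e]; exact hmem, ?_⟩
    have h3 : (⟨y, hy⟩ : B') ^ k₂ * ⟨_, h₁⟩ + (⟨y, hy⟩ : B') ^ k₁ * ⟨_, h₂⟩ ∈ n' :=
      n'.add_mem (n'.mul_mem_left _ m₁) (n'.mul_mem_left _ m₂)
    refine mem_congr_val ?_ h3
    show _ = y ^ (k₁ + k₂) * ((a + b : B) : F)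
    rw [e]
    simp only [Subalgebra.coe_add, Subalgebra.coe_mul, Subalgebra.coe_pow]
  smul_mem' := by
    rintro c a ⟨k, h, hm⟩
    obtain ⟨j, hj⟩ := hclear c
    have e : y ^ (j + k) * ((c • a : B) : F) = (y ^ j * (c : F)) * (y ^ k * (a : F)) := by
      rw [smul_eq_mul]
      push_cast
      ring
    refine ⟨j + k, by rw [e]; exact B'.mul_mem hj h, ?_⟩
    have h3 : (⟨_, hj⟩ : B') * ⟨_, h⟩ ∈ n' := n'.mul_mem_left _ hm
    refine mem_congr_val ?_ h3
    show _ = y ^ (j + k) * ((c • a : B) : F)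
    rw [e]
    simp only [Subalgebra.coe_mul]

variable (hy : y ∈ B') (hclear : ∀ b : B, ∃ k : ℕ, y ^ k * (b : F) ∈ B')

/-- Membership in `backIdeal` can be tested with any exponent. -/
theorem mem_backIdeal_iff [hn' : n'.IsPrime] (hyn : (⟨y, hy⟩ : B') ∉ n') (b : B) (k : ℕ)
    (h : y ^ k * (b : F) ∈ B') :
    b ∈ backIdeal B n' y hy hclear ↔ (⟨_, h⟩ : B') ∈ n' := by
  constructor
  · rintro ⟨k', h', hm⟩
    have h3 : (⟨y, hy⟩ : B') ^ k * ⟨_, h'⟩ ∈ n' := n'.mul_mem_left _ hm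
    have h4 : (⟨y, hy⟩ : B') ^ k' * ⟨_, h⟩ ∈ n' := by
      refine mem_congr_val ?_ h3
      simp only [Subalgebra.coe_mul, Subalgebra.coe_pow]
      ring
    rcases hn'.mem_or_mem h4 with h5 | h5
    · exact absurd (hn'.mem_of_pow_mem k' h5) hyn
    · exact h5
  · intro hm
    exact ⟨k, h, hm⟩

/-- `R`-constants: `algebraMap R B r ∈ n ↔ algebraMap R B' r ∈ n'`. -/
theorem algebraMap_mem_backIdeal_iff [hn' : n'.IsPrime] (hyn : (⟨y, hy⟩ : B') ∉ n') (r : R) :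
    algebraMap R B r ∈ backIdeal B n' y hy hclear ↔ algebraMap R B' r ∈ n' := by
  have h : y ^ 0 * ((algebraMap R B r : B) : F) ∈ B' := by
    rw [pow_zero, one_mul]
    exact B'.algebraMap_mem r
  rw [mem_backIdeal_iff hy hclear hyn _ 0 h]
  constructor
  · intro h1
    refine mem_congr_val ?_ h1
    show y ^ 0 * ((algebraMap R B r : B) : F) = ((algebraMap R B' r : B') : F)
    rw [pow_zero, one_mul]
    rfl
  · intro h1
    refine mem_congr_val ?_ h1
    show ((algebraMap R B' r : B') : F) = y ^ 0 * ((algebraMap R B r : B) : F)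
    rw [pow_zero, one_mul]
    rfl

theorem backIdeal_ne_top [hn' : n'.IsPrime] (hyn : (⟨y, hy⟩ : B') ∉ n') :
    backIdeal B n' y hy hclear ≠ ⊤ := by
  intro htop
  have h1 : (1 : B) ∈ backIdeal B n' y hy hclear := by
    rw [htop]
    exact Submodule.mem_top
  have h : y ^ 0 * (((1 : B) : B) : F) ∈ B' := by
    rw [pow_zero, one_mul]
    exact B'.one_mem
  rw [mem_backIdeal_iff hy hclear hyn _ 0 h] at h1
  apply hn'.ne_top
  rw [Ideal.eq_top_iff_one]
  refine mem_congr_val ?_ h1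
  show y ^ 0 * ((1 : B) : F) = ((1 : B') : F)
  rw [pow_zero, one_mul]
  rfl

/-- **Rationality passes to the other chart.** -/
theorem backIdeal_rat [IsLocalRing R] [hn' : n'.IsPrime] (hyn : (⟨y, hy⟩ : B') ∉ n')
    (h𝔪n' : ∀ r ∈ IsLocalRing.maximalIdeal R, algebraMap R B' r ∈ n')
    (hrat' : ∀ c : B', ∃ r : R, c - algebraMap R B' r ∈ n') (b : B) :
    ∃ r : R, b - algebraMap R B r ∈ backIdeal B n' y hy hclear := by
  obtain ⟨k, h⟩ := hclear b
  obtain ⟨r, hr⟩ := hrat' ⟨_, h⟩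
  obtain ⟨r₀, hr₀⟩ := hrat' ⟨y, hy⟩
  have hr₀u : IsUnit r₀ := by
    by_contra hnu
    have h1 : r₀ ∈ IsLocalRing.maximalIdeal R := (IsLocalRing.mem_maximalIdeal r₀).2 hnu
    apply hyn
    have h2 : (⟨y, hy⟩ : B') = (⟨y, hy⟩ - algebraMap R B' r₀) + algebraMap R B' r₀ := by ring
    rw [h2]
    exact n'.add_mem hr₀ (h𝔪n' r₀ h1)
  obtain ⟨s₀, hs₀⟩ := hr₀u.exists_right_inv
  -- `s₀ y ≡ 1`
  have h1 : algebraMap R B' s₀ * (⟨y, hy⟩ : B') - 1 ∈ n' := by
    have : algebraMap R B' s₀ * (⟨y, hy⟩ : B') - 1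
        = algebraMap R B' s₀ * (⟨y, hy⟩ - algebraMap R B' r₀) := by
      have h2 : algebraMap R B' s₀ * algebraMap R B' r₀ = 1 := by
        rw [← map_mul, mul_comm, hs₀, map_one]
      linear_combination h2
    rw [this]
    exact n'.mul_mem_left _ hr₀
  have h2 : (algebraMap R B' s₀ * (⟨y, hy⟩ : B')) ^ k - 1 ∈ n' := by
    have := pow_sub_pow_mem_ideal n' h1 k
    rwa [one_pow] at this
  refine ⟨r * s₀ ^ k, ?_⟩
  have hmem : y ^ k * (((b - algebraMap R B (r * s₀ ^ k) : B) : B) : F) ∈ B' := by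
    have e : y ^ k * (((b - algebraMap R B (r * s₀ ^ k) : B) : B) : F)
        = y ^ k * (b : F) - algebraMap R F (r * s₀ ^ k) * y ^ k := by
      simp only [Subalgebra.coe_sub, Subalgebra.coe_algebraMap]
      ring
    rw [e]
    exact B'.sub_mem h (B'.mul_mem (B'.algebraMap_mem _) (B'.pow_mem hy k))
  rw [mem_backIdeal_iff hy hclear hyn _ k hmem]
  have h3 : ((⟨_, h⟩ : B') - algebraMap R B' r)
      - algebraMap R B' r * ((algebraMap R B' s₀ * (⟨y, hy⟩ : B')) ^ k - 1) ∈ n' :=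
    n'.sub_mem hr (n'.mul_mem_left _ h2)
  refine mem_congr_val ?_ h3
  simp only [Subalgebra.coe_sub, Subalgebra.coe_mul, Subalgebra.coe_pow,
    Subalgebra.coe_algebraMap, Subalgebra.coe_one, map_mul, map_pow]
  ring

/-- **The point of `B` is closed.** -/
theorem backIdeal_isMaximal [IsLocalRing R] [hn' : n'.IsPrime] (hyn : (⟨y, hy⟩ : B') ∉ n')
    (h𝔪n' : ∀ r ∈ IsLocalRing.maximalIdeal R, algebraMap R B' r ∈ n')
    (hrat' : ∀ c : B', ∃ r : R, c - algebraMap R B' r ∈ n') :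
    (backIdeal B n' y hy hclear).IsMaximal := by
  rw [Ideal.isMaximal_iff]
  refine ⟨fun h1 => backIdeal_ne_top hy hclear hyn ((Ideal.eq_top_iff_one _).2 h1), ?_⟩
  intro J b hle hbn hbJ
  obtain ⟨r, hr⟩ := backIdeal_rat hy hclear hyn h𝔪n' hrat' b
  have hrJ : algebraMap R B r ∈ J := by
    have : algebraMap R B r = b - (b - algebraMap R B r) := by ring
    rw [this]
    exact J.sub_mem hbJ (hle hr)
  have hru : IsUnit r := by
    by_contra hnu
    have h1 : r ∈ IsLocalRing.maximalIdeal R := (IsLocalRing.mem_maximalIdeal r).2 hnu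
    apply hbn
    have h2 : b = (b - algebraMap R B r) + algebraMap R B r := by ring
    rw [h2]
    exact Ideal.add_mem _ hr
      ((algebraMap_mem_backIdeal_iff hy hclear hyn r).2 (h𝔪n' r h1))
  obtain ⟨s, hs⟩ := hru.exists_right_inv
  have : (1 : B) = algebraMap R B r * algebraMap R B s := by
    rw [← map_mul, hs, map_one]
  rw [this]
  exact J.mul_mem_right _ hrJ

/-- A sheet through `n'` passes through the point of `B`. -/
theorem passThrough_back [hn' : n'.IsPrime] (hyn : (⟨y, hy⟩ : B') ∉ n')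
    {V : ValuationSubring F} (hyV : y ∈ V) (hth : PassThrough B' n' V) :
    PassThrough B (backIdeal B n' y hy hclear) V := by
  intro b hb
  obtain ⟨k, h⟩ := hclear b
  rw [mem_backIdeal_iff hy hclear hyn b k h]
  exact hth _ (vnu_mul_left V hb (V.pow_mem hyV k))

/-- **A purity datum at `n'` gives a purity datum at the point of `B`.** -/
theorem pure_back [hn' : n'.IsPrime] (hyn : (⟨y, hy⟩ : B') ∉ n')
    (hyinv : y⁻¹ ∈ B) (hclear' : ∀ c : B', ∃ k : ℕ, y⁻¹ ^ k * (c : F) ∈ B)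
    {m : ℕ} {u : F}
    (h : ∃ (d : F) (a₀ s₀ : B'), a₀ ∉ n' ∧ s₀ ∉ n' ∧ u * d ^ m * (s₀ : F) = a₀) :
    ∃ (d : F) (a₀ s₀ : B), a₀ ∉ backIdeal B n' y hy hclear ∧
      s₀ ∉ backIdeal B n' y hy hclear ∧ u * d ^ m * (s₀ : F) = a₀ := by
  obtain ⟨d, a₀, s₀, ha₀, hs₀, hpure⟩ := h
  have hy0 : y ≠ 0 := by
    rintro rfl
    apply hyn
    have : (⟨0, hy⟩ : B') = 0 := rfl
    rw [this]
    exact n'.zero_mem
  obtain ⟨k₁, h₁⟩ := hclear' a₀
  obtain ⟨k₂, h₂⟩ := hclear' s₀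
  have ha : y⁻¹ ^ (k₁ + k₂) * (a₀ : F) ∈ B := by
    have : y⁻¹ ^ (k₁ + k₂) * (a₀ : F) = y⁻¹ ^ k₂ * (y⁻¹ ^ k₁ * (a₀ : F)) := by ring
    rw [this]
    exact B.mul_mem (B.pow_mem hyinv k₂) h₁
  have hs : y⁻¹ ^ (k₁ + k₂) * (s₀ : F) ∈ B := by
    have : y⁻¹ ^ (k₁ + k₂) * (s₀ : F) = y⁻¹ ^ k₁ * (y⁻¹ ^ k₂ * (s₀ : F)) := by ring
    rw [this]
    exact B.mul_mem (B.pow_mem hyinv k₁) h₂
  have hcancel : ∀ c : F, y ^ (k₁ + k₂) * (y⁻¹ ^ (k₁ + k₂) * c) = c := by
    intro c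
    rw [← mul_assoc, ← mul_pow, mul_inv_cancel₀ hy0, one_pow, one_mul]
  refine ⟨d, ⟨_, ha⟩, ⟨_, hs⟩, ?_, ?_, ?_⟩
  · have h3 : y ^ (k₁ + k₂) * (((⟨_, ha⟩ : B) : B) : F) ∈ B' := by
      rw [hcancel]
      exact a₀.2
    rw [mem_backIdeal_iff hy hclear hyn _ (k₁ + k₂) h3]
    intro h4
    apply ha₀
    exact mem_congr_val (hcancel _) h4
  · have h3 : y ^ (k₁ + k₂) * (((⟨_, hs⟩ : B) : B) : F) ∈ B' := by
      rw [hcancel]
      exact s₀.2
    rw [mem_backIdeal_iff hy hclear hyn _ (k₁ + k₂) h3]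
    intro h4
    apply hs₀
    exact mem_congr_val (hcancel _) h4
  · show u * d ^ m * (y⁻¹ ^ (k₁ + k₂) * (s₀ : F)) = y⁻¹ ^ (k₁ + k₂) * (a₀ : F)
    rw [← hpure]
    ring

include hy hclear in
/-- two elements of `B` are moved into `B'` by a common power of `y` -/
theorem exists_clear₂ (a b : B) :
    ∃ k : ℕ, y ^ k * (a : F) ∈ B' ∧ y ^ k * (b : F) ∈ B' := by
  obtain ⟨k₁, h₁⟩ := hclear a
  obtain ⟨k₂, h₂⟩ := hclear b
  refine ⟨k₁ + k₂, ?_, ?_⟩
  · have : y ^ (k₁ + k₂) * (a : F) = y ^ k₂ * (y ^ k₁ * (a : F)) := by ring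
    rw [this]
    exact B'.mul_mem (B'.pow_mem hy k₂) h₁
  · have : y ^ (k₁ + k₂) * (b : F) = y ^ k₁ * (y ^ k₂ * (b : F)) := by ring
    rw [this]
    exact B'.mul_mem (B'.pow_mem hy k₁) h₂

/-- **Values pass to the other chart.** -/
theorem ValAt.of_back [hn' : n'.IsPrime] (hyn : (⟨y, hy⟩ : B') ∉ n')
    {V : ValuationSubring F} (hyV : y ∈ V) {d : F} {η : R}
    (h : ValAt B (backIdeal B n' y hy hclear) V d η) : ValAt B' n' V d η := by
  obtain ⟨a, b, hb, hV, hn⟩ := h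
  obtain ⟨k, hka, hkb⟩ := exists_clear₂ hy hclear a b
  refine ⟨⟨_, hka⟩, ⟨_, hkb⟩, ?_, ?_, ?_⟩
  · intro h1
    exact hb ((mem_backIdeal_iff hy hclear hyn b k hkb).2 h1)
  · have : y ^ k * (b : F) * d - y ^ k * (a : F) = y ^ k * ((b : F) * d - (a : F)) := by ring
    show y ^ k * (b : F) * d - y ^ k * (a : F) ∈ V.nonunits
    rw [this]
    exact vnu_mul_left V hV (V.pow_mem hyV k)
  · have hmem : y ^ k * (((a - algebraMap R B η * b : B) : B) : F) ∈ B' := by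
      have e : y ^ k * (((a - algebraMap R B η * b : B) : B) : F)
          = y ^ k * (a : F) - algebraMap R F η * (y ^ k * (b : F)) := by
        simp only [Subalgebra.coe_sub, Subalgebra.coe_mul, Subalgebra.coe_algebraMap]
        ring
      rw [e]
      exact B'.sub_mem hka (B'.mul_mem (B'.algebraMap_mem _) hkb)
    have h1 := (mem_backIdeal_iff hy hclear hyn _ k hmem).1 hn
    refine mem_congr_val ?_ h1
    simp only [Subalgebra.coe_sub, Subalgebra.coe_mul, Subalgebra.coe_algebraMap]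
    ring

/-- **The label datum passes to the other chart.** -/
theorem LabelAt.of_back [hn' : n'.IsPrime] (hyn : (⟨y, hy⟩ : B') ∉ n')
    {𝒱 : Set (ValuationSubring F)} (hyV : ∀ V ∈ 𝒱, y ∈ V) {m : ℕ} {u : F} {ζ : R}
    {κ : ValuationSubring F → ℕ}
    (h : LabelAt B (backIdeal B n' y hy hclear) 𝒱 m u ζ κ) : LabelAt B' n' 𝒱 m u ζ κ := by
  obtain ⟨d, a₀, s₀, η₀, hd0, hs₀, hpure, hη₀, hval⟩ := h
  obtain ⟨k, hka, hks⟩ := exists_clear₂ hy hclear a₀ s₀
  refine ⟨d, ⟨_, hka⟩, ⟨_, hks⟩, η₀, hd0, ?_, ?_, ?_, ?_⟩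
  · intro h1
    exact hs₀ ((mem_backIdeal_iff hy hclear hyn s₀ k hks).2 h1)
  · show u * d ^ m * (y ^ k * (s₀ : F)) = y ^ k * (a₀ : F)
    rw [← hpure]
    ring
  · intro h1
    exact hη₀ ((algebraMap_mem_backIdeal_iff hy hclear hyn η₀).2 h1)
  · intro V hV hth
    exact (hval V hV (passThrough_back hy hclear hyn (hyV V hV) hth)).of_back hy hclear hyn
      (hyV V hV)

end Back

end Fermat.Agent.S36.H630
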