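import Fermat.Agent.S36.H630.ValAt

/-!
# S36 engine, LABEL core (helper630), part 2: COVER-LOCAL

`F ⊆ Z` fields, `B ⊆ F` and `C ⊆ Z` charts with `B ⊆ C`, `𝔫` a closed point of `C` lying over the
closed point `n` of `B`.  `G ∈ Z` is a Kummer generator, `G ^ m = u ∈ F`, and `d ∈ F` is a purity
datum of `u` at `n`: `u d ^ m` is a unit of `B_n` (`u d ^ m s = a`, `a, s ∈ B ∖ n`).

If `W`, `W'` are sheets of `Z` through `𝔫`, with labels `G ≡ ζ` on `W`, `G ≡ ζ'` on `W'`, and
`d` has the values `η`, `η'` at `n` along the sheets `W ∩ F`, `W' ∩ F` of `F`, then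

  `ζ η ≡ ζ' η'`  modulo `𝔫`                                   (`cover_local`).

No henselisation, no fibre products, no reducedness: the cover is étale at `𝔫` because `u d ^ m`
is a unit, and this is used only through "`s G d` is integral, hence lies in `C`".
-/

set_option autoImplicit false
set_option linter.unusedSectionVars false

namespace Fermat.Agent.S36.H630

variable {R : Type*} [CommRing R] {F : Type*} [Field F] [Algebra R F]
variable {Z : Type*} [Field Z] [Algebra R Z] [Algebra F Z] [IsScalarTower R F Z]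

/-- membership in the maximal ideal of the restriction of a sheet to a subfield -/
theorem mem_nonunits_comap_iff (W : ValuationSubring Z) (y : F) :
    y ∈ (W.comap (algebraMap F Z)).nonunits ↔ algebraMap F Z y ∈ W.nonunits := by
  rw [ValuationSubring.mem_nonunits_iff_or, ValuationSubring.mem_nonunits_iff_or,
    ValuationSubring.mem_comap, map_inv₀, map_eq_zero]

/-- If `y` has the value `η` at `𝔫` along `W` and `s y = c` with `s, c` in the chart, `s ∉ 𝔫`,
then `c ≡ η s` modulo `𝔫`. -/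
theorem ValAt.frac_mem {C : Subalgebra R Z} {𝔫 : Ideal C} [𝔫.IsPrime] {W : ValuationSubring Z}
    (hCW : ChartLe C W) (hth : PassThrough C 𝔫 W) {y : Z} {η : R} (h : ValAt C 𝔫 W y η)
    {s c : C} (hsc : (s : Z) * y = c) : c - algebraMap R C η * s ∈ 𝔫 := by
  obtain ⟨a, b, hb, hV, hn⟩ := h
  have h1 : ((b * c - s * a : C) : Z) ∈ W.nonunits := by
    have : ((b * c - s * a : C) : Z) = (s : Z) * ((b : Z) * y - a) := by
      push_cast
      rw [← hsc]
      ring
    rw [this]
    exact vnu_mul_left W hV (hCW s)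
  have h2 : b * c - s * a ∈ 𝔫 := hth _ h1
  have h3 : b * (c - algebraMap R C η * s) ∈ 𝔫 := by
    have : b * (c - algebraMap R C η * s)
        = (b * c - s * a) + s * (a - algebraMap R C η * b) := by ring
    rw [this]
    exact 𝔫.add_mem h2 (𝔫.mul_mem_left _ hn)
  rcases (Ideal.IsPrime.mem_or_mem ‹𝔫.IsPrime› h3) with h5 | h5
  · exact absurd h5 hb
  · exact h5

section Transfer

variable {B : Subalgebra R F} {C : Subalgebra R Z}
variable {n : Ideal B} {𝔫 : Ideal C}

/-- The sheet `W ∩ F` passes through `n = 𝔫 ∩ B` if `W` passes through `𝔫`. -/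
theorem PassThrough.comap (hBC : ∀ b : B, algebraMap F Z (b : F) ∈ C) {W : ValuationSubring Z}
    (hn𝔫 : ∀ b : B, (⟨algebraMap F Z (b : F), hBC b⟩ : C) ∈ 𝔫 → b ∈ n)
    (hth : PassThrough C 𝔫 W) : PassThrough B n (W.comap (algebraMap F Z)) := by
  intro c hc
  apply hn𝔫
  apply hth
  exact (mem_nonunits_comap_iff W (c : F)).1 hc

theorem ChartLe.comap (hBC : ∀ b : B, algebraMap F Z (b : F) ∈ C) {W : ValuationSubring Z}
    (hCW : ChartLe C W) :
    ChartLe B (W.comap (algebraMap F Z)) := by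
  intro b
  rw [ValuationSubring.mem_comap]
  exact hCW ⟨_, hBC b⟩

/-- **Transfer of values to the cover.** -/
theorem ValAt.map (hBC : ∀ b : B, algebraMap F Z (b : F) ∈ C) {W : ValuationSubring Z}
    (hn𝔫 : ∀ b : B, b ∈ n ↔ (⟨algebraMap F Z (b : F), hBC b⟩ : C) ∈ 𝔫)
    {d : F} {η : R} (h : ValAt B n (W.comap (algebraMap F Z)) d η) :
    ValAt C 𝔫 W (algebraMap F Z d) η := by
  obtain ⟨a, b, hb, hV, hn⟩ := h
  refine ⟨⟨_, hBC a⟩, ⟨_, hBC b⟩, ?_, ?_, ?_⟩
  · intro h1
    exact hb ((hn𝔫 b).2 h1)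
  · have h1 := (mem_nonunits_comap_iff W _).1 hV
    rw [map_sub, map_mul] at h1
    exact h1
  · have h1 := (hn𝔫 _).1 hn
    have h2 : (⟨algebraMap F Z ((a - algebraMap R B η * b : B) : F), hBC _⟩ : C)
        = (⟨_, hBC a⟩ : C) - algebraMap R C η * (⟨_, hBC b⟩ : C) := by
      apply Subtype.ext
      show algebraMap F Z ((a - algebraMap R B η * b : B) : F)
        = algebraMap F Z (a : F) - algebraMap R Z η * algebraMap F Z (b : F)
      have h3 : ((a - algebraMap R B η * b : B) : F) = (a : F) - algebraMap R F η * (b : F) := rfl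
      rw [h3, map_sub, map_mul, ← IsScalarTower.algebraMap_apply]
    rw [h2] at h1
    exact h1

end Transfer

/-- **COVER-LOCAL.**  Sheets of the Kummer cover through a common closed point: the products
`label × value of the purity datum` agree. -/
theorem cover_local
    {B : Subalgebra R F} {C : Subalgebra R Z} (hBC : ∀ b : B, algebraMap F Z (b : F) ∈ C)
    {n : Ideal B} {𝔫 : Ideal C} [𝔫.IsPrime]
    (hn𝔫 : ∀ b : B, b ∈ n ↔ (⟨algebraMap F Z (b : F), hBC b⟩ : C) ∈ 𝔫)
    {m : ℕ} (hroot : ∀ z : Z, z ^ m ∈ C → z ∈ C)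
    {G : Z} {u d : F} (hG : G ^ m = algebraMap F Z u)
    {a₀ s₀ : B} (hs₀ : s₀ ∉ n) (hpure : u * d ^ m * (s₀ : F) = a₀)
    {W W' : ValuationSubring Z} (hCW : ChartLe C W) (hCW' : ChartLe C W')
    (hth : PassThrough C 𝔫 W) (hth' : PassThrough C 𝔫 W')
    {ζ ζ' η η' : R}
    (hζ : G - algebraMap R Z ζ ∈ W.nonunits) (hζ' : G - algebraMap R Z ζ' ∈ W'.nonunits)
    (hη : ValAt B n (W.comap (algebraMap F Z)) d η)
    (hη' : ValAt B n (W'.comap (algebraMap F Z)) d η') :
    algebraMap R C (ζ * η - ζ' * η') ∈ 𝔫 := by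
  have h𝔫top : 𝔫 ≠ ⊤ := Ideal.IsPrime.ne_top ‹𝔫.IsPrime›
  -- the integral element `c = s₀ G d`
  set sZ : C := ⟨_, hBC s₀⟩ with hsZ
  have hsZn : sZ ∉ 𝔫 := fun h => hs₀ ((hn𝔫 s₀).2 h)
  have hcm : ((sZ : Z) * (G * algebraMap F Z d)) ^ m ∈ C := by
    rcases Nat.eq_zero_or_pos m with hm0 | hm0
    · rw [hm0, pow_zero]
      exact C.one_mem
    · obtain ⟨k, hk⟩ : ∃ k, m = k + 1 := ⟨m - 1, (Nat.sub_add_cancel hm0).symm⟩
      have h1 : ((sZ : Z) * (G * algebraMap F Z d)) ^ m
          = algebraMap F Z ((s₀ : F) ^ k * (a₀ : F)) := by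
        have hsZ' : (sZ : Z) = algebraMap F Z (s₀ : F) := rfl
        rw [mul_pow, mul_pow, hG, ← hpure, hsZ', ← map_pow, ← map_pow, ← map_mul, ← map_mul]
        congr 1
        rw [hk]
        ring
      rw [h1]
      have h2 : (s₀ : F) ^ k * (a₀ : F) = ((s₀ ^ k * a₀ : B) : F) := by
        push_cast
        rfl
      rw [h2]
      exact hBC _
  have hc : (sZ : Z) * (G * algebraMap F Z d) ∈ C := hroot _ hcm
  set c : C := ⟨_, hc⟩ with hcdef
  have hsc : (sZ : Z) * (G * algebraMap F Z d) = c := rfl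
  -- values of `G d` along `W` and `W'`
  have hv : ValAt C 𝔫 W (G * algebraMap F Z d) (ζ * η) :=
    (ValAt.const h𝔫top hζ).mul hCW hth (ValAt.map hBC hn𝔫 hη)
  have hv' : ValAt C 𝔫 W' (G * algebraMap F Z d) (ζ' * η') :=
    (ValAt.const h𝔫top hζ').mul hCW' hth' (ValAt.map hBC hn𝔫 hη')
  have h1 := hv.frac_mem hCW hth hsc
  have h2 := hv'.frac_mem hCW' hth' hsc
  have h3 : algebraMap R C (ζ * η - ζ' * η') * sZ ∈ 𝔫 := by
    have : algebraMap R C (ζ * η - ζ' * η') * sZ
        = (c - algebraMap R C (ζ' * η') * sZ) - (c - algebraMap R C (ζ * η) * sZ) := by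
      rw [map_sub]
      ring
    rw [this]
    exact 𝔫.sub_mem h2 h1
  rcases (Ideal.IsPrime.mem_or_mem ‹𝔫.IsPrime› h3) with h5 | h5
  · exact h5
  · exact absurd h5 hsZn

end Fermat.Agent.S36.H630
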