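import Fermat.Agent.S36.H630.ValAt

/-!
# S36 engine, LABEL core (helper630), part 8: existence of the values of a purity datum

`u ≡ 1` on the sheet `V`, `d` a purity datum of `u` at the closed point `n` (`u d ^ m s₀ = a₀`,
`a₀, s₀ ∈ B ∖ n`).  If the component `B / p_V` is normal (in the elementwise form `NormalAlong`)
and `n` is a rational point, then `d` has a value `η ∈ R`, a unit modulo `n`, at `n` along `V`
(`exists_valAt_of_pure`).

`normalAlong_of_isIntegrallyClosed` : `NormalAlong` from `IsIntegrallyClosed (B ⧸ p)`, `p` the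
centre of `V`, `V = B_p` (the shape of `A2.SSChart.normal₁` and of `H193.sheet_mem_iff`).
-/

set_option autoImplicit false
set_option linter.unusedSectionVars false

namespace Fermat.Agent.S36.H630

variable {R : Type*} [CommRing R] {F : Type*} [Field F] [Algebra R F]

/-- Normality of the component of `B` cut out by `V`, elementwise, for `m`-th roots: if the
`m`-th power of a residue lies in the residue ring of `B`, so does the residue. -/
def NormalAlong (B : Subalgebra R F) (V : ValuationSubring F) (m : ℕ) : Prop :=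
  ∀ y ∈ V, ∀ c : B, y ^ m - (c : F) ∈ V.nonunits → ∃ a : B, y - (a : F) ∈ V.nonunits

/-- In an integrally closed domain: `a ^ m = c b ^ m`, `b ≠ 0`, `m > 0` ⟹ `b ∣ a`. -/
theorem exists_eq_mul_of_pow_eq {D : Type*} [CommRing D] [IsDomain D] [IsIntegrallyClosed D]
    {m : ℕ} (hm : 0 < m) {a b c : D} (hb : b ≠ 0) (h : a ^ m = c * b ^ m) :
    ∃ z : D, a = z * b := by
  have hinj : Function.Injective (algebraMap D (FractionRing D)) :=
    IsFractionRing.injective D (FractionRing D)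
  have hbK : algebraMap D (FractionRing D) b ≠ 0 := by
    intro h0
    exact hb (hinj (by rw [h0, map_zero]))
  have hxm : (algebraMap D (FractionRing D) a * (algebraMap D (FractionRing D) b)⁻¹) ^ m
      = algebraMap D (FractionRing D) c := by
    rw [mul_pow, ← map_pow, h, map_mul, map_pow, inv_pow, mul_assoc,
      mul_inv_cancel₀ (pow_ne_zero _ hbK), mul_one]
  have hxint : IsIntegral D
      (algebraMap D (FractionRing D) a * (algebraMap D (FractionRing D) b)⁻¹) := by
    refine IsIntegral.of_pow hm ?_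
    rw [hxm]
    exact isIntegral_algebraMap
  obtain ⟨z, hz⟩ := IsIntegrallyClosed.algebraMap_eq_of_integral hxint
  refine ⟨z, hinj ?_⟩
  rw [map_mul, hz, mul_assoc, inv_mul_cancel₀ hbK, mul_one]

/-- `NormalAlong` from normality of the quotient by the centre. -/
theorem normalAlong_of_isIntegrallyClosed {B : Subalgebra R F} {p : Ideal B} [p.IsPrime]
    [IsIntegrallyClosed (B ⧸ p)] {V : ValuationSubring F} (hBV : ChartLe B V)
    (hcentre : ∀ c : B, (c : F) ∈ V.nonunits ↔ c ∈ p)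
    (hloc : ∀ y ∈ V, ∃ a b : B, b ∉ p ∧ (b : F) * y = a) {m : ℕ} (hm : 0 < m) :
    NormalAlong B V m := by
  intro y hy c hc
  obtain ⟨a, b, hb, hab⟩ := hloc y hy
  have hbu : (b : F) ∉ V.nonunits := fun h => hb ((hcentre b).1 h)
  have hbV : (b : F) ∈ V := hBV b
  have hb0 : (b : F) ≠ 0 := by
    intro h0
    apply hbu
    rw [h0]
    exact vnu_zero V
  -- `a ^ m - c b ^ m ∈ p`
  have h1 : a ^ m - c * b ^ m ∈ p := by
    rw [← hcentre]
    have : ((a ^ m - c * b ^ m : B) : F) = (b : F) ^ m * (y ^ m - c) := by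
      push_cast
      rw [← hab]
      ring
    rw [this]
    exact vnu_mul_left V hc (V.pow_mem hbV m)
  -- in the quotient
  have hbD : Ideal.Quotient.mk p b ≠ 0 := fun h => hb (Ideal.Quotient.eq_zero_iff_mem.1 h)
  have h2 : Ideal.Quotient.mk p a ^ m = Ideal.Quotient.mk p c * Ideal.Quotient.mk p b ^ m := by
    have := (Ideal.Quotient.eq (I := p)).2 h1
    simpa only [map_mul, map_pow] using this
  have : IsDomain (B ⧸ p) := Ideal.Quotient.isDomain p
  obtain ⟨z, hz⟩ := exists_eq_mul_of_pow_eq hm hbD h2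
  obtain ⟨a', rfl⟩ := Ideal.Quotient.mk_surjective z
  -- `a - a' b ∈ p`
  have h3 : a - a' * b ∈ p := by
    apply (Ideal.Quotient.eq (I := p)).1
    rw [map_mul]
    exact hz
  refine ⟨a', ?_⟩
  have h4 : ((a - a' * b : B) : F) ∈ V.nonunits := (hcentre _).2 h3
  have : y - (a' : F) = (b : F)⁻¹ * ((a - a' * b : B) : F) := by
    push_cast
    rw [← hab]
    field_simp
  rw [this]
  exact vnu_mul_left V h4 (vnu_inv_mem V hbV hbu)

/-- **Existence of the value of a purity datum.** -/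
theorem exists_valAt_of_pure {B : Subalgebra R F} {n : Ideal B} [hn : n.IsMaximal]
    (hrat : ∀ c : B, ∃ r : R, c - algebraMap R B r ∈ n)
    {V : ValuationSubring F} (hBV : ChartLe B V) (hth : PassThrough B n V)
    {m : ℕ} (hm : 0 < m) (hnormal : NormalAlong B V m)
    {u d : F} (hu : u - 1 ∈ V.nonunits) {a₀ s₀ : B} (ha₀ : a₀ ∉ n) (hs₀ : s₀ ∉ n)
    (hpure : u * d ^ m * (s₀ : F) = a₀) :
    ∃ η : R, algebraMap R B η ∉ n ∧ ValAt B n V d η := by
  have hnp : n.IsPrime := hn.isPrime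
  -- units of `V`
  have huV : u ∈ V ∧ u ∉ V.nonunits := vnu_unit_of_sub V hu V.one_mem (vnu_one_not V)
  have hsu : (s₀ : F) ∉ V.nonunits := hth.not_nonunits hs₀
  have hau : (a₀ : F) ∉ V.nonunits := hth.not_nonunits ha₀
  have hu0 : u ≠ 0 := by
    rintro rfl
    exact huV.2 (vnu_zero V)
  have hs0 : (s₀ : F) ≠ 0 := by
    intro h0
    apply hsu
    rw [h0]
    exact vnu_zero V
  -- `d ^ m ∈ V`, hence `d ∈ V`
  have hdm : d ^ m = (a₀ : F) * ((s₀ : F)⁻¹ * u⁻¹) := by
    rw [← hpure]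
    field_simp
  have hdmV : d ^ m ∈ V := by
    rw [hdm]
    exact V.mul_mem _ _ (hBV a₀)
      (V.mul_mem _ _ (vnu_inv_mem V (hBV s₀) hsu) (vnu_inv_mem V huV.1 huV.2))
  have hdV : d ∈ V := by
    rw [← V.valuation_le_one_iff] at hdmV ⊢
    rw [map_pow] at hdmV
    exact (pow_le_one_iff_of_nonneg zero_le hm.ne').1 hdmV
  -- `y = s₀ d`, `y ^ m ≡ s₀ ^ (m - 1) a₀`
  obtain ⟨j, hj⟩ : ∃ j, m = j + 1 := ⟨m - 1, (Nat.sub_add_cancel hm).symm⟩
  have hy : ((s₀ : F) * d) ^ m - ((s₀ ^ j * a₀ : B) : F) ∈ V.nonunits := by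
    have : ((s₀ : F) * d) ^ m - ((s₀ ^ j * a₀ : B) : F)
        = -((s₀ : F) ^ j * (a₀ : F) * u⁻¹ * (u - 1)) := by
      push_cast
      rw [← hpure, hj]
      field_simp
      ring
    rw [this]
    refine vnu_neg V (vnu_mul_left V hu ?_)
    exact V.mul_mem _ _ (V.mul_mem _ _ (V.pow_mem (hBV s₀) j) (hBV a₀))
      (vnu_inv_mem V huV.1 huV.2)
  obtain ⟨a', ha'⟩ := hnormal _ (V.mul_mem _ _ (hBV s₀) hdV) _ hy
  -- `a' ∉ n`
  have ha'n : a' ∉ n := by
    intro h
    -- `a' ^ m ≡ s₀ ^ j a₀` on `V`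
    have h1 : ((a' ^ m - s₀ ^ j * a₀ : B) : F) ∈ V.nonunits := by
      have h2 : ((a' ^ m - s₀ ^ j * a₀ : B) : F)
          = (((s₀ : F) * d) ^ m - ((s₀ ^ j * a₀ : B) : F))
            - (((s₀ : F) * d) ^ m - (a' : F) ^ m) := by
        push_cast
        ring
      rw [h2]
      refine vnu_sub V hy ?_
      rw [← geom_sum₂_mul]
      exact vnu_mul_left V ha'
        (V.sum_mem fun i _ => V.mul_mem _ _
          (V.pow_mem (V.mul_mem _ _ (hBV s₀) hdV) i) (V.pow_mem (hBV a') _))
    have h3 : a' ^ m - s₀ ^ j * a₀ ∈ n := hth _ h1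
    have h4 : s₀ ^ j * a₀ ∈ n := by
      have : s₀ ^ j * a₀ = a' ^ m - (a' ^ m - s₀ ^ j * a₀) := by ring
      rw [this]
      exact n.sub_mem (n.pow_mem_of_mem h m hm) h3
    rcases hnp.mem_or_mem h4 with h5 | h5
    · exact hs₀ (hnp.mem_of_pow_mem j h5)
    · exact ha₀ h5
  -- the value
  obtain ⟨s', i, hi, hsi⟩ := hn.exists_inv hs₀
  obtain ⟨r, hr⟩ := hrat (a' * s')
  have hval : a' - algebraMap R B r * s₀ ∈ n := by
    have : a' - algebraMap R B r * s₀ = (a' * s' - algebraMap R B r) * s₀ + a' * i := by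
      rw [← sub_eq_zero]
      have h6 : s' * s₀ + i - 1 = 0 := by rw [hsi, sub_self]
      linear_combination (-a') * h6
    rw [this]
    exact n.add_mem (n.mul_mem_right _ hr) (n.mul_mem_left _ hi)
  refine ⟨r, ?_, a', s₀, hs₀, ha', hval⟩
  intro hrn
  apply ha'n
  have : a' = (a' - algebraMap R B r * s₀) + algebraMap R B r * s₀ := by ring
  rw [this]
  exact n.add_mem hval (n.mul_mem_right _ hrn)

end Fermat.Agent.S36.H630
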