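import Fermat.Agent.S36.H630.CoverLocal
import Fermat.Agent.S36.H193.LabelWall

/-!
# S36 engine, LABEL core (helper630), part 3: the local hypothesis of the label wall

`H193.kummer_wall3` (main) proves `G ∈ F` for a split Kummer generator `G ^ m = u` from the local
hypothesis `hloc`: *sheets of the cover `Z` through a common closed point of the special fibre
have the same normalised label*.  This file produces `hloc` from a datum on the BASE `F`:

`LabelAt B n 𝒱 m u ζ κ` : at the closed point `n` of the chart `B ⊆ F` there is a purity datum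
`d` (`u d ^ m ∈ B_n`) whose values along the sheets `V ∈ 𝒱` through `n` are
`η₀ ζ ^ (-κ V)`, with `η₀` independent of the sheet.

So the engine has to provide, at every closed point of the two charts of `F`,
purity (cell REG) and the constancy of the label ratios (LAB-NORM + label algebra).
-/

set_option autoImplicit false
set_option linter.unusedSectionVars false

namespace Fermat.Agent.S36.H630

open Fermat.Agent.S18.H138 Fermat.Agent.S36.H193

variable {R : Type*} [CommRing R] {F : Type*} [Field F] [Algebra R F]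
variable {Z : Type*} [Field Z] [Algebra R Z] [Algebra F Z] [IsScalarTower R F Z]

/-- **The label datum on the base** at a closed point `n` of the chart `B`. -/
def LabelAt (B : Subalgebra R F) (n : Ideal B) (𝒱 : Set (ValuationSubring F)) (m : ℕ) (u : F)
    (ζ : R) (κ : ValuationSubring F → ℕ) : Prop :=
  ∃ (d : F) (a₀ s₀ : B) (η₀ : R), d ≠ 0 ∧ s₀ ∉ n ∧ u * d ^ m * (s₀ : F) = a₀ ∧
    algebraMap R B η₀ ∉ n ∧
    ∀ V ∈ 𝒱, PassThrough B n V → ValAt B n V d (η₀ * ζ ^ ((m - 1) * κ V))

/-- the image of a chart of `F` lies in the corresponding chart of `Z` -/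
theorem algebraMap_mem_chart (S₀ : Set F) {b : F} (hb : b ∈ chart R S₀) :
    algebraMap F Z b ∈ chart R (algebraMap F Z '' S₀) := by
  rw [mem_chart] at hb ⊢
  -- transport an integral equation
  obtain ⟨p, hp, hpb⟩ := hb
  -- the map of coefficient rings
  have hle : ∀ y ∈ Algebra.adjoin R S₀, algebraMap F Z y ∈ Algebra.adjoin R (algebraMap F Z '' S₀) := by
    intro y hy
    have h1 : (IsScalarTower.toAlgHom R F Z) y ∈ (Algebra.adjoin R S₀).map (IsScalarTower.toAlgHom R F Z) :=
      ⟨y, hy, rfl⟩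
    rw [AlgHom.map_adjoin] at h1
    exact h1
  let φ : Algebra.adjoin R S₀ →+* Algebra.adjoin R (algebraMap F Z '' S₀) :=
    { toFun := fun y => ⟨algebraMap F Z (y : F), hle y y.2⟩
      map_one' := Subtype.ext (map_one _)
      map_mul' := fun _ _ => Subtype.ext (map_mul _ _ _)
      map_zero' := Subtype.ext (map_zero _)
      map_add' := fun _ _ => Subtype.ext (map_add _ _ _) }
  refine ⟨p.map φ, hp.map φ, ?_⟩
  have h2 : Polynomial.eval₂ (algebraMap (Algebra.adjoin R (algebraMap F Z '' S₀)) Z)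
      (algebraMap F Z b) (p.map φ)
      = algebraMap F Z (Polynomial.eval₂ (algebraMap (Algebra.adjoin R S₀) F) b p) := by
    rw [Polynomial.eval₂_map, Polynomial.hom_eval₂]
    rfl
  rw [h2, hpb, map_zero]

/-- the chart of `Z` is closed under `m`-th roots -/
theorem chart_root_mem (S : Set Z) {m : ℕ} (hm : 0 < m) {z : Z} (hz : z ^ m ∈ chart R S) :
    z ∈ chart R S := by
  rw [mem_chart] at hz ⊢
  exact IsIntegral.of_pow hm hz

section RootsOfUnity

/-- Two powers of a root of unity of order `m`, `m` invertible, which are different, differ by a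
unit. -/
theorem isUnit_zeta_pow_sub (hinjR : Function.Injective (algebraMap R Z))
    {m : ℕ} (hm : 0 < m) {mi : R} (hmi : (m : R) * mi = 1) {ζ : R} (hζ : ζ ^ m = 1)
    {i j : ℕ} (hne : ζ ^ i ≠ ζ ^ j) : IsUnit (ζ ^ i - ζ ^ j) := by
  have hm1 : m - 1 + 1 = m := Nat.sub_add_cancel hm
  -- `ξ = ζ ^ i / ζ ^ j`
  set ξ : R := ζ ^ i * ζ ^ (j * (m - 1)) with hξ
  have hjj : ζ ^ j * ζ ^ (j * (m - 1)) = 1 := by
    rw [← pow_add]
    have : j + j * (m - 1) = m * j := by
      calc j + j * (m - 1) = j * (m - 1 + 1) := by ring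
        _ = m * j := by rw [hm1, mul_comm]
    rw [this, pow_mul, hζ, one_pow]
  have hξm : ξ ^ m = 1 := by
    rw [hξ, mul_pow, ← pow_mul, ← pow_mul, mul_comm i m, mul_comm (j * (m - 1)) m, pow_mul,
      pow_mul ζ m, hζ, one_pow, one_pow, one_mul]
  have hdiff : ζ ^ i - ζ ^ j = ζ ^ j * (ξ - 1) := by
    rw [hξ]
    calc ζ ^ i - ζ ^ j = ζ ^ i * (ζ ^ j * ζ ^ (j * (m - 1))) - ζ ^ j := by rw [hjj, mul_one]
      _ = ζ ^ j * (ζ ^ i * ζ ^ (j * (m - 1)) - 1) := by ring
  have hξne : ξ ≠ 1 := by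
    intro h
    apply hne
    have : ζ ^ i - ζ ^ j = 0 := by rw [hdiff, h, sub_self, mul_zero]
    exact sub_eq_zero.1 this
  -- the geometric sum vanishes
  have hsum : ∑ t ∈ Finset.range m, ξ ^ t = 0 := by
    apply hinjR
    rw [map_zero]
    have h2 : (algebraMap R Z ξ - 1) * algebraMap R Z (∑ t ∈ Finset.range m, ξ ^ t) = 0 := by
      rw [← map_one (algebraMap R Z), ← map_sub, ← map_mul, mul_geom_sum, hξm, sub_self, map_zero]
    rcases mul_eq_zero.1 h2 with h3 | h3
    · exfalso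
      apply hξne
      apply hinjR
      rw [map_one]
      exact sub_eq_zero.1 h3
    · exact h3
  -- `m = (1 - ξ) * (…)`
  have hdiv : ∀ t : ℕ, ∃ c : R, 1 - ξ ^ t = (1 - ξ) * c := by
    intro t
    refine ⟨∑ s ∈ Finset.range t, ξ ^ s, ?_⟩
    have := mul_neg_geom_sum ξ t
    rw [this]
  choose c hc using hdiv
  have hmm : (m : R) = (1 - ξ) * ∑ t ∈ Finset.range m, c t := by
    rw [Finset.mul_sum]
    have : ∑ t ∈ Finset.range m, (1 - ξ) * c t = ∑ t ∈ Finset.range m, (1 - ξ ^ t) :=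
      Finset.sum_congr rfl fun t _ => (hc t).symm
    rw [this, Finset.sum_sub_distrib, hsum, sub_zero]
    simp
  have hu1 : IsUnit (1 - ξ) := by
    refine IsUnit.of_mul_eq_one ((∑ t ∈ Finset.range m, c t) * mi) ?_
    rw [← mul_assoc, ← hmm, hmi]
  have hu2 : IsUnit (ξ - 1) := by
    have : ξ - 1 = -(1 - ξ) := by ring
    rw [this]
    exact hu1.neg
  have hu3 : IsUnit (ζ ^ j) := IsUnit.of_mul_eq_one _ hjj
  rw [hdiff]
  exact hu3.mul hu2

end RootsOfUnity

/-- The map of charts `B → C`. -/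
def chartHom (S₀ : Set F) : chart R S₀ →+* chart R (algebraMap F Z '' S₀) where
  toFun := fun b => ⟨algebraMap F Z (b : F), algebraMap_mem_chart S₀ b.2⟩
  map_one' := Subtype.ext (map_one _)
  map_mul' := fun _ _ => Subtype.ext (map_mul _ _ _)
  map_zero' := Subtype.ext (map_zero _)
  map_add' := fun _ _ => Subtype.ext (map_add _ _ _)

/-- **The local hypothesis of the label wall from the label datum on the base.** -/
theorem hloc_of_labelAt
    (hinjR : Function.Injective (algebraMap R Z))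
    {m : ℕ} (hm : 0 < m) {mi : R} (hmi : (m : R) * mi = 1) {ζ : R} (hζ : ζ ^ m = 1)
    (S₀ : Set F) {u : F} {G : Z} (hG : G ^ m = algebraMap F Z u)
    (𝒱 : Set (ValuationSubring F)) (κ : ValuationSubring F → ℕ)
    (𝔫 : Ideal (chart R (algebraMap F Z '' S₀))) [𝔫.IsPrime]
    (hlab : LabelAt (chart R S₀) (𝔫.comap (chartHom (R := R) (Z := Z) S₀)) 𝒱 m u ζ κ)
    {W W' : ValuationSubring Z}
    (hW : W.comap (algebraMap F Z) ∈ 𝒱) (hW' : W'.comap (algebraMap F Z) ∈ 𝒱)
    (hCW : ∀ c ∈ chart R (algebraMap F Z '' S₀), c ∈ W)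
    (hCW' : ∀ c ∈ chart R (algebraMap F Z '' S₀), c ∈ W')
    (hth : Through (chart R (algebraMap F Z '' S₀)) 𝔫 W)
    (hth' : Through (chart R (algebraMap F Z '' S₀)) 𝔫 W')
    (a b : ℕ) (ha : G - algebraMap R Z (ζ ^ a) ∈ W.nonunits)
    (hb : G - algebraMap R Z (ζ ^ b) ∈ W'.nonunits) :
    ζ ^ (a + κ (W'.comap (algebraMap F Z))) = ζ ^ (b + κ (W.comap (algebraMap F Z))) := by
  classical
  have hBC : ∀ b : chart R S₀, algebraMap F Z (b : F) ∈ chart R (algebraMap F Z '' S₀) :=
    fun b => algebraMap_mem_chart S₀ b.2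
  have hn𝔫 : ∀ b : chart R S₀, b ∈ 𝔫.comap (chartHom (R := R) (Z := Z) S₀) ↔
      (⟨algebraMap F Z (b : F), hBC b⟩ : chart R (algebraMap F Z '' S₀)) ∈ 𝔫 := fun b => Iff.rfl
  have hCWl : ChartLe (chart R (algebraMap F Z '' S₀)) W := fun c => hCW c c.2
  have hCWl' : ChartLe (chart R (algebraMap F Z '' S₀)) W' := fun c => hCW' c c.2
  have hthP : PassThrough (chart R (algebraMap F Z '' S₀)) 𝔫 W := hth
  have hthP' : PassThrough (chart R (algebraMap F Z '' S₀)) 𝔫 W' := hth'
  obtain ⟨d, a₀, s₀, η₀, -, hs₀, hpure, hη₀, hval⟩ := hlab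
  set k := κ (W.comap (algebraMap F Z)) with hk
  set k' := κ (W'.comap (algebraMap F Z)) with hk'
  have hv := hval _ hW (PassThrough.comap hBC (fun b hb => (hn𝔫 b).2 hb) hthP)
  have hv' := hval _ hW' (PassThrough.comap hBC (fun b hb => (hn𝔫 b).2 hb) hthP')
  have hroot : ∀ z : Z, z ^ m ∈ chart R (algebraMap F Z '' S₀) →
      z ∈ chart R (algebraMap F Z '' S₀) := fun z hz => chart_root_mem _ hm hz
  have key := cover_local hBC hn𝔫 hroot hG hs₀ hpure hCWl hCWl' hthP hthP' ha hb hv hv'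
  -- `key : (ζ^a η₀ ζ^((m-1)k) - ζ^b η₀ ζ^((m-1)k')) ∈ 𝔫`
  have hm1 : m - 1 + 1 = m := Nat.sub_add_cancel hm
  by_contra hne
  -- first: `ζ ^ (a + (m-1) k) ≠ ζ ^ (b + (m-1) k')`
  have hne2 : ζ ^ (a + (m - 1) * k) ≠ ζ ^ (b + (m - 1) * k') := by
    intro h
    apply hne
    have e1 : ζ ^ (a + k') = ζ ^ (a + (m - 1) * k) * ζ ^ (k + k') := by
      rw [← pow_add]
      have : a + (m - 1) * k + (k + k') = a + k' + m * k := by
        calc a + (m - 1) * k + (k + k') = a + k' + (m - 1 + 1) * k := by ring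
          _ = a + k' + m * k := by rw [hm1]
      rw [this, pow_add ζ (a + k') (m * k), pow_mul ζ m k, hζ, one_pow, mul_one]
    have e2 : ζ ^ (b + k) = ζ ^ (b + (m - 1) * k') * ζ ^ (k + k') := by
      rw [← pow_add]
      have : b + (m - 1) * k' + (k + k') = b + k + m * k' := by
        calc b + (m - 1) * k' + (k + k') = b + k + (m - 1 + 1) * k' := by ring
          _ = b + k + m * k' := by rw [hm1]
      rw [this, pow_add ζ (b + k) (m * k'), pow_mul ζ m k', hζ, one_pow, mul_one]
    rw [e1, e2, h]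
  have hu := isUnit_zeta_pow_sub hinjR hm hmi hζ hne2
  have h1 : algebraMap R (chart R (algebraMap F Z '' S₀))
        (ζ ^ a * (η₀ * ζ ^ ((m - 1) * k)) - ζ ^ b * (η₀ * ζ ^ ((m - 1) * k')))
      = algebraMap R (chart R (algebraMap F Z '' S₀))
          (ζ ^ (a + (m - 1) * k) - ζ ^ (b + (m - 1) * k'))
        * algebraMap R (chart R (algebraMap F Z '' S₀)) η₀ := by
    rw [← map_mul]
    congr 1
    rw [pow_add, pow_add]
    ring
  rw [h1] at key
  rcases (Ideal.IsPrime.mem_or_mem ‹𝔫.IsPrime› key) with h5 | h5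
  · exact (Ideal.IsPrime.ne_top ‹𝔫.IsPrime›) (Ideal.eq_top_of_isUnit_mem _ h5 (hu.map _))
  · apply hη₀
    rw [Ideal.mem_comap]
    have h6 : chartHom (R := R) (Z := Z) S₀ (algebraMap R (chart R S₀) η₀)
        = algebraMap R (chart R (algebraMap F Z '' S₀)) η₀ := by
      apply Subtype.ext
      show algebraMap F Z (algebraMap R F η₀) = algebraMap R Z η₀
      rw [← IsScalarTower.algebraMap_apply]
    rw [h6]
    exact h5

end Fermat.Agent.S36.H630
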