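import Fermat.Agent.S36.H630.UnitNorm
import Fermat.Agent.S36.H630.ExistVal
import Fermat.Agent.S36.H630.LabelHloc
import Fermat.Agent.S35.H433.ResField

/-!
# S36 engine, LABEL core (helper630), part 11: auxiliary lemmas for the adapter to `Eng.TripleCtx`

Mathlib-level facts about charts (`S18.H138.chart`), used to derive the hypotheses of the label
theorems from the fields of the three-component context:

* `chartLe_chart`            : `R ⊆ V`, `S ⊆ V` ⟹ `chart R S ⊆ V`;
* `rat_chart`                : closed points of the special fibre of a chart are rational;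
* `norm_mem_chart`           : the norm of an element integral over the chart below lies in it;
* `exists_local_denominator` : local denominators at a point which is alone in its fibre;
* `exists_label`             : `k ^ m ≡ 1` on `V'` ⟹ `k ≡ ζ ^ i` on `V'`;
* `normalAlong_of_monic`     : the polynomial form of normality implies the `m`-th root form.
-/

set_option autoImplicit false
set_option linter.unusedSectionVars false
set_option linter.style.haveILetI false

namespace Fermat.Agent.S36.H630

open Polynomial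
open Fermat.Agent.S18.H138 (chart mem_chart)

section Chart

variable {R : Type*} [CommRing R] {F : Type*} [Field F] [Algebra R F]

/-- A chart lies in every valuation ring containing `R` and the coordinates. -/
theorem chartLe_chart {V : ValuationSubring F} (hRV : ∀ r : R, algebraMap R F r ∈ V)
    {S : Set F} (hS : ∀ s ∈ S, s ∈ V) : ChartLe (chart R S) V := by
  intro b
  have hb : IsIntegral (Algebra.adjoin R S) (b : F) := mem_chart.1 b.2
  have hle : ∀ y ∈ Algebra.adjoin R S, y ∈ V := by
    intro y hy
    induction hy using Algebra.adjoin_induction with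
    | mem y hy => exact hS y hy
    | algebraMap r => exact hRV r
    | add y z _ _ hy hz => exact V.add_mem _ _ hy hz
    | mul y z _ _ hy hz => exact V.mul_mem _ _ hy hz
  obtain ⟨p, hp, hpb⟩ := hb
  -- transport the integral equation to `V`
  let φ : Algebra.adjoin R S →+* V :=
    { toFun := fun y => ⟨(y : F), hle y y.2⟩
      map_one' := rfl
      map_mul' := fun _ _ => rfl
      map_zero' := rfl
      map_add' := fun _ _ => rfl }
  have hint : IsIntegral V (b : F) := by
    refine ⟨p.map φ, hp.map φ, ?_⟩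
    rw [Polynomial.eval₂_map]
    exact hpb
  have h1 : (b : F) ∈ Set.range (algebraMap V F) :=
    (IsIntegrallyClosed.isIntegral_iff (R := V) (K := F)).1 hint
  obtain ⟨v, hv⟩ := h1
  rw [← hv]
  exact v.2

/-- The polynomial form of normality along a sheet implies the `m`-th root form. -/
theorem normalAlong_of_monic {B : Subalgebra R F} {V : ValuationSubring F}
    (h : ∀ (f : F) (p : Polynomial B), p.Monic → Polynomial.aeval f p ∈ V.nonunits →
      ∃ b : B, f - (b : F) ∈ V.nonunits) {m : ℕ} (hm : 0 < m) : NormalAlong B V m := by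
  intro y _ c hc
  refine h y (X ^ m - C c) (monic_X_pow_sub_C c hm.ne') ?_
  have : Polynomial.aeval y (X ^ m - C c : Polynomial B) = y ^ m - (c : F) := by
    rw [map_sub, map_pow, aeval_X, aeval_C]
    rfl
  rw [this]
  exact hc

end Chart

section Rat

variable {R : Type*} [CommRing R] [IsDomain R] [IsDiscreteValuationRing R]
  [IsAlgClosed (IsLocalRing.ResidueField R)]
variable {F : Type*} [Field F] [Algebra R F]

/-- **Closed points of the special fibre of a chart are rational** (general form). -/
theorem rat_of_chart (x : F) (B : Subalgebra R F)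
    (hB : ∀ f : F, f ∈ B ↔ IsIntegral (Algebra.adjoin R ({x} : Set F)) f)
    (n : Ideal B) (hn : n.IsMaximal)
    (h𝔪n : ∀ r ∈ IsLocalRing.maximalIdeal R, algebraMap R B r ∈ n)
    (b : B) : ∃ r : R, b - algebraMap R B r ∈ n := by
  let _ : Field (B ⧸ n) := Ideal.Quotient.field n
  let xB : B := ⟨x, Fermat.Agent.A2.Alg.H609.self_mem_chart x B hB⟩
  let f : R →+* B ⧸ n := (Ideal.Quotient.mk n).comp (algebraMap R B)
  have hker : ∀ a ∈ IsLocalRing.maximalIdeal R, f a = 0 := by
    intro a ha
    show Ideal.Quotient.mk n (algebraMap R B a) = 0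
    rw [Ideal.Quotient.eq_zero_iff_mem]
    exact h𝔪n a ha
  let g : IsLocalRing.ResidueField R →+* B ⧸ n :=
    Ideal.Quotient.lift (IsLocalRing.maximalIdeal R) f hker
  have hg : ∀ r : R, g (IsLocalRing.residue R r) = f r := fun r => rfl
  let ψ : (IsLocalRing.ResidueField R)[X] →+* B ⧸ n :=
    Polynomial.eval₂RingHom g (Ideal.Quotient.mk n xB)
  let φ₀ : R[X] →+* B ⧸ n := (Ideal.Quotient.mk n).comp (aeval (R := R) xB).toRingHom
  have hφ₀ : φ₀.IsIntegral :=
    RingHom.IsIntegral.trans _ _ (Fermat.Agent.A2.Alg.H609.isIntegral_aeval_chart x B hB)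
      (RingHom.isIntegral_of_surjective _ Ideal.Quotient.mk_surjective)
  have hcomp : ψ.comp (Polynomial.mapRingHom (IsLocalRing.residue R)) = φ₀ := by
    refine Polynomial.ringHom_ext (fun r => ?_) ?_
    · simp only [RingHom.comp_apply, Polynomial.coe_mapRingHom, Polynomial.map_C, ψ, φ₀,
        Polynomial.coe_eval₂RingHom, Polynomial.eval₂_C, hg, f, AlgHom.toRingHom_eq_coe,
        RingHom.coe_coe, aeval_C]
    · simp only [RingHom.comp_apply, Polynomial.coe_mapRingHom, Polynomial.map_X, ψ, φ₀,
        Polynomial.coe_eval₂RingHom, Polynomial.eval₂_X, AlgHom.toRingHom_eq_coe,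
        RingHom.coe_coe, aeval_X]
  have hψ : ψ.IsIntegral := by
    apply RingHom.IsIntegral.tower_top (Polynomial.mapRingHom (IsLocalRing.residue R)) ψ
    rw [hcomp]
    exact hφ₀
  obtain ⟨c, hc⟩ :=
    Fermat.Agent.S35.H433.surjective_of_isIntegral_polynomial ψ hψ (Ideal.Quotient.mk n b)
  obtain ⟨r, rfl⟩ := IsLocalRing.residue_surjective c
  refine ⟨r, ?_⟩
  rw [← Ideal.Quotient.eq_zero_iff_mem, map_sub, sub_eq_zero, ← hc]
  simp only [RingHom.comp_apply, ψ, Polynomial.coe_eval₂RingHom, Polynomial.eval₂_C, hg, f]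

/-- **Closed points of the special fibre of a chart are rational.** -/
theorem rat_chart (x : F) (n : Ideal (chart R ({x} : Set F))) (hn : n.IsMaximal)
    (h𝔪n : ∀ r ∈ IsLocalRing.maximalIdeal R, algebraMap R (chart R ({x} : Set F)) r ∈ n)
    (b : chart R ({x} : Set F)) : ∃ r : R, b - algebraMap R (chart R ({x} : Set F)) r ∈ n :=
  rat_of_chart x (chart R ({x} : Set F)) (fun _ => Iff.rfl) n hn h𝔪n b

end Rat

section Norm

variable {R : Type*} [CommRing R] {F' : Type*} [Field F'] [Algebra R F']
variable {F : Type*} [Field F] [Algebra R F] [Algebra F' F] [IsScalarTower R F' F]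

/-- An element of `F` which is a root of a monic polynomial with coefficients in the chart of
`F'` is integral over the base of that chart. -/
theorem isIntegral_adjoin_of_monic {S' : Set F'} {b : F}
    (hb : ∃ p : Polynomial F', p.Monic ∧ (∀ i, p.coeff i ∈ chart R S') ∧
      (p.map (algebraMap F' F)).eval b = 0) :
    IsIntegral (Algebra.adjoin R S') b := by
  obtain ⟨p, hp, hc, hroot⟩ := hb
  have hl : p ∈ Polynomial.lifts (algebraMap (integralClosure (Algebra.adjoin R S') F') F') :=
    (Polynomial.lifts_iff_coeff_lifts p).2 (fun i => ⟨⟨p.coeff i, hc i⟩, rfl⟩)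
  obtain ⟨q, hq, -, hqm⟩ := Polynomial.lifts_and_degree_eq_and_monic hl hp
  have hCb : IsIntegral (integralClosure (Algebra.adjoin R S') F') b := by
    refine ⟨q, hqm, ?_⟩
    have h1 : algebraMap (integralClosure (Algebra.adjoin R S') F') F
        = (algebraMap F' F).comp (algebraMap (integralClosure (Algebra.adjoin R S') F') F') :=
      rfl
    rw [h1, ← Polynomial.eval₂_map, hq, Polynomial.eval₂_eq_eval_map]
    exact hroot
  exact isIntegral_trans b hCb

/-- **The norm of an element integral over the chart below lies in the chart below.** -/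
theorem norm_mem_chart {S' : Set F'} {b : F}
    (hb : ∃ p : Polynomial F', p.Monic ∧ (∀ i, p.coeff i ∈ chart R S') ∧
      (p.map (algebraMap F' F)).eval b = 0) :
    Algebra.norm F' b ∈ chart R S' :=
  mem_chart.2 (Algebra.isIntegral_norm F' (isIntegral_adjoin_of_monic hb))

end Norm

section Denominators

variable {A B : Type*} [CommRing A] [CommRing B]

/-- **Local denominators.**  If `n` is the only prime of `B` over `n ∩ A` (`B` integral over
`A`), every `s ∉ n` divides the image of some `t ∈ A`, `t ∉ n ∩ A`. -/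
theorem exists_local_denominator (a : A →+* B) (ha_int : a.IsIntegral) (n : Ideal B)
    [n.IsPrime]
    (huniq : ∀ Q : Ideal B, Q.IsPrime → Q.comap a = n.comap a → Q = n)
    (s : B) (hs : s ∉ n) : ∃ (s' : B) (t : A), t ∉ n.comap a ∧ s * s' = a t := by
  classical
  by_contra hcon
  push Not at hcon
  haveI hN : (n.comap a).IsPrime := Ideal.comap_isPrime a n
  let S : Submonoid B := (n.comap a).primeCompl.map (a : A →* B)
  have hdisj : Disjoint ((Ideal.span {s} : Ideal B) : Set B) (S : Set B) := by
    rw [Set.disjoint_left]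
    rintro x hx ⟨t, ht, rfl⟩
    obtain ⟨s', hs'⟩ := Ideal.mem_span_singleton'.mp hx
    exact hcon s' t ht (by rw [mul_comm]; exact hs')
  obtain ⟨p, hp, hsp, hpS⟩ := Ideal.exists_le_prime_disjoint (Ideal.span {s}) S hdisj
  have hpc : p.comap a ≤ n.comap a := by
    intro t ht
    by_contra htn
    exact Set.disjoint_left.mp hpS (show a t ∈ p from ht) ⟨t, htn, rfl⟩
  letI : Algebra A B := a.toAlgebra
  haveI : Algebra.IsIntegral A B := ⟨ha_int⟩
  obtain ⟨Q, hQ, hQp, hQc⟩ := Ideal.exists_ideal_over_prime_of_isIntegral (n.comap a) p hpc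
  have hQn : Q = n := huniq Q hQp hQc
  exact hs (hQn ▸ hQ (hsp (Ideal.subset_span rfl)))

end Denominators

section Label

variable {R : Type*} [CommRing R] [IsDomain R] {F' : Type*} [Field F'] [Algebra R F']

/-- **Existence of the label.**  `k ^ m ≡ 1` on `V'` ⟹ `k ≡ ζ ^ i` on `V'` for some `i`. -/
theorem exists_label {V' : ValuationSubring F'} (hRV : ∀ r : R, algebraMap R F' r ∈ V')
    (hinj : Function.Injective (algebraMap R F')) {m : ℕ} (hm : 0 < m) {ζ : R}
    (hζ : IsPrimitiveRoot ζ m) {k : F'} (hk : k ^ m - 1 ∈ V'.nonunits) :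
    ∃ i : ℕ, k - algebraMap R F' (ζ ^ i) ∈ V'.nonunits := by
  classical
  have hζ' : IsPrimitiveRoot (algebraMap R F' ζ) m := hζ.map_of_injective hinj
  have hkm : k ^ m ∈ V' := by
    have : k ^ m = (k ^ m - 1) + 1 := by ring
    rw [this]
    exact V'.add_mem _ _ (vnu_mem V' hk) V'.one_mem
  have hkV : k ∈ V' := by
    by_contra hkn
    have h1 : k⁻¹ ∈ V'.nonunits := by
      rw [ValuationSubring.mem_nonunits_iff_or]
      right
      rwa [inv_inv]
    have h2 : (k⁻¹) ^ m * k ^ m ∈ V'.nonunits :=
      vnu_mul_right V' (vnu_pow V' h1 hm.ne') hkm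
    have hk0 : k ≠ 0 := by
      rintro rfl
      exact hkn V'.zero_mem
    rw [← mul_pow, inv_mul_cancel₀ hk0, one_pow] at h2
    exact vnu_one_not V' h2
  by_contra hcon
  push Not at hcon
  haveI : NeZero m := ⟨hm.ne'⟩
  have h1 : k ^ m - 1 = ∏ ξ ∈ nthRootsFinset m (1 : F'), (k - ξ) := by
    have := hζ'.pow_sub_pow_eq_prod_sub_mul k 1 hm
    simpa using this
  have hall : ∀ ξ ∈ nthRootsFinset m (1 : F'), (k - ξ) ∈ V' ∧ (k - ξ) ∉ V'.nonunits := by
    intro ξ hξ
    have hξ1 : ξ ^ m = 1 := (mem_nthRootsFinset hm 1).1 hξ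
    obtain ⟨i, -, rfl⟩ := hζ'.eq_pow_of_pow_eq_one hξ1
    rw [← map_pow]
    exact ⟨V'.sub_mem hkV (hRV _), hcon i⟩
  have h2 := Finset.prod_induction (fun ξ => k - ξ) (fun a => a ∈ V' ∧ a ∉ V'.nonunits)
    (fun a b ha hb => ⟨V'.mul_mem _ _ ha.1 hb.1, vnu_mul_not V' ha.1 hb.1 ha.2 hb.2⟩)
    ⟨V'.one_mem, vnu_one_not V'⟩ hall
  rw [← h1] at h2
  exact h2.2 hk

end Label

end Fermat.Agent.S36.H630
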