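import Fermat.Agent.S36.H630.FromCtx

/-!
# S36 engine, ALG3 gap G4 (helper630): `BasePureValuesAt` at EVERY closed point of both charts,
from `Eng.TripleCtx` (Spec v1.3)

* `labelAt_fin_ctx`        : the label datum at a closed point of `chart R {x}` (triple point:
  `labelAt_triple_ctx`; otherwise at most one sheet passes, by `ctx.incidence`);
* `labelAt_inf_ctx`        : the label datum at a closed point of `chart R {x⁻¹}` (cusps: at most
  one sheet, by `ctx.cusp_single`; off the cusps: change of chart);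
* `exists_kappa_basePure`  : **the theorem for the assembler**: ONE colouring `κ` and, at every
  closed point of the special fibre of both charts, purity datum ⟹ `H193.BasePureValuesAt`
  for `u ^ ((q - 1) (q + 1))`, in the exact shape of the hypotheses `hpure_fin`, `hpure_inf` of
  `H193.exists_pow_eq_of_three`.
-/

set_option autoImplicit false
set_option linter.unusedSectionVars false
set_option linter.style.haveILetI false
set_option maxHeartbeats 1600000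

namespace Fermat.Agent.S36.H630

open Fermat.Agent.S18.H138 (chart mem_chart)
open Fermat.Agent.S36.H193 (BasePureValuesAt)
open Fermat.Agent.S36.Eng (TripleCtx)
open AlgebraicCurve

section Ctx

variable {R E F F' : Type*} [CommRing R] [IsDomain R] [IsDiscreteValuationRing R]
  [IsAlgClosed (IsLocalRing.ResidueField R)]
  [Field E] [Algebra R E] [Field F] [Algebra E F] [Algebra R F] [IsScalarTower R E F]
  [Field F'] [Algebra E F'] [Algebra R F'] [IsScalarTower R E F']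
  {w : R} {q : ℕ} {α β : F' →ₐ[E] F} {x : F} {x' : F'}
  {V₁ V₂ V₃ : ValuationSubring F} {V₁' V₂' : ValuationSubring F'}

omit [IsAlgClosed (IsLocalRing.ResidueField R)] in
/-- `w ∈ n` ⟹ the maximal ideal of `R` maps into `n`. -/
theorem maximalIdeal_map_mem (hw : Irreducible w) {B : Subalgebra R F} {n : Ideal B}
    (hwn : algebraMap R B w ∈ n) :
    ∀ r ∈ IsLocalRing.maximalIdeal R, algebraMap R B r ∈ n := by
  intro r hr
  rw [hw.maximalIdeal_eq, Ideal.mem_span_singleton] at hr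
  obtain ⟨t, rfl⟩ := hr
  rw [map_mul]
  exact n.mul_mem_right _ hwn

/-- **The label datum at a closed point of the finite chart.** -/
theorem labelAt_fin_ctx (ctx : TripleCtx w q α β x x' V₁ V₂ V₃ V₁' V₂')
    (hw : Irreducible w) (hq : 0 < q) {m : ℕ} (hm : 0 < m) {ζ : R} (hζ : ζ ^ m = 1)
    {u : F} (hu₁ : u - 1 ∈ V₁.nonunits) (hu₂ : u - 1 ∈ V₂.nonunits)
    (hu₃ : u - 1 ∈ V₃.nonunits)
    {k₁ k₂ : F'} (hk₁ : S29.H395.normAlong α u = k₁ ^ m)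
    (hk₂ : S29.H395.normAlong β u = k₂ ^ m)
    {i₁ i₂ j₁ j₂ : ℕ}
    (hi₁ : k₁ - algebraMap R F' (ζ ^ i₁) ∈ V₁'.nonunits)
    (hi₂ : k₁ - algebraMap R F' (ζ ^ i₂) ∈ V₂'.nonunits)
    (hj₂ : k₂ - algebraMap R F' (ζ ^ j₂) ∈ V₂'.nonunits)
    (hj₁ : k₂ - algebraMap R F' (ζ ^ j₁) ∈ V₁'.nonunits)
    (κ : ValuationSubring F → ℕ)
    (hκFF : ζ ^ ((m - 1) * κ V₁) = ζ ^ ((q - 1) * (i₂ + j₂ + (m - 1) * (i₁ + j₁))))
    (hκmid : ζ ^ ((m - 1) * κ V₂) = ζ ^ (q * i₂ + j₁ + (m - 1) * (q * i₁ + j₂)))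
    (hκVV : ζ ^ ((m - 1) * κ V₃) = 1)
    (n : Ideal (chart R ({x} : Set F))) (hn : n.IsMaximal)
    (hwn : algebraMap R (chart R ({x} : Set F)) w ∈ n)
    (hpur : ∃ (d : F) (a₀ s₀ : chart R ({x} : Set F)), a₀ ∉ n ∧ s₀ ∉ n ∧
      u * d ^ m * (s₀ : F) = a₀) :
    LabelAt (chart R ({x} : Set F)) n {V | V = V₁ ∨ V = V₂ ∨ V = V₃} m
      (u ^ ((q - 1) * (q + 1))) ζ κ := by
  haveI := hn
  obtain ⟨d, a₀, s₀, ha₀, hs₀, hpure⟩ := hpur
  have h𝔪n := maximalIdeal_map_mem hw hwn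
  by_cases htr : (PassThrough (chart R ({x} : Set F)) n V₁ ∧
      PassThrough (chart R ({x} : Set F)) n V₂) ∨
      (PassThrough (chart R ({x} : Set F)) n V₁ ∧ PassThrough (chart R ({x} : Set F)) n V₃) ∨
      (PassThrough (chart R ({x} : Set F)) n V₂ ∧ PassThrough (chart R ({x} : Set F)) n V₃)
  · obtain ⟨h1, h2, h3⟩ := ctx.incidence n hn htr
    exact labelAt_triple_ctx ctx hq hm hζ n h𝔪n h1 h2 h3 hu₁ hu₂ hu₃ hk₁ hk₂ hi₁ hi₂ hj₂ hj₁ κ
      hκFF hκmid hκVV ha₀ hs₀ hpure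
  · rw [not_or, not_or] at htr
    have hB₁ : ChartLe (chart R ({x} : Set F)) V₁ := chartLe_chart ctx.base₁
      (fun s hs => by rw [Set.mem_singleton_iff.1 hs]; exact ctx.x_unit₁.2.1)
    have hB₂ : ChartLe (chart R ({x} : Set F)) V₂ := chartLe_chart ctx.base₂
      (fun s hs => by rw [Set.mem_singleton_iff.1 hs]; exact ctx.x_unit₂.2.1)
    have hB₃ : ChartLe (chart R ({x} : Set F)) V₃ := chartLe_chart ctx.base₃
      (fun s hs => by rw [Set.mem_singleton_iff.1 hs]; exact ctx.x_unit₃.2.1)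
    exact labelAt_of_le_one (rat_chart x n hn h𝔪n) hB₁ hB₂ hB₃ hm
      (normalAlong_of_monic ctx.normal_f₁ hm) (normalAlong_of_monic ctx.normal_f₂ hm)
      (normalAlong_of_monic ctx.normal_f₃ hm) hζ κ htr.1 htr.2.1 htr.2.2 hu₁ hu₂ hu₃ ha₀ hs₀
      hpure _

/-- **The label datum at a closed point of the chart at infinity.** -/
theorem labelAt_inf_ctx (ctx : TripleCtx w q α β x x' V₁ V₂ V₃ V₁' V₂')
    (hw : Irreducible w) (hq : 0 < q) {m : ℕ} (hm : 0 < m) {ζ : R} (hζ : ζ ^ m = 1)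
    {u : F} (hu₁ : u - 1 ∈ V₁.nonunits) (hu₂ : u - 1 ∈ V₂.nonunits)
    (hu₃ : u - 1 ∈ V₃.nonunits)
    {k₁ k₂ : F'} (hk₁ : S29.H395.normAlong α u = k₁ ^ m)
    (hk₂ : S29.H395.normAlong β u = k₂ ^ m)
    {i₁ i₂ j₁ j₂ : ℕ}
    (hi₁ : k₁ - algebraMap R F' (ζ ^ i₁) ∈ V₁'.nonunits)
    (hi₂ : k₁ - algebraMap R F' (ζ ^ i₂) ∈ V₂'.nonunits)
    (hj₂ : k₂ - algebraMap R F' (ζ ^ j₂) ∈ V₂'.nonunits)
    (hj₁ : k₂ - algebraMap R F' (ζ ^ j₁) ∈ V₁'.nonunits)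
    (κ : ValuationSubring F → ℕ)
    (hκFF : ζ ^ ((m - 1) * κ V₁) = ζ ^ ((q - 1) * (i₂ + j₂ + (m - 1) * (i₁ + j₁))))
    (hκmid : ζ ^ ((m - 1) * κ V₂) = ζ ^ (q * i₂ + j₁ + (m - 1) * (q * i₁ + j₂)))
    (hκVV : ζ ^ ((m - 1) * κ V₃) = 1)
    (n' : Ideal (chart R ({x⁻¹} : Set F))) (hn' : n'.IsMaximal)
    (hwn' : algebraMap R (chart R ({x⁻¹} : Set F)) w ∈ n')
    (hpur : ∃ (d : F) (a₀ s₀ : chart R ({x⁻¹} : Set F)), a₀ ∉ n' ∧ s₀ ∉ n' ∧
      u * d ^ m * (s₀ : F) = a₀) :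
    LabelAt (chart R ({x⁻¹} : Set F)) n' {V | V = V₁ ∨ V = V₂ ∨ V = V₃} m
      (u ^ ((q - 1) * (q + 1))) ζ κ := by
  haveI := hn'
  have hn'p : n'.IsPrime := hn'.isPrime
  have h𝔪n' := maximalIdeal_map_mem hw hwn'
  have hrat' := rat_chart x⁻¹ n' hn' h𝔪n'
  have hx0 : x ≠ 0 := ctx.x_unit₁.1
  have hyB' : x⁻¹ ∈ chart R ({x⁻¹} : Set F) := Fermat.Agent.S18.H138.mem_chart_of_mem rfl
  by_cases hy : (⟨x⁻¹, hyB'⟩ : chart R ({x⁻¹} : Set F)) ∈ n'
  · -- a cusp: at most one sheet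
    obtain ⟨h12, h13, h23⟩ := ctx.cusp_single n' hn' hwn' hy
    obtain ⟨d, a₀, s₀, ha₀, hs₀, hpure⟩ := hpur
    have hB₁ : ChartLe (chart R ({x⁻¹} : Set F)) V₁ := chartLe_chart ctx.base₁
      (fun s hs => by rw [Set.mem_singleton_iff.1 hs]; exact ctx.x_unit₁.2.2)
    have hB₂ : ChartLe (chart R ({x⁻¹} : Set F)) V₂ := chartLe_chart ctx.base₂
      (fun s hs => by rw [Set.mem_singleton_iff.1 hs]; exact ctx.x_unit₂.2.2)
    have hB₃ : ChartLe (chart R ({x⁻¹} : Set F)) V₃ := chartLe_chart ctx.base₃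
      (fun s hs => by rw [Set.mem_singleton_iff.1 hs]; exact ctx.x_unit₃.2.2)
    exact labelAt_of_le_one hrat' hB₁ hB₂ hB₃ hm
      (normalAlong_of_monic ctx.normal_i₁ hm) (normalAlong_of_monic ctx.normal_i₂ hm)
      (normalAlong_of_monic ctx.normal_i₃ hm) hζ κ h12 h13 h23 hu₁ hu₂ hu₃ ha₀ hs₀ hpure _
  · -- off the cusps: change of chart
    have hclear : ∀ b : chart R ({x} : Set F),
        ∃ k : ℕ, x⁻¹ ^ k * (b : F) ∈ chart R ({x⁻¹} : Set F) :=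
      fun b => Fermat.Agent.S18.H138.exists_inv_pow_mul_mem_chart hx0 b.2
    have hclear' : ∀ c : chart R ({x⁻¹} : Set F),
        ∃ k : ℕ, x⁻¹⁻¹ ^ k * (c : F) ∈ chart R ({x} : Set F) := by
      intro c
      have hc : (c : F) ∈ chart R ({x, x⁻¹} : Set F) :=
        Fermat.Agent.S18.H138.chart_mono (by simp) c.2
      obtain ⟨K, hK⟩ := Fermat.Agent.S18.H138.exists_pow_mul_mem_chart hx0 hc
      exact ⟨K, by rw [inv_inv]; exact hK⟩
    have hyinv : x⁻¹⁻¹ ∈ chart R ({x} : Set F) := by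
      rw [inv_inv]
      exact Fermat.Agent.S18.H138.mem_chart_of_mem rfl
    have hnmax : (backIdeal (chart R ({x} : Set F)) n' x⁻¹ hyB' hclear).IsMaximal :=
      backIdeal_isMaximal hyB' hclear hy h𝔪n' hrat'
    have hwn : algebraMap R (chart R ({x} : Set F)) w
        ∈ backIdeal (chart R ({x} : Set F)) n' x⁻¹ hyB' hclear :=
      (algebraMap_mem_backIdeal_iff hyB' hclear hy w).2 hwn'
    have hpurB := pure_back hyB' hclear hy hyinv hclear' hpur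
    have hlab := labelAt_fin_ctx ctx hw hq hm hζ hu₁ hu₂ hu₃ hk₁ hk₂ hi₁ hi₂ hj₂ hj₁ κ
      hκFF hκmid hκVV _ hnmax hwn hpurB
    refine LabelAt.of_back hyB' hclear hy ?_ hlab
    rintro V (rfl | rfl | rfl)
    · exact ctx.x_unit₁.2.2
    · exact ctx.x_unit₂.2.2
    · exact ctx.x_unit₃.2.2

/-- **G4 + KAPPA + CHART-CHANGE (the theorem for the assembler).**  One colouring `κ`; at every
closed point of the special fibre of both charts a purity datum for `u` gives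
`BasePureValuesAt` for `u ^ ((q - 1) (q + 1))`. -/
theorem exists_kappa_basePure (ctx : TripleCtx w q α β x x' V₁ V₂ V₃ V₁' V₂')
    (hw : Irreducible w) (hq : 0 < q) (hinjE : Function.Injective (algebraMap R E))
    {m : ℕ} (hm : 0 < m) {ζ : R} (hζ : IsPrimitiveRoot ζ m)
    {u : F} (hu₁ : u - 1 ∈ V₁.nonunits) (hu₂ : u - 1 ∈ V₂.nonunits)
    (hu₃ : u - 1 ∈ V₃.nonunits)
    {k₁ k₂ : F'} (hk₁ : S29.H395.normAlong α u = k₁ ^ m)
    (hk₂ : S29.H395.normAlong β u = k₂ ^ m) :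
    ∃ κ : ValuationSubring F → ℕ,
      (∀ n : Ideal (chart R ({x} : Set F)), n.IsMaximal →
        algebraMap R (chart R ({x} : Set F)) w ∈ n →
        (∃ (d : F) (a₀ s₀ : chart R ({x} : Set F)), a₀ ∉ n ∧ s₀ ∉ n ∧
          u * d ^ m * (s₀ : F) = a₀) →
        BasePureValuesAt {V | V = V₁ ∨ V = V₂ ∨ V = V₃} (chart R ({x} : Set F)) n m
          (u ^ ((q - 1) * (q + 1))) ζ κ) ∧
      (∀ n : Ideal (chart R ({x⁻¹} : Set F)), n.IsMaximal →
        algebraMap R (chart R ({x⁻¹} : Set F)) w ∈ n →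
        (∃ (d : F) (a₀ s₀ : chart R ({x⁻¹} : Set F)), a₀ ∉ n ∧ s₀ ∉ n ∧
          u * d ^ m * (s₀ : F) = a₀) →
        BasePureValuesAt {V | V = V₁ ∨ V = V₂ ∨ V = V₃} (chart R ({x⁻¹} : Set F)) n m
          (u ^ ((q - 1) * (q + 1))) ζ κ) := by
  have hζ1 : ζ ^ m = 1 := hζ.pow_eq_one
  have hinj : Function.Injective (algebraMap R F') := by
    rw [IsScalarTower.algebraMap_eq R E F']
    exact (algebraMap E F').injective.comp hinjE
  -- the labels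
  obtain ⟨i₁, i₂, hi₁, hi₂⟩ :
      ∃ i₁ i₂ : ℕ, k₁ - algebraMap R F' (ζ ^ i₁) ∈ V₁'.nonunits ∧
        k₁ - algebraMap R F' (ζ ^ i₂) ∈ V₂'.nonunits := by
    letI := algebraAlong α
    haveI : IsScalarTower R F' F := isScalarTower_alongR α
    exact exists_labels_side hinj ctx.base₁ ctx.base₃ ctx.comap_α₁ ctx.comap_α₃
      ctx.nr_α₁ ctx.nr_α₂ hm hζ hu₁ hu₂ hu₃ hk₁
  obtain ⟨j₂, j₁, hj₂, hj₁⟩ :
      ∃ j₂ j₁ : ℕ, k₂ - algebraMap R F' (ζ ^ j₂) ∈ V₂'.nonunits ∧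
        k₂ - algebraMap R F' (ζ ^ j₁) ∈ V₁'.nonunits := by
    letI := algebraAlong β
    haveI : IsScalarTower R F' F := isScalarTower_alongR β
    exact exists_labels_side hinj ctx.base₃ ctx.base₁ ctx.comap_β₃ ctx.comap_β₁
      ctx.nr_β₁ ctx.nr_β₂ hm hζ hu₃ hu₂ hu₁ hk₂
  -- the colouring
  set κ : ValuationSubring F → ℕ := kappa3 V₁ V₂
    ((m - 1) * ((q - 1) * (i₂ + j₂ + (m - 1) * (i₁ + j₁))))
    ((m - 1) * (q * i₂ + j₁ + (m - 1) * (q * i₁ + j₂))) with hκ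
  have hκFF : ζ ^ ((m - 1) * κ V₁) = ζ ^ ((q - 1) * (i₂ + j₂ + (m - 1) * (i₁ + j₁))) := by
    rw [hκ, kappa3_left]
    exact zeta_pow_sq hm hζ1 _
  have hκmid : ζ ^ ((m - 1) * κ V₂) = ζ ^ (q * i₂ + j₁ + (m - 1) * (q * i₁ + j₂)) := by
    rw [hκ, kappa3_mid ctx.ne₁₂]
    exact zeta_pow_sq hm hζ1 _
  have hκVV : ζ ^ ((m - 1) * κ V₃) = 1 := by
    rw [hκ, kappa3_right ctx.ne₁₃ ctx.ne₂₃, mul_zero, pow_zero]
  refine ⟨κ, ?_, ?_⟩
  · intro n hn hwn hpur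
    haveI := hn
    refine basePureValuesAt_of_labelAt ?_ hm hζ1
      (labelAt_fin_ctx ctx hw hq hm hζ1 hu₁ hu₂ hu₃ hk₁ hk₂ hi₁ hi₂ hj₂ hj₁ κ hκFF hκmid hκVV
        n hn hwn hpur)
    rintro V (rfl | rfl | rfl)
    · exact chartLe_chart ctx.base₁
        (fun s hs => by rw [Set.mem_singleton_iff.1 hs]; exact ctx.x_unit₁.2.1)
    · exact chartLe_chart ctx.base₂
        (fun s hs => by rw [Set.mem_singleton_iff.1 hs]; exact ctx.x_unit₂.2.1)
    · exact chartLe_chart ctx.base₃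
        (fun s hs => by rw [Set.mem_singleton_iff.1 hs]; exact ctx.x_unit₃.2.1)
  · intro n hn hwn hpur
    haveI := hn
    refine basePureValuesAt_of_labelAt ?_ hm hζ1
      (labelAt_inf_ctx ctx hw hq hm hζ1 hu₁ hu₂ hu₃ hk₁ hk₂ hi₁ hi₂ hj₂ hj₁ κ hκFF hκmid hκVV
        n hn hwn hpur)
    rintro V (rfl | rfl | rfl)
    · exact chartLe_chart ctx.base₁
        (fun s hs => by rw [Set.mem_singleton_iff.1 hs]; exact ctx.x_unit₁.2.2)
    · exact chartLe_chart ctx.base₂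
        (fun s hs => by rw [Set.mem_singleton_iff.1 hs]; exact ctx.x_unit₂.2.2)
    · exact chartLe_chart ctx.base₃
        (fun s hs => by rw [Set.mem_singleton_iff.1 hs]; exact ctx.x_unit₃.2.2)

end Ctx

end Fermat.Agent.S36.H630
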