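import Fermat.Agent.S36.H630.LabAlg
import Fermat.Agent.S36.H193.WallBase

/-!
# S36 engine, LABEL core (helper630), part 7: from `LabelAt` to `H193.BasePureValuesAt`

`H193.kummer_wall3_of_base` (main) needs, at every closed point `𝔫` of the special fibre of the
two charts of the base, the datum `H193.BasePureValuesAt`.  This file produces it from
`H630.LabelAt`, i.e. (via `labelAt_of_one`, `labelAt_of_three`) from

* purity at `𝔫` (cell REG),
* the values of the purity datum along the sheets through `𝔫` (`ExistVal.lean`),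
* at triple points: the two label equations (`LabEq.label_eq_of_norm`, or `H203.label_rel`).
-/

set_option autoImplicit false
set_option linter.unusedSectionVars false

namespace Fermat.Agent.S36.H630

open Fermat.Agent.S36.H193

variable {R : Type*} [CommRing R] {F : Type*} [Field F] [Algebra R F]

/-- **`LabelAt ⟹ BasePureValuesAt`.** -/
theorem basePureValuesAt_of_labelAt {B : Subalgebra R F} {n : Ideal B} [hn : n.IsMaximal]
    {𝒱 : Set (ValuationSubring F)} (hBV : ∀ V ∈ 𝒱, ChartLe B V)
    {m : ℕ} (hm : 0 < m) {ζ : R} (hζ : ζ ^ m = 1) {κ : ValuationSubring F → ℕ} {u : F}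
    (h : LabelAt B n 𝒱 m u ζ κ) : BasePureValuesAt 𝒱 B n m u ζ κ := by
  have : n.IsPrime := hn.isPrime
  obtain ⟨d, a₀, s₀, η₀, hd0, hs₀, hpure, hη₀, hval⟩ := h
  -- an inverse of `η₀` modulo `n`
  obtain ⟨v, i, hi, hvi⟩ := hn.exists_inv hη₀
  have hvn : v ∉ n := by
    intro hv
    apply hn.ne_top
    rw [Ideal.eq_top_iff_one, ← hvi]
    exact n.add_mem (n.mul_mem_right _ hv) hi
  have hv1 : v * algebraMap R B η₀ - 1 ∈ n := by
    have : v * algebraMap R B η₀ - 1 = -i := by rw [← hvi]; ring
    rw [this]
    exact n.neg_mem hi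
  have hm1 : m - 1 + 1 = m := Nat.sub_add_cancel hm
  refine ⟨d⁻¹, a₀, s₀, v, inv_ne_zero hd0, hs₀, hvn, ?_, ?_⟩
  · rw [← hpure, inv_pow]
    field_simp
  · intro V hV hth
    have hth' : PassThrough B n V := hth
    have hval' := hval V hV hth'
    -- the value is a unit modulo `n`
    have hηV : algebraMap R B (η₀ * ζ ^ ((m - 1) * κ V)) ∉ n := by
      intro h1
      apply hη₀
      have h2 : algebraMap R B η₀
          = algebraMap R B (η₀ * ζ ^ ((m - 1) * κ V)) * algebraMap R B (ζ ^ κ V) := by
        rw [← map_mul, mul_assoc, ← pow_add]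
        have : (m - 1) * κ V + κ V = m * κ V := by
          calc (m - 1) * κ V + κ V = (m - 1 + 1) * κ V := by ring
            _ = m * κ V := by rw [hm1]
        rw [this, pow_mul, hζ, one_pow, mul_one]
      rw [h2]
      exact n.mul_mem_right _ h1
    have hdV : d ∈ V := hval'.mem (hBV V hV) hth'
    have hdu : d ∉ V.nonunits := hval'.not_nonunits (hBV V hV) hth' hηV
    obtain ⟨a, b, hb, hVab, hnab⟩ := hval'
    have han : a ∉ n := by
      intro ha
      have h3 : algebraMap R B (η₀ * ζ ^ ((m - 1) * κ V)) * b ∈ n := by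
        have : algebraMap R B (η₀ * ζ ^ ((m - 1) * κ V)) * b
            = a - (a - algebraMap R B (η₀ * ζ ^ ((m - 1) * κ V)) * b) := by ring
        rw [this]
        exact n.sub_mem ha hnab
      rcases (Ideal.IsPrime.mem_or_mem ‹n.IsPrime› h3) with h5 | h5
      · exact hηV h5
      · exact hb h5
    refine ⟨a, b, han, ?_, ?_⟩
    · have : (a : F) * d⁻¹ - b = -(((b : F) * d - a) * d⁻¹) := by
        field_simp
        ring
      rw [this]
      exact vnu_neg V (vnu_mul_right V hVab (vnu_inv_mem V hdV hdu))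
    · -- `b - ζ^κ v a = -(ζ^κ v (a - η_V b)) - (v η₀ - 1) b` using `ζ^κ ζ^((m-1)κ) = 1`
      have hz : ζ ^ κ V * ζ ^ ((m - 1) * κ V) = 1 := by
        rw [← pow_add]
        have : κ V + (m - 1) * κ V = m * κ V := by
          calc κ V + (m - 1) * κ V = (m - 1 + 1) * κ V := by ring
            _ = m * κ V := by rw [hm1]
        rw [this, pow_mul, hζ, one_pow]
      have hz' : algebraMap R B (ζ ^ κ V) * algebraMap R B (ζ ^ ((m - 1) * κ V)) = 1 := by
        rw [← map_mul, hz, map_one]
      have : b - algebraMap R B (ζ ^ κ V) * v * a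
          = -(algebraMap R B (ζ ^ κ V) * v * (a - algebraMap R B (η₀ * ζ ^ ((m - 1) * κ V)) * b))
            - (v * algebraMap R B η₀ - 1) * b := by
        rw [map_mul]
        linear_combination (-(v * algebraMap R B η₀ * b)) * hz'
      rw [this]
      exact n.sub_mem (n.neg_mem (n.mul_mem_left _ hnab)) (n.mul_mem_right _ hv1)

end Fermat.Agent.S36.H630
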