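import Fermat.Agent.S36.H630.Side
import Fermat.Agent.S36.H630.ChartChange
import Fermat.Agent.S36.H630.ToBase
import Fermat.Agent.S36.Eng.Spec

/-!
# S36 engine, ALG3 gap G4 (helper630): the label data from `Eng.TripleCtx`

`R` a discrete valuation ring with algebraically closed residue field, uniformiser `w`;
`ctx : Eng.TripleCtx w q α β x x' V₁ V₂ V₃ V₁' V₂'` (Spec v1.3, on main).  Let `u ∈ F` be split
on the three sheets (`u ≡ 1` on `V₁, V₂, V₃`) with `N_α u = k₁ ^ m`, `N_β u = k₂ ^ m`, and let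
`ζ ∈ R` be a primitive `m`-th root of unity.

**Theorem** (`exists_kappa_basePure`).  There is ONE colouring `κ` such that at EVERY closed point
`n` of the special fibre of the two charts `chart R {x}`, `chart R {x⁻¹}`:  a purity datum
`u d ^ m s₀ = a₀` (`a₀, s₀ ∉ n`) at `n` gives
`H193.BasePureValuesAt {V | V = V₁ ∨ V = V₂ ∨ V = V₃} B n m (u ^ ((q - 1) (q + 1))) ζ κ`,
the local hypothesis of `H193.exists_pow_eq_of_three`.

Fields used: `base_i`, `x_unit_i`, `normal_f_i`, `normal_i_i`, `incidence`, `cusp_single`,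
`comap_α₁, comap_α₃, comap_β₁, comap_β₃`, `nr_*`, `chart_*`, `int_*`, `res_*`, `unique_*`,
`ne_*`.  Proved inside: rationality of the closed points, local denominators, norms of chart
elements, existence of the labels of `k₁, k₂`, the change of chart `Bf ↔ Bi` off the cusps.
-/

set_option autoImplicit false
set_option linter.unusedSectionVars false
set_option linter.style.haveILetI false
set_option maxHeartbeats 1600000

namespace Fermat.Agent.S36.H630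

open Fermat.Agent.S18.H138 (chart mem_chart)
open Fermat.Agent.S36.H193 (BasePureValuesAt)
open Fermat.Agent.S36.Eng (TripleCtx)
open AlgebraicCurve

section Generic

variable {R : Type*} [CommRing R] {F : Type*} [Field F] [Algebra R F]

open Classical in
/-- The colouring with the values `a` on `V₁`, `b` on `V₂` and `0` elsewhere. -/
noncomputable def kappa3 (V₁ V₂ : ValuationSubring F) (a b : ℕ) : ValuationSubring F → ℕ :=
  fun V => if V = V₁ then a else if V = V₂ then b else 0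

theorem kappa3_left (V₁ V₂ : ValuationSubring F) (a b : ℕ) : kappa3 V₁ V₂ a b V₁ = a := by
  unfold kappa3
  rw [if_pos rfl]

theorem kappa3_mid {V₁ V₂ : ValuationSubring F} (h : V₁ ≠ V₂) (a b : ℕ) :
    kappa3 V₁ V₂ a b V₂ = b := by
  unfold kappa3
  rw [if_neg (Ne.symm h), if_pos rfl]

theorem kappa3_right {V₁ V₂ V₃ : ValuationSubring F} (h₁ : V₁ ≠ V₃) (h₂ : V₂ ≠ V₃) (a b : ℕ) :
    kappa3 V₁ V₂ a b V₃ = 0 := by
  unfold kappa3
  rw [if_neg (Ne.symm h₁), if_neg (Ne.symm h₂)]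

theorem zeta_pow_sq {K : Type*} [CommRing K] [IsDomain K] {ζ : K} {m : ℕ} (hm : 0 < m)
    (hζ : ζ ^ m = 1) (X : ℕ) : ζ ^ ((m - 1) * ((m - 1) * X)) = ζ ^ X := by
  have h1 := zeta_pow_mul_inv hm hζ X
  have h2 := zeta_pow_mul_inv hm hζ ((m - 1) * X)
  calc ζ ^ ((m - 1) * ((m - 1) * X))
      = (ζ ^ X * ζ ^ ((m - 1) * X)) * ζ ^ ((m - 1) * ((m - 1) * X)) := by rw [h1, one_mul]
    _ = ζ ^ X * (ζ ^ ((m - 1) * X) * ζ ^ ((m - 1) * ((m - 1) * X))) := by ring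
    _ = ζ ^ X := by rw [h2, mul_one]

/-- `u ≡ 1` on `V` ⟹ `u` is a unit of `V`. -/
theorem unit_of_split {V : ValuationSubring F} {u : F} (hu : u - 1 ∈ V.nonunits) :
    u ≠ 0 ∧ u ∈ V ∧ u⁻¹ ∈ V := by
  have h := vnu_unit_of_sub V hu V.one_mem (vnu_one_not V)
  refine ⟨?_, h.1, vnu_inv_mem V h.1 h.2⟩
  rintro rfl
  exact h.2 (vnu_zero V)

/-- **The label datum at a point through which no sheet passes.** -/
theorem labelAt_of_none {B : Subalgebra R F} {n : Ideal B} [hn : n.IsPrime]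
    {𝒱 : Set (ValuationSubring F)} (hnone : ∀ V ∈ 𝒱, ¬ PassThrough B n V)
    {m : ℕ} (hm : 0 < m) {u d : F} {a₀ s₀ : B} (ha₀ : a₀ ∉ n) (hs₀ : s₀ ∉ n)
    (hpure : u * d ^ m * (s₀ : F) = a₀) (ζ : R) (κ : ValuationSubring F → ℕ) :
    LabelAt B n 𝒱 m u ζ κ := by
  have hd0 : d ≠ 0 := by
    rintro rfl
    apply ha₀
    have : a₀ = 0 := by
      apply Subtype.ext
      rw [← hpure, zero_pow hm.ne', mul_zero, zero_mul]
      rfl
    rw [this]
    exact n.zero_mem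
  refine ⟨d, a₀, s₀, 1, hd0, hs₀, hpure, ?_, fun V hV hth => absurd hth (hnone V hV)⟩
  rw [map_one]
  exact fun h => hn.ne_top ((Ideal.eq_top_iff_one _).2 h)

/-- **The label datum at a point on exactly one sheet.** -/
theorem labelAt_single {B : Subalgebra R F} {n : Ideal B} [hn : n.IsMaximal]
    (hrat : ∀ c : B, ∃ r : R, c - algebraMap R B r ∈ n)
    {𝒱 : Set (ValuationSubring F)}
    {V₀ : ValuationSubring F} (hone : ∀ V ∈ 𝒱, PassThrough B n V → V = V₀)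
    (hBV₀ : ChartLe B V₀) (hthV₀ : PassThrough B n V₀)
    {m : ℕ} (hm : 0 < m) (hnormal : NormalAlong B V₀ m) {ζ : R} (hζ : ζ ^ m = 1)
    (κ : ValuationSubring F → ℕ)
    {u d : F} (hu : u - 1 ∈ V₀.nonunits) {a₀ s₀ : B} (ha₀ : a₀ ∉ n) (hs₀ : s₀ ∉ n)
    (hpure : u * d ^ m * (s₀ : F) = a₀) (c : ℕ) :
    LabelAt B n 𝒱 m (u ^ c) ζ κ := by
  have hnp : n.IsPrime := hn.isPrime
  obtain ⟨η, hη, hval⟩ := exists_valAt_of_pure hrat hBV₀ hthV₀ hm hnormal hu ha₀ hs₀ hpure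
  refine labelAt_of_one hm hζ κ hone hBV₀ hthV₀ (u := u ^ c) (d := d ^ c) (a₀ := a₀ ^ c)
    (s₀ := s₀ ^ c) (η := η ^ c) ?_ (pure_pow hpure c) ?_ (hval.pow hBV₀ hthV₀ c)
  · exact fun h => hs₀ (hnp.mem_of_pow_mem c h)
  · intro h
    rw [map_pow] at h
    exact hη (hnp.mem_of_pow_mem c h)

/-- **The label datum at a point through which at most one of three sheets passes.** -/
theorem labelAt_of_le_one {B : Subalgebra R F} {n : Ideal B} [hn : n.IsMaximal]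
    (hrat : ∀ c : B, ∃ r : R, c - algebraMap R B r ∈ n)
    {V₁ V₂ V₃ : ValuationSubring F}
    (hB₁ : ChartLe B V₁) (hB₂ : ChartLe B V₂) (hB₃ : ChartLe B V₃)
    {m : ℕ} (hm : 0 < m)
    (hn₁ : NormalAlong B V₁ m) (hn₂ : NormalAlong B V₂ m) (hn₃ : NormalAlong B V₃ m)
    {ζ : R} (hζ : ζ ^ m = 1) (κ : ValuationSubring F → ℕ)
    (h12 : ¬ (PassThrough B n V₁ ∧ PassThrough B n V₂))
    (h13 : ¬ (PassThrough B n V₁ ∧ PassThrough B n V₃))
    (h23 : ¬ (PassThrough B n V₂ ∧ PassThrough B n V₃))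
    {u d : F} (hu₁ : u - 1 ∈ V₁.nonunits) (hu₂ : u - 1 ∈ V₂.nonunits)
    (hu₃ : u - 1 ∈ V₃.nonunits)
    {a₀ s₀ : B} (ha₀ : a₀ ∉ n) (hs₀ : s₀ ∉ n) (hpure : u * d ^ m * (s₀ : F) = a₀) (c : ℕ) :
    LabelAt B n {V | V = V₁ ∨ V = V₂ ∨ V = V₃} m (u ^ c) ζ κ := by
  have hnp : n.IsPrime := hn.isPrime
  by_cases h1 : PassThrough B n V₁
  · refine labelAt_single hrat (V₀ := V₁) ?_ hB₁ h1 hm hn₁ hζ κ hu₁ ha₀ hs₀ hpure c
    rintro V (rfl | rfl | rfl) hth
    · rfl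
    · exact absurd ⟨h1, hth⟩ h12
    · exact absurd ⟨h1, hth⟩ h13
  by_cases h2 : PassThrough B n V₂
  · refine labelAt_single hrat (V₀ := V₂) ?_ hB₂ h2 hm hn₂ hζ κ hu₂ ha₀ hs₀ hpure c
    rintro V (rfl | rfl | rfl) hth
    · exact absurd hth h1
    · rfl
    · exact absurd ⟨h2, hth⟩ h23
  by_cases h3 : PassThrough B n V₃
  · refine labelAt_single hrat (V₀ := V₃) ?_ hB₃ h3 hm hn₃ hζ κ hu₃ ha₀ hs₀ hpure c
    rintro V (rfl | rfl | rfl) hth
    · exact absurd hth h1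
    · exact absurd hth h2
    · rfl
  · refine labelAt_of_none ?_ hm (u := u ^ c) (d := d ^ c) (a₀ := a₀ ^ c) (s₀ := s₀ ^ c)
      (fun h => ha₀ (hnp.mem_of_pow_mem c h)) (fun h => hs₀ (hnp.mem_of_pow_mem c h))
      (pure_pow hpure c) ζ κ
    rintro V (rfl | rfl | rfl) hth
    · exact h1 hth
    · exact h2 hth
    · exact h3 hth

end Generic

section Labels

variable {R : Type*} [CommRing R] [IsDomain R]
variable {F' : Type*} [Field F'] [Algebra R F']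
variable {F : Type*} [Field F] [Algebra R F] [Algebra F' F] [IsScalarTower R F' F]

/-- **The labels of `k`, `k ^ m = N u`, on the two sheets below.** -/
theorem exists_labels_side (hinj : Function.Injective (algebraMap R F'))
    {Va Vb Vc : ValuationSubring F} {V' V'' : ValuationSubring F'}
    (hRa : ∀ r : R, algebraMap R F r ∈ Va) (hRc : ∀ r : R, algebraMap R F r ∈ Vc)
    (hcomap_a : Va.comap (algebraMap F' F) = V') (hcomap_c : Vc.comap (algebraMap F' F) = V'')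
    {q : ℕ} (hnr_s : NormResSplitU V' Va Vb (q - 1)) (hnr_i : NormResInsepU (F' := F') Vc q)
    {m : ℕ} (hm : 0 < m) {ζ : R} (hζ : IsPrimitiveRoot ζ m)
    {u : F} (hua : u - 1 ∈ Va.nonunits) (hub : u - 1 ∈ Vb.nonunits) (huc : u - 1 ∈ Vc.nonunits)
    {k : F'} (hk : Algebra.norm F' u = k ^ m) :
    ∃ i i' : ℕ, k - algebraMap R F' (ζ ^ i) ∈ V'.nonunits ∧
      k - algebraMap R F' (ζ ^ i') ∈ V''.nonunits := by
  have hR' : ∀ r : R, algebraMap R F' r ∈ V' := by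
    intro r
    rw [← hcomap_a, ValuationSubring.mem_comap, ← IsScalarTower.algebraMap_apply]
    exact hRa r
  have hR'' : ∀ r : R, algebraMap R F' r ∈ V'' := by
    intro r
    rw [← hcomap_c, ValuationSubring.mem_comap, ← IsScalarTower.algebraMap_apply]
    exact hRc r
  have h1a : algebraMap F' F 1 - u ∈ Va.nonunits := by
    rw [map_one]
    have := vnu_neg Va hua
    rwa [neg_sub] at this
  have h1b : algebraMap F' F 1 - u ∈ Vb.nonunits := by
    rw [map_one]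
    have := vnu_neg Vb hub
    rwa [neg_sub] at this
  have hN' : k ^ m - 1 ∈ V'.nonunits := by
    have := hnr_s u (unit_of_split hua) (unit_of_split hub) 1 1 h1a h1b
    rwa [one_pow, mul_one, hk] at this
  have hN'' : k ^ m - 1 ∈ V''.nonunits := by
    have h2 := hnr_i u (unit_of_split huc)
    have huV := (unit_of_split huc).2.1
    have h3 : u ^ q - 1 ∈ Vc.nonunits := by
      have := pow_sub_pow_mem_nonunits Vc huV Vc.one_mem huc q
      rwa [one_pow] at this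
    rw [← hk, ← hcomap_c, mem_nonunits_comap_iff, map_sub, map_one]
    have : algebraMap F' F (Algebra.norm F' u) - 1
        = (algebraMap F' F (Algebra.norm F' u) - u ^ q) + (u ^ q - 1) := by ring
    rw [this]
    exact vnu_add Vc h2 h3
  obtain ⟨i, hi⟩ := exists_label hR' hinj hm hζ hN'
  obtain ⟨i', hi'⟩ := exists_label hR'' hinj hm hζ hN''
  exact ⟨i, i', hi, hi'⟩

end Labels

section Ctx

variable {R E F F' : Type*} [CommRing R] [IsDomain R] [IsDiscreteValuationRing R]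
  [IsAlgClosed (IsLocalRing.ResidueField R)]
  [Field E] [Algebra R E] [Field F] [Algebra E F] [Algebra R F] [IsScalarTower R E F]
  [Field F'] [Algebra E F'] [Algebra R F'] [IsScalarTower R E F']
  {w : R} {q : ℕ} {α β : F' →ₐ[E] F} {x : F} {x' : F'}
  {V₁ V₂ V₃ : ValuationSubring F} {V₁' V₂' : ValuationSubring F'}

omit [IsDomain R] [IsDiscreteValuationRing R] [IsAlgClosed (IsLocalRing.ResidueField R)] in
/-- the scalar tower `R → F' → F` along a degeneracy map -/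
theorem isScalarTower_alongR (φ : F' →ₐ[E] F) :
    letI := algebraAlong φ; IsScalarTower R F' F :=
  letI := algebraAlong φ
  IsScalarTower.of_algebraMap_eq fun r => by
    show algebraMap R F r = φ (algebraMap R F' r)
    rw [IsScalarTower.algebraMap_apply R E F, IsScalarTower.algebraMap_apply R E F',
      φ.commutes]

/-- **The label datum at a triple point of the finite chart.** -/
theorem labelAt_triple_ctx (ctx : TripleCtx w q α β x x' V₁ V₂ V₃ V₁' V₂')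
    (hq : 0 < q) {m : ℕ} (hm : 0 < m) {ζ : R} (hζ : ζ ^ m = 1)
    (n : Ideal (chart R ({x} : Set F))) [hn : n.IsMaximal]
    (h𝔪n : ∀ r ∈ IsLocalRing.maximalIdeal R, algebraMap R (chart R ({x} : Set F)) r ∈ n)
    (h1 : PassThrough (chart R ({x} : Set F)) n V₁)
    (h2 : PassThrough (chart R ({x} : Set F)) n V₂)
    (h3 : PassThrough (chart R ({x} : Set F)) n V₃)
    {u : F} (hu₁ : u - 1 ∈ V₁.nonunits) (hu₂ : u - 1 ∈ V₂.nonunits)
    (hu₃ : u - 1 ∈ V₃.nonunits)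
    {k₁ k₂ : F'} (hk₁ : S29.H395.normAlong α u = k₁ ^ m)
    (hk₂ : S29.H395.normAlong β u = k₂ ^ m)
    {i₁ i₂ j₁ j₂ : ℕ}
    (hi₁ : k₁ - algebraMap R F' (ζ ^ i₁) ∈ V₁'.nonunits)
    (hi₂ : k₁ - algebraMap R F' (ζ ^ i₂) ∈ V₂'.nonunits)
    (hj₂ : k₂ - algebraMap R F' (ζ ^ j₂) ∈ V₂'.nonunits)
    (hj₁ : k₂ - algebraMap R F' (ζ ^ j₁) ∈ V₁'.nonunits)
    (κ : ValuationSubring F → ℕ)
    (hκFF : ζ ^ ((m - 1) * κ V₁) = ζ ^ ((q - 1) * (i₂ + j₂ + (m - 1) * (i₁ + j₁))))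
    (hκmid : ζ ^ ((m - 1) * κ V₂) = ζ ^ (q * i₂ + j₁ + (m - 1) * (q * i₁ + j₂)))
    (hκVV : ζ ^ ((m - 1) * κ V₃) = 1)
    {d : F} {a₀ s₀ : chart R ({x} : Set F)} (ha₀ : a₀ ∉ n) (hs₀ : s₀ ∉ n)
    (hpure : u * d ^ m * (s₀ : F) = a₀) :
    LabelAt (chart R ({x} : Set F)) n {V | V = V₁ ∨ V = V₂ ∨ V = V₃} m
      (u ^ ((q - 1) * (q + 1))) ζ κ := by
  have hnp : n.IsPrime := hn.isPrime
  have hB₁ : ChartLe (chart R ({x} : Set F)) V₁ :=
    chartLe_chart ctx.base₁ (fun s hs => by rw [Set.mem_singleton_iff.1 hs]; exact ctx.x_unit₁.2.1)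
  have hB₂ : ChartLe (chart R ({x} : Set F)) V₂ :=
    chartLe_chart ctx.base₂ (fun s hs => by rw [Set.mem_singleton_iff.1 hs]; exact ctx.x_unit₂.2.1)
  have hB₃ : ChartLe (chart R ({x} : Set F)) V₃ :=
    chartLe_chart ctx.base₃ (fun s hs => by rw [Set.mem_singleton_iff.1 hs]; exact ctx.x_unit₃.2.1)
  have hrat := rat_chart x n hn h𝔪n
  obtain ⟨η₁, hη₁, hv₁⟩ := exists_valAt_of_pure hrat hB₁ h1 hm
    (normalAlong_of_monic ctx.normal_f₁ hm) hu₁ ha₀ hs₀ hpure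
  obtain ⟨η₂, hη₂, hv₂⟩ := exists_valAt_of_pure hrat hB₂ h2 hm
    (normalAlong_of_monic ctx.normal_f₂ hm) hu₂ ha₀ hs₀ hpure
  obtain ⟨η₃, hη₃, hv₃⟩ := exists_valAt_of_pure hrat hB₃ h3 hm
    (normalAlong_of_monic ctx.normal_f₃ hm) hu₃ ha₀ hs₀ hpure
  have hα : ζ ^ i₁ * (η₁ * η₂ ^ (q - 1)) - ζ ^ i₂ * η₃ ^ q ∈ IsLocalRing.maximalIdeal R := by
    letI := algebraAlong α
    haveI : IsScalarTower R F' F := isScalarTower_alongR α
    exact label_eq_side n ctx.chart_α ctx.int_α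
      (fun Q hQ h => ctx.unique_α n Q hn hQ ⟨h1, h2, h3⟩ h)
      hB₁ h1 hB₂ h2 hB₃ h3 ctx.comap_α₁ ctx.comap_α₃ ctx.res_α₁ ctx.res_α₂ hq.ne'
      ctx.nr_α₁ ctx.nr_α₂ hm hs₀ hpure hk₁ hi₁ hi₂ hη₁ hη₂ hη₃ hv₁ hv₂ hv₃
  have hβ : ζ ^ j₂ * (η₃ * η₂ ^ (q - 1)) - ζ ^ j₁ * η₁ ^ q ∈ IsLocalRing.maximalIdeal R := by
    letI := algebraAlong β
    haveI : IsScalarTower R F' F := isScalarTower_alongR β
    exact label_eq_side n ctx.chart_β ctx.int_β
      (fun Q hQ h => ctx.unique_β n Q hn hQ ⟨h1, h2, h3⟩ h)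
      hB₃ h3 hB₂ h2 hB₁ h1 ctx.comap_β₃ ctx.comap_β₁ ctx.res_β₃ ctx.res_β₂ hq.ne'
      ctx.nr_β₁ ctx.nr_β₂ hm hs₀ hpure hk₂ hj₂ hj₁ hη₃ hη₂ hη₁ hv₃ hv₂ hv₁
  exact labelAt_of_three (IsLocalRing.maximalIdeal R) h𝔪n (fun V hV => hV) hB₁ h1 hB₂ h2 hB₃ h3
    hm hζ hq κ hκFF hκmid hκVV hs₀ hpure (fun h => hη₂ (h𝔪n _ h)) (fun h => hη₃ (h𝔪n _ h)) hη₃
    hv₁ hv₂ hv₃ hα hβ

end Ctx

end Fermat.Agent.S36.H630
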