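import Fermat.Agent.S36.H630.LabelHloc

/-!
# S36 engine, LABEL core (helper630), part 6: label algebra and `LabelAt`

* `label_algebra` : the two label equations at a triple point (via `α` and via `β`,
  `LabEq.label_eq_of_norm`)

      `ζ ^ i₁ · η_FF · η_mid ^ (q-1) ≡ ζ ^ i₂ · η_VV ^ q`,
      `ζ ^ j₂ · η_VV · η_mid ^ (q-1) ≡ ζ ^ j₁ · η_FF ^ q`          (mod `𝔪`)

  imply, with `c = (q - 1) (q + 1)`,

      `η_FF ^ c ≡ ζ ^ X · η_VV ^ c`,   `η_mid ^ c ≡ ζ ^ Y · η_VV ^ c`,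

  where `X = (q-1) (i₂ + j₂ + (m-1) (i₁ + j₁))`, `Y = q i₂ + j₁ + (m-1) (q i₁ + j₂)` depend only
  on the labels of the norms, NOT on the point.

* `labelAt_of_three` : hence the label datum `LabelAt` for `u ^ c` at the triple point, for the
  colouring `κ FF = (m-1) X`, `κ mid = (m-1) Y`, `κ VV = 0`.
* `labelAt_of_one` : the label datum at a point lying on exactly one sheet (any colouring).
-/

set_option autoImplicit false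
set_option linter.unusedSectionVars false

namespace Fermat.Agent.S36.H630

section Algebra

variable {K : Type*} [CommRing K] [IsDomain K]

/-- the inverse of a power of a root of unity -/
theorem zeta_pow_mul_inv {ζ : K} {m : ℕ} (hm : 0 < m) (hζ : ζ ^ m = 1) (i : ℕ) :
    ζ ^ i * ζ ^ ((m - 1) * i) = 1 := by
  rw [← pow_add]
  have : i + (m - 1) * i = m * i := by
    have hm1 : m - 1 + 1 = m := Nat.sub_add_cancel hm
    calc i + (m - 1) * i = (m - 1 + 1) * i := by ring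
      _ = m * i := by rw [hm1]
  rw [this, pow_mul, hζ, one_pow]

/-- **Label algebra** in a domain, with `q = r + 1`. -/
theorem label_algebra_succ {ζ : K} {m : ℕ} (hm : 0 < m) (hζ : ζ ^ m = 1)
    {a b c : K} (hb : b ≠ 0) (hc : c ≠ 0) {r : ℕ} {i₁ i₂ j₁ j₂ : ℕ}
    (hα : ζ ^ i₁ * (a * b ^ r) = ζ ^ i₂ * c ^ (r + 1))
    (hβ : ζ ^ j₂ * (c * b ^ r) = ζ ^ j₁ * a ^ (r + 1)) :
    a ^ (r * (r + 1 + 1)) = ζ ^ (r * (i₂ + j₂ + (m - 1) * (i₁ + j₁))) * c ^ (r * (r + 1 + 1)) ∧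
    b ^ (r * (r + 1 + 1))
      = ζ ^ ((r + 1) * i₂ + j₁ + (m - 1) * ((r + 1) * i₁ + j₂)) * c ^ (r * (r + 1 + 1)) := by
  have hbq : b ^ r ≠ 0 := pow_ne_zero _ hb
  -- (*) `ζ^(i₁+j₁) a^(q+1) = ζ^(i₂+j₂) c^(q+1)`
  have h1 : ζ ^ (i₁ + j₁) * a ^ (r + 1 + 1) = ζ ^ (i₂ + j₂) * c ^ (r + 1 + 1) := by
    apply mul_right_cancel₀ hbq
    calc ζ ^ (i₁ + j₁) * a ^ (r + 1 + 1) * b ^ r
        = (ζ ^ i₁ * (a * b ^ r)) * (ζ ^ j₁ * a ^ (r + 1)) := by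
          rw [pow_add, pow_succ a (r + 1)]; ring
      _ = (ζ ^ i₂ * c ^ (r + 1)) * (ζ ^ j₂ * (c * b ^ r)) := by rw [hα, hβ]
      _ = ζ ^ (i₂ + j₂) * c ^ (r + 1 + 1) * b ^ r := by
          rw [pow_add, pow_succ c (r + 1)]; ring
  have h2 : a ^ (r + 1 + 1) = ζ ^ (i₂ + j₂ + (m - 1) * (i₁ + j₁)) * c ^ (r + 1 + 1) := by
    have h3 := zeta_pow_mul_inv hm hζ (i₁ + j₁)
    calc a ^ (r + 1 + 1) = (ζ ^ (i₁ + j₁) * ζ ^ ((m - 1) * (i₁ + j₁))) * a ^ (r + 1 + 1) := by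
          rw [h3, one_mul]
      _ = ζ ^ ((m - 1) * (i₁ + j₁)) * (ζ ^ (i₁ + j₁) * a ^ (r + 1 + 1)) := by ring
      _ = ζ ^ ((m - 1) * (i₁ + j₁)) * (ζ ^ (i₂ + j₂) * c ^ (r + 1 + 1)) := by rw [h1]
      _ = ζ ^ (i₂ + j₂ + (m - 1) * (i₁ + j₁)) * c ^ (r + 1 + 1) := by
          rw [pow_add ζ (i₂ + j₂)]; ring
  constructor
  · calc a ^ (r * (r + 1 + 1)) = (a ^ (r + 1 + 1)) ^ r := by rw [← pow_mul, mul_comm]
      _ = (ζ ^ (i₂ + j₂ + (m - 1) * (i₁ + j₁)) * c ^ (r + 1 + 1)) ^ r := by rw [h2]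
      _ = ζ ^ (r * (i₂ + j₂ + (m - 1) * (i₁ + j₁))) * c ^ (r * (r + 1 + 1)) := by
          rw [mul_pow, ← pow_mul, ← pow_mul, mul_comm (r + 1 + 1) r,
            mul_comm (i₂ + j₂ + (m - 1) * (i₁ + j₁)) r]
  · -- `ζ^(q i₁ + j₂) b^c = ζ^(q i₂ + j₁) c^c`
    have hcc : c ^ (r * (r + 1 + 1)) * c = (c ^ (r + 1)) ^ (r + 1) := by
      rw [← pow_succ, ← pow_mul]
      congr 1
      ring
    have hbb : b ^ (r * (r + 1 + 1)) = (b ^ r) ^ (r + 1) * b ^ r := by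
      rw [← pow_succ, ← pow_mul]
    have hz₁ : ζ ^ ((r + 1) * i₁) = (ζ ^ i₁) ^ (r + 1) := by rw [← pow_mul, mul_comm]
    have hz₂ : ζ ^ ((r + 1) * i₂) = (ζ ^ i₂) ^ (r + 1) := by rw [← pow_mul, mul_comm]
    have h4 : ζ ^ ((r + 1) * i₁ + j₂) * b ^ (r * (r + 1 + 1))
        = ζ ^ ((r + 1) * i₂ + j₁) * c ^ (r * (r + 1 + 1)) := by
      apply mul_right_cancel₀ hc
      calc ζ ^ ((r + 1) * i₁ + j₂) * b ^ (r * (r + 1 + 1)) * c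
          = (ζ ^ i₁) ^ (r + 1) * (b ^ r) ^ (r + 1) * (ζ ^ j₂ * (c * b ^ r)) := by
            rw [hbb, pow_add ζ ((r + 1) * i₁) j₂, hz₁]; ring
        _ = (ζ ^ i₁) ^ (r + 1) * (b ^ r) ^ (r + 1) * (ζ ^ j₁ * a ^ (r + 1)) := by rw [hβ]
        _ = ζ ^ j₁ * (ζ ^ i₁ * (a * b ^ r)) ^ (r + 1) := by ring
        _ = ζ ^ j₁ * (ζ ^ i₂ * c ^ (r + 1)) ^ (r + 1) := by rw [hα]
        _ = ζ ^ ((r + 1) * i₂ + j₁) * (c ^ (r * (r + 1 + 1)) * c) := by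
            rw [hcc, pow_add ζ ((r + 1) * i₂) j₁, hz₂, mul_pow]; ring
        _ = ζ ^ ((r + 1) * i₂ + j₁) * c ^ (r * (r + 1 + 1)) * c := by ring
    have h3 := zeta_pow_mul_inv hm hζ ((r + 1) * i₁ + j₂)
    calc b ^ (r * (r + 1 + 1))
        = (ζ ^ ((r + 1) * i₁ + j₂) * ζ ^ ((m - 1) * ((r + 1) * i₁ + j₂)))
            * b ^ (r * (r + 1 + 1)) := by
          rw [h3, one_mul]
      _ = ζ ^ ((m - 1) * ((r + 1) * i₁ + j₂))
            * (ζ ^ ((r + 1) * i₁ + j₂) * b ^ (r * (r + 1 + 1))) := by ring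
      _ = ζ ^ ((m - 1) * ((r + 1) * i₁ + j₂))
            * (ζ ^ ((r + 1) * i₂ + j₁) * c ^ (r * (r + 1 + 1))) := by
          rw [h4]
      _ = ζ ^ ((r + 1) * i₂ + j₁ + (m - 1) * ((r + 1) * i₁ + j₂)) * c ^ (r * (r + 1 + 1)) := by
          rw [pow_add ζ ((r + 1) * i₂ + j₁)]; ring

/-- **Label algebra** in a domain. -/
theorem label_algebra_domain {ζ : K} {m : ℕ} (hm : 0 < m) (hζ : ζ ^ m = 1)
    {a b c : K} (hb : b ≠ 0) (hc : c ≠ 0) {q : ℕ} (hq : 0 < q) {i₁ i₂ j₁ j₂ : ℕ}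
    (hα : ζ ^ i₁ * (a * b ^ (q - 1)) = ζ ^ i₂ * c ^ q)
    (hβ : ζ ^ j₂ * (c * b ^ (q - 1)) = ζ ^ j₁ * a ^ q) :
    a ^ ((q - 1) * (q + 1)) = ζ ^ ((q - 1) * (i₂ + j₂ + (m - 1) * (i₁ + j₁))) * c ^ ((q - 1) * (q + 1)) ∧
    b ^ ((q - 1) * (q + 1)) = ζ ^ (q * i₂ + j₁ + (m - 1) * (q * i₁ + j₂)) * c ^ ((q - 1) * (q + 1)) := by
  obtain ⟨r, rfl⟩ : ∃ r, q = r + 1 := ⟨q - 1, (Nat.sub_add_cancel hq).symm⟩
  rw [Nat.add_sub_cancel] at hα hβ ⊢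
  exact label_algebra_succ hm hζ hb hc hα hβ

end Algebra

section ModPrime

variable {R : Type*} [CommRing R]

/-- **Label algebra** modulo a prime ideal of `R`. -/
theorem label_algebra (𝔪 : Ideal R) [𝔪.IsPrime] {ζ : R} {m : ℕ} (hm : 0 < m) (hζ : ζ ^ m = 1)
    {a b c : R} (hb : b ∉ 𝔪) (hc : c ∉ 𝔪) {q : ℕ} (hq : 0 < q) {i₁ i₂ j₁ j₂ : ℕ}
    (hα : ζ ^ i₁ * (a * b ^ (q - 1)) - ζ ^ i₂ * c ^ q ∈ 𝔪)
    (hβ : ζ ^ j₂ * (c * b ^ (q - 1)) - ζ ^ j₁ * a ^ q ∈ 𝔪) :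
    a ^ ((q - 1) * (q + 1))
        - ζ ^ ((q - 1) * (i₂ + j₂ + (m - 1) * (i₁ + j₁))) * c ^ ((q - 1) * (q + 1)) ∈ 𝔪 ∧
    b ^ ((q - 1) * (q + 1))
        - ζ ^ (q * i₂ + j₁ + (m - 1) * (q * i₁ + j₂)) * c ^ ((q - 1) * (q + 1)) ∈ 𝔪 := by
  have key := label_algebra_domain (K := R ⧸ 𝔪) (ζ := Ideal.Quotient.mk 𝔪 ζ) hm
    (by rw [← map_pow, hζ, map_one])
    (a := Ideal.Quotient.mk 𝔪 a) (b := Ideal.Quotient.mk 𝔪 b) (c := Ideal.Quotient.mk 𝔪 c)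
    (fun h => hb (Ideal.Quotient.eq_zero_iff_mem.1 h))
    (fun h => hc (Ideal.Quotient.eq_zero_iff_mem.1 h)) hq (i₁ := i₁) (i₂ := i₂) (j₁ := j₁)
    (j₂ := j₂)
    (by
      have := (Ideal.Quotient.eq (I := 𝔪)).2 hα
      simpa only [map_mul, map_pow] using this)
    (by
      have := (Ideal.Quotient.eq (I := 𝔪)).2 hβ
      simpa only [map_mul, map_pow] using this)
  constructor
  · apply (Ideal.Quotient.eq (I := 𝔪)).1
    simpa only [map_mul, map_pow] using key.1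
  · apply (Ideal.Quotient.eq (I := 𝔪)).1
    simpa only [map_mul, map_pow] using key.2

end ModPrime

section LabelAt

variable {R : Type*} [CommRing R] {F : Type*} [Field F] [Algebra R F]

/-- a purity datum of `u` gives a purity datum of `u ^ c` -/
theorem pure_pow {B : Subalgebra R F} {u d : F} {m : ℕ} {a₀ s₀ : B}
    (hpure : u * d ^ m * (s₀ : F) = a₀) (c : ℕ) :
    u ^ c * (d ^ c) ^ m * ((s₀ ^ c : B) : F) = ((a₀ ^ c : B) : F) := by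
  push_cast
  rw [← hpure]
  ring

/-- **The label datum at a point on exactly one sheet.** -/
theorem labelAt_of_one {B : Subalgebra R F} {n : Ideal B} [n.IsPrime]
    {𝒱 : Set (ValuationSubring F)} {m : ℕ} (hm : 0 < m) {ζ : R} (hζ : ζ ^ m = 1)
    (κ : ValuationSubring F → ℕ) {V₀ : ValuationSubring F}
    (hone : ∀ V ∈ 𝒱, PassThrough B n V → V = V₀)
    (hBV₀ : ChartLe B V₀) (hthV₀ : PassThrough B n V₀)
    {u d : F} {a₀ s₀ : B} (hs₀ : s₀ ∉ n) (hpure : u * d ^ m * (s₀ : F) = a₀)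
    {η : R} (hη : algebraMap R B η ∉ n) (hval : ValAt B n V₀ d η) :
    LabelAt B n 𝒱 m u ζ κ := by
  have hd0 : d ≠ 0 := by
    rintro rfl
    exact hval.not_nonunits hBV₀ hthV₀ hη (vnu_zero V₀)
  refine ⟨d, a₀, s₀, η * ζ ^ κ V₀, hd0, hs₀, hpure, ?_, ?_⟩
  · intro h
    apply hη
    have h1 : algebraMap R B η = algebraMap R B (η * ζ ^ κ V₀) * algebraMap R B (ζ ^ ((m - 1) * κ V₀)) := by
      rw [← map_mul, mul_assoc, ← pow_add]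
      have : κ V₀ + (m - 1) * κ V₀ = m * κ V₀ := by
        have hm1 : m - 1 + 1 = m := Nat.sub_add_cancel hm
        calc κ V₀ + (m - 1) * κ V₀ = (m - 1 + 1) * κ V₀ := by ring
          _ = m * κ V₀ := by rw [hm1]
      rw [this, pow_mul, hζ, one_pow, mul_one]
    rw [h1]
    exact n.mul_mem_right _ h
  · intro V hV hth
    rw [hone V hV hth]
    have h1 : η * ζ ^ κ V₀ * ζ ^ ((m - 1) * κ V₀) = η := by
      rw [mul_assoc, ← pow_add]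
      have : κ V₀ + (m - 1) * κ V₀ = m * κ V₀ := by
        have hm1 : m - 1 + 1 = m := Nat.sub_add_cancel hm
        calc κ V₀ + (m - 1) * κ V₀ = (m - 1 + 1) * κ V₀ := by ring
          _ = m * κ V₀ := by rw [hm1]
      rw [this, pow_mul, hζ, one_pow, mul_one]
    rw [h1]
    exact hval

/-- **The label datum at a triple point**, for `u ^ c`, `c = (q - 1) (q + 1)`:
from the values of a purity datum of `u` along the three sheets and the two label equations. -/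
theorem labelAt_of_three {B : Subalgebra R F} {n : Ideal B} [n.IsPrime]
    (𝔪 : Ideal R) [𝔪.IsPrime] (h𝔪n : ∀ r ∈ 𝔪, algebraMap R B r ∈ n)
    {𝒱 : Set (ValuationSubring F)} {VFF Vmid VVV : ValuationSubring F}
    (h𝒱 : ∀ V ∈ 𝒱, V = VFF ∨ V = Vmid ∨ V = VVV)
    (hBFF : ChartLe B VFF) (hthFF : PassThrough B n VFF)
    (hBmid : ChartLe B Vmid) (hthmid : PassThrough B n Vmid)
    (hBVV : ChartLe B VVV) (hthVV : PassThrough B n VVV)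
    {m : ℕ} (hm : 0 < m) {ζ : R} (hζ : ζ ^ m = 1) {q : ℕ} (hq : 0 < q) {i₁ i₂ j₁ j₂ : ℕ}
    (κ : ValuationSubring F → ℕ)
    (hκFF : ζ ^ ((m - 1) * κ VFF) = ζ ^ ((q - 1) * (i₂ + j₂ + (m - 1) * (i₁ + j₁))))
    (hκmid : ζ ^ ((m - 1) * κ Vmid) = ζ ^ (q * i₂ + j₁ + (m - 1) * (q * i₁ + j₂)))
    (hκVV : ζ ^ ((m - 1) * κ VVV) = 1)
    {u d : F} {a₀ s₀ : B} (hs₀ : s₀ ∉ n) (hpure : u * d ^ m * (s₀ : F) = a₀)
    {ηFF ηmid ηVV : R} (hηmid : ηmid ∉ 𝔪) (hηVV : ηVV ∉ 𝔪) (hηVVn : algebraMap R B ηVV ∉ n)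
    (hFF : ValAt B n VFF d ηFF) (hmid : ValAt B n Vmid d ηmid) (hVV : ValAt B n VVV d ηVV)
    (hα : ζ ^ i₁ * (ηFF * ηmid ^ (q - 1)) - ζ ^ i₂ * ηVV ^ q ∈ 𝔪)
    (hβ : ζ ^ j₂ * (ηVV * ηmid ^ (q - 1)) - ζ ^ j₁ * ηFF ^ q ∈ 𝔪) :
    LabelAt B n 𝒱 m (u ^ ((q - 1) * (q + 1))) ζ κ := by
  obtain ⟨hA, hB⟩ := label_algebra 𝔪 hm hζ hηmid hηVV hq hα hβ
  set c := (q - 1) * (q + 1) with hc
  have hd0 : d ≠ 0 := by
    rintro rfl
    exact hVV.not_nonunits hBVV hthVV hηVVn (vnu_zero VVV)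
  refine ⟨d ^ c, a₀ ^ c, s₀ ^ c, ηVV ^ c, pow_ne_zero _ hd0, ?_, pure_pow hpure c, ?_, ?_⟩
  · exact fun h => hs₀ (Ideal.IsPrime.mem_of_pow_mem ‹n.IsPrime› c h)
  · intro h
    rw [map_pow] at h
    exact hηVVn (Ideal.IsPrime.mem_of_pow_mem ‹n.IsPrime› c h)
  · intro V hV _
    rcases h𝒱 V hV with rfl | rfl | rfl
    · refine (hFF.pow hBFF hthFF c).congr_const ?_
      rw [hκFF]
      have : ηFF ^ c - ηVV ^ c * ζ ^ ((q - 1) * (i₂ + j₂ + (m - 1) * (i₁ + j₁)))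
          = ηFF ^ c - ζ ^ ((q - 1) * (i₂ + j₂ + (m - 1) * (i₁ + j₁))) * ηVV ^ c := by ring
      rw [this]
      exact h𝔪n _ hA
    · refine (hmid.pow hBmid hthmid c).congr_const ?_
      rw [hκmid]
      have : ηmid ^ c - ηVV ^ c * ζ ^ (q * i₂ + j₁ + (m - 1) * (q * i₁ + j₂))
          = ηmid ^ c - ζ ^ (q * i₂ + j₁ + (m - 1) * (q * i₁ + j₂)) * ηVV ^ c := by ring
      rw [this]
      exact h𝔪n _ hB
    · refine (hVV.pow hBVV hthVV c).congr_const ?_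
      rw [hκVV, mul_one, sub_self, map_zero]
      exact n.zero_mem

end LabelAt

end Fermat.Agent.S36.H630
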