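import Fermat.Agent.S36.H630.LabNorm

/-!
# S36 engine, LABEL core (helper630), part 5: the label equation at a point over a node

Setting of `LabNorm.lean`.  `N₁` is a node of level `qM'` (both sheets `V₁'`, `V₂'` of `F'` pass
through it), `n` the unique closed point of level `q²M'` over it (via `α`; the same theorem is
used via `β` with the roles of `FF` and `VV` exchanged).  Sheets of `F` through `n`:
`V_FF`, `V_mid` over `V₁'` (`e = 1`, `e = q - 1`, `f = 1`), `V_VV` over `V₂'` (purely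
inseparable of degree `q`).

`u ∈ F` with purity datum `d` at `n`, in the form `u d ^ m t = b'`, `t ∈ A ∖ N₁`, `b' ∈ B`
(local denominators: `S36/H153.exists_denominator_of_unique`), and `N u = k ^ m` (the class is
`q`-new), `k ≡ ξ₁` on `V₁'`, `k ≡ ξ₂` on `V₂'` (constants, since `N u ≡ 1` on both sheets).

**Theorem** (`label_eq_of_norm`).  If `d` has the values `η_FF`, `η_mid`, `η_VV` at `n` along the
three sheets, then  `ξ₁ η_FF η_mid ^ e ≡ ξ₂ η_VV ^ q`  modulo `N₁`.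
-/

set_option autoImplicit false
set_option linter.unusedSectionVars false

namespace Fermat.Agent.S36.H630

variable {R : Type*} [CommRing R] {F' : Type*} [Field F'] [Algebra R F']
variable {F : Type*} [Field F] [Algebra R F] [Algebra F' F] [IsScalarTower R F' F]

/-- **The label equation.** -/
theorem label_eq_of_norm {A : Subalgebra R F'} {B : Subalgebra R F}
    {N₁ : Ideal A} {n : Ideal B} [n.IsPrime] [N₁.IsPrime]
    (hAB : ∀ a : A, algebraMap F' F (a : F') ∈ B)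
    (hNn : ∀ a : A, a ∈ N₁ ↔ (⟨algebraMap F' F (a : F'), hAB a⟩ : B) ∈ n)
    (hnormA : ∀ b : B, Algebra.norm F' (b : F) ∈ A)
    {m : ℕ} (hrootA : ∀ z : F', z ^ m ∈ A → z ∈ A)
    {V₁' V₂' : ValuationSubring F'}
    (hAV₁' : ChartLe A V₁') (hth₁' : PassThrough A N₁ V₁')
    (hAV₂' : ChartLe A V₂') (hth₂' : PassThrough A N₁ V₂')
    {VFF Vmid VVV : ValuationSubring F}
    (hBFF : ChartLe B VFF) (hthFF : PassThrough B n VFF)
    (hBmid : ChartLe B Vmid) (hthmid : PassThrough B n Vmid)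
    (hBVV : ChartLe B VVV) (hthVV : PassThrough B n VVV)
    (hliftFF : ResLift A B VFF) (hliftmid : ResLift A B Vmid)
    {e q : ℕ} (hliftVV : ResLiftPow A B VVV q)
    (hNR₁ : NormResSplit V₁' VFF Vmid e) (hNR₂ : NormResInsep V₂' VVV q)
    {u d : F} {t : A} (ht : t ∉ N₁) {b' : B}
    (hpure : u * d ^ m * algebraMap F' F (t : F') = b')
    {k : F'} (hk : Algebra.norm F' u = k ^ m) {ξ₁ ξ₂ : R}
    (hξ₁ : k - algebraMap R F' ξ₁ ∈ V₁'.nonunits) (hξ₂ : k - algebraMap R F' ξ₂ ∈ V₂'.nonunits)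
    {ηFF ηmid ηVV : R}
    (hFF : ValAt B n VFF d ηFF) (hmid : ValAt B n Vmid d ηmid) (hVV : ValAt B n VVV d ηVV) :
    algebraMap R A (ξ₁ * (ηFF * ηmid ^ e) - ξ₂ * ηVV ^ q) ∈ N₁ := by
  have hN₁top : N₁ ≠ ⊤ := Ideal.IsPrime.ne_top ‹N₁.IsPrime›
  set D : ℕ := Module.finrank F' F with hD
  set δ : F' := k * Algebra.norm F' d with hδ
  -- `δ ^ m t ^ D = N b'`
  have h1 : δ ^ m * (t : F') ^ D = Algebra.norm F' (b' : F) := by
    rw [← hpure, map_mul, map_mul, map_pow, hk, Algebra.norm_algebraMap, hδ, mul_pow]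
  -- `δ t ^ D ∈ A`
  have h2 : (δ * (t : F') ^ D) ^ m ∈ A := by
    rcases Nat.eq_zero_or_pos m with hm0 | hm0
    · rw [hm0, pow_zero]
      exact A.one_mem
    · obtain ⟨j, hj⟩ : ∃ j, m = j + 1 := ⟨m - 1, (Nat.sub_add_cancel hm0).symm⟩
      have h3 : (δ * (t : F') ^ D) ^ m
          = Algebra.norm F' (b' : F) * ((t : F') ^ D) ^ j := by
        rw [← h1, mul_pow]
        have h33 : ((t : F') ^ D) ^ m = ((t : F') ^ D) ^ j * (t : F') ^ D := by
          rw [hj, pow_succ]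
        rw [h33]
        ring
      rw [h3]
      exact A.mul_mem (hnormA b') (A.pow_mem (A.pow_mem t.2 D) j)
  have h4 : δ * (t : F') ^ D ∈ A := hrootA _ h2
  set c' : A := ⟨_, h4⟩ with hc'
  have htD : t ^ D ∉ N₁ := fun h => ht (Ideal.IsPrime.mem_of_pow_mem ‹N₁.IsPrime› D h)
  have hsc : ((t ^ D : A) : F') * δ = c' := by
    show ((t ^ D : A) : F') * δ = δ * (t : F') ^ D
    push_cast
    ring
  -- the two values of `δ`
  have hv₁ : ValAt A N₁ V₁' δ (ξ₁ * (ηFF * ηmid ^ e)) :=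
    (ValAt.const hN₁top hξ₁).mul hAV₁' hth₁'
      (valAt_norm_split hAB hNn hAV₁' hth₁' hBFF hthFF hBmid hthmid hliftFF hliftmid hNR₁
        hFF hmid)
  have hv₂ : ValAt A N₁ V₂' δ (ξ₂ * ηVV ^ q) :=
    (ValAt.const hN₁top hξ₂).mul hAV₂' hth₂'
      (valAt_norm_insep hAB hNn hAV₂' hBVV hthVV hliftVV hNR₂ hVV)
  have e₁ := hv₁.frac_mem hAV₁' hth₁' hsc
  have e₂ := hv₂.frac_mem hAV₂' hth₂' hsc
  have h5 : algebraMap R A (ξ₁ * (ηFF * ηmid ^ e) - ξ₂ * ηVV ^ q) * t ^ D ∈ N₁ := by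
    have : algebraMap R A (ξ₁ * (ηFF * ηmid ^ e) - ξ₂ * ηVV ^ q) * t ^ D
        = (c' - algebraMap R A (ξ₂ * ηVV ^ q) * t ^ D)
          - (c' - algebraMap R A (ξ₁ * (ηFF * ηmid ^ e)) * t ^ D) := by
      rw [map_sub]
      ring
    rw [this]
    exact N₁.sub_mem e₂ e₁
  rcases (Ideal.IsPrime.mem_or_mem ‹N₁.IsPrime› h5) with h6 | h6
  · exact h6
  · exact absurd h6 htD

end Fermat.Agent.S36.H630
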