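import Fermat.Agent.S36.H630.CtxAux

/-!
# S36 engine, LABEL core (helper630), part 13: the label equation along ONE degeneracy map,
hypotheses in the shape of the fields of `Eng.TripleCtx`

`F'` (level `qM'`) inside `F` (level `q²M'`) via `algebraMap F' F` (`= α` or `β`, instance
`algebraAlong`); charts `A = chart R {x'}`, `B = chart R {x}`; `n` a closed point of `B`, alone in
its fibre over `A`; sheets `Va` (`e = f = 1`), `Vb` (`e = q - 1`, `f = 1`) over `V'` and `Vc`
(purely inseparable of degree `q`) over `V''`, all three through `n`.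

`label_eq_side` :  `ξ₁ η_a η_b ^ (q - 1) ≡ ξ₂ η_c ^ q`  modulo the maximal ideal of `R`.
-/

set_option autoImplicit false
set_option linter.unusedSectionVars false
set_option linter.style.haveILetI false

namespace Fermat.Agent.S36.H630

open Polynomial
open Fermat.Agent.S18.H138 (chart mem_chart)

section Side

variable {R : Type*} [CommRing R] [IsLocalRing R]
variable {F' : Type*} [Field F'] [Algebra R F']
variable {F : Type*} [Field F] [Algebra R F] [Algebra F' F] [IsScalarTower R F' F]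

/-- The inclusion of the chart below into the chart above. -/
def chartIncl {x : F} {x' : F'}
    (hchart : ∀ b ∈ chart R ({x'} : Set F'), algebraMap F' F b ∈ chart R ({x} : Set F)) :
    chart R ({x'} : Set F') →+* chart R ({x} : Set F) where
  toFun a := ⟨algebraMap F' F (a : F'), hchart a a.2⟩
  map_one' := Subtype.ext (by simp)
  map_mul' _ _ := Subtype.ext (by simp)
  map_zero' := Subtype.ext (by simp)
  map_add' _ _ := Subtype.ext (by simp)

theorem chartIncl_isIntegral {x : F} {x' : F'}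
    (hchart : ∀ b ∈ chart R ({x'} : Set F'), algebraMap F' F b ∈ chart R ({x} : Set F))
    (hint : ∀ b ∈ chart R ({x} : Set F), ∃ p : Polynomial F', p.Monic ∧
      (∀ i, p.coeff i ∈ chart R ({x'} : Set F')) ∧ (p.map (algebraMap F' F)).eval b = 0) :
    (chartIncl hchart).IsIntegral := by
  intro b
  obtain ⟨p, hp, hc, hroot⟩ := hint b b.2
  have hl : p ∈ Polynomial.lifts (algebraMap (chart R ({x'} : Set F')) F') :=
    (Polynomial.lifts_iff_coeff_lifts p).2 (fun i => ⟨⟨p.coeff i, hc i⟩, rfl⟩)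
  obtain ⟨q, hq, -, hqm⟩ := Polynomial.lifts_and_degree_eq_and_monic hl hp
  refine ⟨q, hqm, ?_⟩
  apply Subtype.ext
  have h1 : ((Polynomial.eval₂ (chartIncl hchart) b q : chart R ({x} : Set F)) : F)
      = Polynomial.eval₂ ((algebraMap F' F).comp (algebraMap (chart R ({x'} : Set F')) F'))
          (b : F) q := by
    have := Polynomial.hom_eval₂ q (chartIncl hchart) (chart R ({x} : Set F)).val.toRingHom b
    exact this
  rw [h1, ← Polynomial.eval₂_map, hq, Polynomial.eval₂_eq_eval_map]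
  exact hroot

/-- **The label equation along one degeneracy map.** -/
theorem label_eq_side {x : F} {x' : F'}
    (n : Ideal (chart R ({x} : Set F))) [hn : n.IsMaximal]
    (hchart : ∀ b ∈ chart R ({x'} : Set F'), algebraMap F' F b ∈ chart R ({x} : Set F))
    (hint : ∀ b ∈ chart R ({x} : Set F), ∃ p : Polynomial F', p.Monic ∧
      (∀ i, p.coeff i ∈ chart R ({x'} : Set F')) ∧ (p.map (algebraMap F' F)).eval b = 0)
    (huniq : ∀ Q : Ideal (chart R ({x} : Set F)), Q.IsMaximal →
      (∀ (b' : F') (h : b' ∈ chart R ({x'} : Set F')),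
        (⟨algebraMap F' F b', hchart b' h⟩ : chart R ({x} : Set F)) ∈ n →
        (⟨algebraMap F' F b', hchart b' h⟩ : chart R ({x} : Set F)) ∈ Q) → Q = n)
    {Va Vb Vc : ValuationSubring F} {V' V'' : ValuationSubring F'}
    (hBa : ChartLe (chart R ({x} : Set F)) Va) (htha : PassThrough (chart R ({x} : Set F)) n Va)
    (hBb : ChartLe (chart R ({x} : Set F)) Vb) (hthb : PassThrough (chart R ({x} : Set F)) n Vb)
    (hBc : ChartLe (chart R ({x} : Set F)) Vc) (hthc : PassThrough (chart R ({x} : Set F)) n Vc)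
    (hcomap_a : Va.comap (algebraMap F' F) = V') (hcomap_c : Vc.comap (algebraMap F' F) = V'')
    (hres_a : ∀ b ∈ chart R ({x} : Set F), ∃ b' ∈ chart R ({x'} : Set F'),
      b - algebraMap F' F b' ∈ Va.nonunits)
    (hres_b : ∀ b ∈ chart R ({x} : Set F), ∃ b' ∈ chart R ({x'} : Set F'),
      b - algebraMap F' F b' ∈ Vb.nonunits)
    {q : ℕ} (hq : q ≠ 0)
    (hnr_s : NormResSplitU V' Va Vb (q - 1)) (hnr_i : NormResInsepU (F' := F') Vc q)
    {m : ℕ} (hm : 0 < m) {u d : F} {a₀ s₀ : chart R ({x} : Set F)} (hs₀ : s₀ ∉ n)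
    (hpure : u * d ^ m * (s₀ : F) = a₀)
    {k : F'} (hk : Algebra.norm F' u = k ^ m) {ξ₁ ξ₂ : R}
    (hξ₁ : k - algebraMap R F' ξ₁ ∈ V'.nonunits) (hξ₂ : k - algebraMap R F' ξ₂ ∈ V''.nonunits)
    {ηa ηb ηc : R}
    (hηa : algebraMap R (chart R ({x} : Set F)) ηa ∉ n)
    (hηb : algebraMap R (chart R ({x} : Set F)) ηb ∉ n)
    (hηc : algebraMap R (chart R ({x} : Set F)) ηc ∉ n)
    (hva : ValAt (chart R ({x} : Set F)) n Va d ηa)
    (hvb : ValAt (chart R ({x} : Set F)) n Vb d ηb)
    (hvc : ValAt (chart R ({x} : Set F)) n Vc d ηc) :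
    ξ₁ * (ηa * ηb ^ (q - 1)) - ξ₂ * ηc ^ q ∈ IsLocalRing.maximalIdeal R := by
  have hnp : n.IsPrime := hn.isPrime
  set ι := chartIncl hchart with hι
  have hιint : ι.IsIntegral := chartIncl_isIntegral hchart hint
  -- the point below
  set N₁ : Ideal (chart R ({x'} : Set F')) := n.comap ι with hN₁
  haveI hN₁p : N₁.IsPrime := Ideal.comap_isPrime ι n
  haveI hN₁m : N₁.IsMaximal := Ideal.isMaximal_comap_of_isIntegral_of_isMaximal' ι hιint n
  have hAB : ∀ a : chart R ({x'} : Set F'), algebraMap F' F (a : F') ∈ chart R ({x} : Set F) :=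
    fun a => hchart a a.2
  have hNn : ∀ a : chart R ({x'} : Set F'),
      a ∈ N₁ ↔ (⟨algebraMap F' F (a : F'), hAB a⟩ : chart R ({x} : Set F)) ∈ n :=
    fun a => Iff.rfl
  -- norms and roots
  have hnormA : ∀ b : chart R ({x} : Set F), Algebra.norm F' (b : F) ∈ chart R ({x'} : Set F') :=
    fun b => norm_mem_chart (hint b b.2)
  have hrootA : ∀ z : F', z ^ m ∈ chart R ({x'} : Set F') → z ∈ chart R ({x'} : Set F') := by
    intro z hz
    rw [mem_chart] at hz ⊢
    exact IsIntegral.of_pow hm hz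
  -- the sheets below
  have hAV' : ChartLe (chart R ({x'} : Set F')) V' := by
    intro a
    rw [← hcomap_a, ValuationSubring.mem_comap]
    exact hBa ⟨_, hAB a⟩
  have hAV'' : ChartLe (chart R ({x'} : Set F')) V'' := by
    intro a
    rw [← hcomap_c, ValuationSubring.mem_comap]
    exact hBc ⟨_, hAB a⟩
  have hth' : PassThrough (chart R ({x'} : Set F')) N₁ V' := by
    intro c hc
    rw [← hcomap_a, mem_nonunits_comap_iff] at hc
    exact htha ⟨_, hAB c⟩ hc
  have hth'' : PassThrough (chart R ({x'} : Set F')) N₁ V'' := by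
    intro c hc
    rw [← hcomap_c, mem_nonunits_comap_iff] at hc
    exact hthc ⟨_, hAB c⟩ hc
  have hliftFF : ResLift (chart R ({x'} : Set F')) (chart R ({x} : Set F)) Va := by
    intro b
    obtain ⟨b', hb', h⟩ := hres_a b b.2
    exact ⟨⟨b', hb'⟩, h⟩
  have hliftmid : ResLift (chart R ({x'} : Set F')) (chart R ({x} : Set F)) Vb := by
    intro b
    obtain ⟨b', hb', h⟩ := hres_b b b.2
    exact ⟨⟨b', hb'⟩, h⟩
  have hcomap : ∀ y' : F', algebraMap F' F y' ∈ Vc.nonunits → y' ∈ V''.nonunits := by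
    intro y' hy'
    rw [← hcomap_c, mem_nonunits_comap_iff]
    exact hy'
  -- local denominators
  have huniq' : ∀ Q : Ideal (chart R ({x} : Set F)), Q.IsPrime →
      Q.comap ι = n.comap ι → Q = n := by
    intro Q hQ hQc
    haveI := hQ
    have hQm : Q.IsMaximal := by
      refine Ideal.isMaximal_of_isIntegral_of_isMaximal_comap' ι hιint Q ?_
      rw [hQc]
      exact hN₁m
    refine huniq Q hQm (fun b' h hb => ?_)
    have h1 : (⟨b', h⟩ : chart R ({x'} : Set F')) ∈ n.comap ι := hb
    rw [← hQc] at h1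
    exact h1
  obtain ⟨s', t, ht, hst⟩ := exists_local_denominator ι hιint n huniq' s₀ hs₀
  have hst' : (s₀ : F) * (s' : F) = algebraMap F' F (t : F') := by
    have := congrArg (fun z : chart R ({x} : Set F) => (z : F)) hst
    exact this
  have hp : u * d ^ m * algebraMap F' F (t : F') = ((a₀ * s' : chart R ({x} : Set F)) : F) := by
    rw [← hst', Subalgebra.coe_mul, ← hpure]
    ring
  have key := label_eq_of_normU (A := chart R ({x'} : Set F')) (B := chart R ({x} : Set F))
    (N₁ := N₁) (n := n) hAB hNn hnormA hrootA hAV' hth' hAV'' hth'' hBa htha hBb hthb hBc hthc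
    hliftFF hliftmid hcomap hq hnr_s hnr_i ht hp hk hξ₁ hξ₂ hηa hηb hηc hva hvb hvc
  -- back to `R`
  by_contra hcon
  have hu : IsUnit (ξ₁ * (ηa * ηb ^ (q - 1)) - ξ₂ * ηc ^ q) := by
    by_contra hnu
    exact hcon ((IsLocalRing.mem_maximalIdeal _).2 hnu)
  have hu' : IsUnit (algebraMap R (chart R ({x'} : Set F'))
      (ξ₁ * (ηa * ηb ^ (q - 1)) - ξ₂ * ηc ^ q)) := hu.map _
  exact hN₁p.ne_top (Ideal.eq_top_of_isUnit_mem _ key hu')

end Side

end Fermat.Agent.S36.H630
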