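import Fermat.Agent.S36.H630.ToBase
import Fermat.Agent.S36.H630.LabEq
import Fermat.Agent.S36.H630.ExistVal

/-!
# S36 engine, LABEL core (helper630), part 9: `BasePureValuesAt` at every closed point

The local hypothesis of `H193.kummer_wall3_of_base` for `f = u ^ c`, `c = (q - 1) (q + 1)`:

* `basePureValuesAt_single` : at a closed point lying on exactly one sheet
  (purity + normality of the component + rationality of the point; any colouring `κ`);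
* `basePureValuesAt_triple` : at a triple point `n`, lying over a node `N₁` via `α` and over a
  node `N₂` via `β`, `n` the only point over each (local denominators `hden`), from purity, the
  norm–residue interface (`NormResSplit`, `NormResInsep`), the residue-ring interface (`ResLift`,
  `ResLiftPow`) and the `q`-newness of `u` (`N_α u = k_α ^ m`, `N_β u = k_β ^ m`).

The colouring `κ` is determined by the labels `ζ ^ i₁, ζ ^ i₂` of `k_α` and `ζ ^ j₁, ζ ^ j₂` of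
`k_β` on the two sheets of level `qM'`; it does not depend on the point.
-/

set_option autoImplicit false
set_option linter.unusedSectionVars false

namespace Fermat.Agent.S36.H630

open Fermat.Agent.S36.H193

variable {R : Type*} [CommRing R] {F : Type*} [Field F] [Algebra R F]

/-- **`BasePureValuesAt` at a point on exactly one sheet.** -/
theorem basePureValuesAt_single {B : Subalgebra R F} {n : Ideal B} [hn : n.IsMaximal]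
    (hrat : ∀ c : B, ∃ r : R, c - algebraMap R B r ∈ n)
    {𝒱 : Set (ValuationSubring F)} (hBV : ∀ V ∈ 𝒱, ChartLe B V)
    {V₀ : ValuationSubring F} (hone : ∀ V ∈ 𝒱, PassThrough B n V → V = V₀)
    (hBV₀ : ChartLe B V₀) (hthV₀ : PassThrough B n V₀)
    {m : ℕ} (hm : 0 < m) (hnormal : NormalAlong B V₀ m) {ζ : R} (hζ : ζ ^ m = 1)
    (κ : ValuationSubring F → ℕ)
    {u d : F} (hu : u - 1 ∈ V₀.nonunits) {a₀ s₀ : B} (ha₀ : a₀ ∉ n) (hs₀ : s₀ ∉ n)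
    (hpure : u * d ^ m * (s₀ : F) = a₀) (c : ℕ) :
    BasePureValuesAt 𝒱 B n m (u ^ c) ζ κ := by
  have hnp : n.IsPrime := hn.isPrime
  obtain ⟨η, hη, hval⟩ := exists_valAt_of_pure hrat hBV₀ hthV₀ hm hnormal hu ha₀ hs₀ hpure
  refine basePureValuesAt_of_labelAt hBV hm hζ ?_
  refine labelAt_of_one hm hζ κ hone hBV₀ hthV₀ (u := u ^ c) (d := d ^ c) (a₀ := a₀ ^ c)
    (s₀ := s₀ ^ c) (η := η ^ c) ?_ (pure_pow hpure c) ?_ (hval.pow hBV₀ hthV₀ c)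
  · exact fun h => hs₀ (hnp.mem_of_pow_mem c h)
  · intro h
    rw [map_pow] at h
    exact hη (hnp.mem_of_pow_mem c h)

section Triple

variable {F₁ : Type*} [Field F₁] [Algebra R F₁] [Algebra F₁ F] [IsScalarTower R F₁ F]
variable {F₂ : Type*} [Field F₂] [Algebra R F₂] [Algebra F₂ F] [IsScalarTower R F₂ F]

/-- **`BasePureValuesAt` at a triple point.** -/
theorem basePureValuesAt_triple {B : Subalgebra R F} {n : Ideal B} [hn : n.IsMaximal]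
    (𝔪 : Ideal R) [𝔪.IsPrime] (h𝔪n : ∀ r ∈ 𝔪, algebraMap R B r ∈ n)
    (hrat : ∀ c : B, ∃ r : R, c - algebraMap R B r ∈ n)
    {𝒱 : Set (ValuationSubring F)} {VFF Vmid VVV : ValuationSubring F}
    (h𝒱 : ∀ V ∈ 𝒱, V = VFF ∨ V = Vmid ∨ V = VVV)
    (hBFF : ChartLe B VFF) (hthFF : PassThrough B n VFF)
    (hBmid : ChartLe B Vmid) (hthmid : PassThrough B n Vmid)
    (hBVV : ChartLe B VVV) (hthVV : PassThrough B n VVV)
    {m : ℕ} (hm : 0 < m) {ζ : R} (hζ : ζ ^ m = 1) {q : ℕ} (hq : 0 < q)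
    (hnFF : NormalAlong B VFF m) (hnmid : NormalAlong B Vmid m) (hnVV : NormalAlong B VVV m)
    -- the function, split on the three sheets, with a purity datum at `n`
    {u d : F} (huFF : u - 1 ∈ VFF.nonunits) (humid : u - 1 ∈ Vmid.nonunits)
    (huVV : u - 1 ∈ VVV.nonunits)
    {a₀ s₀ : B} (ha₀ : a₀ ∉ n) (hs₀ : s₀ ∉ n) (hpure : u * d ^ m * (s₀ : F) = a₀)
    -- level `qM'` via `α`
    {A₁ : Subalgebra R F₁} {N₁ : Ideal A₁} [N₁.IsPrime]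
    (hAB₁ : ∀ a : A₁, algebraMap F₁ F (a : F₁) ∈ B)
    (hNn₁ : ∀ a : A₁, a ∈ N₁ ↔ (⟨algebraMap F₁ F (a : F₁), hAB₁ a⟩ : B) ∈ n)
    (hnorm₁ : ∀ b : B, Algebra.norm F₁ (b : F) ∈ A₁)
    (hroot₁ : ∀ z : F₁, z ^ m ∈ A₁ → z ∈ A₁)
    (hden₁ : ∀ s : B, s ∉ n → ∃ (t : A₁) (s' : B), t ∉ N₁ ∧
      (s : F) * (s' : F) = algebraMap F₁ F (t : F₁))
    {V₁ V₂ : ValuationSubring F₁}
    (hAV₁ : ChartLe A₁ V₁) (hthV₁ : PassThrough A₁ N₁ V₁)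
    (hAV₂ : ChartLe A₁ V₂) (hthV₂ : PassThrough A₁ N₁ V₂)
    (hliftFF₁ : ResLift A₁ B VFF) (hliftmid₁ : ResLift A₁ B Vmid)
    (hliftVV₁ : ResLiftPow A₁ B VVV q)
    (hNRs₁ : NormResSplit V₁ VFF Vmid (q - 1)) (hNRi₁ : NormResInsep V₂ VVV q)
    {k₁ : F₁} (hk₁ : Algebra.norm F₁ u = k₁ ^ m) {i₁ i₂ : ℕ}
    (hi₁ : k₁ - algebraMap R F₁ (ζ ^ i₁) ∈ V₁.nonunits)
    (hi₂ : k₁ - algebraMap R F₁ (ζ ^ i₂) ∈ V₂.nonunits)
    (hN₁𝔪 : ∀ r : R, algebraMap R A₁ r ∈ N₁ → r ∈ 𝔪)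
    -- level `qM'` via `β`
    {A₂ : Subalgebra R F₂} {N₂ : Ideal A₂} [N₂.IsPrime]
    (hAB₂ : ∀ a : A₂, algebraMap F₂ F (a : F₂) ∈ B)
    (hNn₂ : ∀ a : A₂, a ∈ N₂ ↔ (⟨algebraMap F₂ F (a : F₂), hAB₂ a⟩ : B) ∈ n)
    (hnorm₂ : ∀ b : B, Algebra.norm F₂ (b : F) ∈ A₂)
    (hroot₂ : ∀ z : F₂, z ^ m ∈ A₂ → z ∈ A₂)
    (hden₂ : ∀ s : B, s ∉ n → ∃ (t : A₂) (s' : B), t ∉ N₂ ∧
      (s : F) * (s' : F) = algebraMap F₂ F (t : F₂))
    {W₁ W₂ : ValuationSubring F₂}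
    (hAW₁ : ChartLe A₂ W₁) (hthW₁ : PassThrough A₂ N₂ W₁)
    (hAW₂ : ChartLe A₂ W₂) (hthW₂ : PassThrough A₂ N₂ W₂)
    (hliftVV₂ : ResLift A₂ B VVV) (hliftmid₂ : ResLift A₂ B Vmid)
    (hliftFF₂ : ResLiftPow A₂ B VFF q)
    (hNRs₂ : NormResSplit W₂ VVV Vmid (q - 1)) (hNRi₂ : NormResInsep W₁ VFF q)
    {k₂ : F₂} (hk₂ : Algebra.norm F₂ u = k₂ ^ m) {j₁ j₂ : ℕ}
    (hj₂ : k₂ - algebraMap R F₂ (ζ ^ j₂) ∈ W₂.nonunits)
    (hj₁ : k₂ - algebraMap R F₂ (ζ ^ j₁) ∈ W₁.nonunits)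
    (hN₂𝔪 : ∀ r : R, algebraMap R A₂ r ∈ N₂ → r ∈ 𝔪)
    -- the colouring
    (κ : ValuationSubring F → ℕ)
    (hκFF : ζ ^ ((m - 1) * κ VFF) = ζ ^ ((q - 1) * (i₂ + j₂ + (m - 1) * (i₁ + j₁))))
    (hκmid : ζ ^ ((m - 1) * κ Vmid) = ζ ^ (q * i₂ + j₁ + (m - 1) * (q * i₁ + j₂)))
    (hκVV : ζ ^ ((m - 1) * κ VVV) = 1) :
    BasePureValuesAt 𝒱 B n m (u ^ ((q - 1) * (q + 1))) ζ κ := by
  have hnp : n.IsPrime := hn.isPrime
  -- values of the purity datum along the three sheets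
  obtain ⟨ηFF, hηFF, hvFF⟩ := exists_valAt_of_pure hrat hBFF hthFF hm hnFF huFF ha₀ hs₀ hpure
  obtain ⟨ηmid, hηmid, hvmid⟩ :=
    exists_valAt_of_pure hrat hBmid hthmid hm hnmid humid ha₀ hs₀ hpure
  obtain ⟨ηVV, hηVV, hvVV⟩ := exists_valAt_of_pure hrat hBVV hthVV hm hnVV huVV ha₀ hs₀ hpure
  -- local denominators
  obtain ⟨t₁, s₁', ht₁, hst₁⟩ := hden₁ s₀ hs₀
  obtain ⟨t₂, s₂', ht₂, hst₂⟩ := hden₂ s₀ hs₀
  have hp₁ : u * d ^ m * algebraMap F₁ F (t₁ : F₁) = ((a₀ * s₁' : B) : F) := by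
    push_cast
    rw [← hst₁, ← hpure]
    ring
  have hp₂ : u * d ^ m * algebraMap F₂ F (t₂ : F₂) = ((a₀ * s₂' : B) : F) := by
    push_cast
    rw [← hst₂, ← hpure]
    ring
  -- the two label equations
  have eα := label_eq_of_norm hAB₁ hNn₁ hnorm₁ hroot₁ hAV₁ hthV₁ hAV₂ hthV₂ hBFF hthFF hBmid
    hthmid hBVV hthVV hliftFF₁ hliftmid₁ hliftVV₁ hNRs₁ hNRi₁ ht₁ hp₁ hk₁ hi₁ hi₂
    hvFF hvmid hvVV
  have eβ := label_eq_of_norm hAB₂ hNn₂ hnorm₂ hroot₂ hAW₂ hthW₂ hAW₁ hthW₁ hBVV hthVV hBmid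
    hthmid hBFF hthFF hliftVV₂ hliftmid₂ hliftFF₂ hNRs₂ hNRi₂ ht₂ hp₂ hk₂ hj₂ hj₁
    hvVV hvmid hvFF
  have hα := hN₁𝔪 _ eα
  have hβ := hN₂𝔪 _ eβ
  refine basePureValuesAt_of_labelAt (fun V hV => ?_) hm hζ ?_
  · rcases h𝒱 V hV with rfl | rfl | rfl
    · exact hBFF
    · exact hBmid
    · exact hBVV
  · exact labelAt_of_three 𝔪 h𝔪n h𝒱 hBFF hthFF hBmid hthmid hBVV hthVV hm hζ hq κ hκFF hκmid
      hκVV hs₀ hpure (fun h => hηmid (h𝔪n _ h)) (fun h => hηVV (h𝔪n _ h)) hηVV hvFF hvmid hvVV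
      hα hβ

end Triple

end Fermat.Agent.S36.H630
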