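import Fermat.Agent.S36.H630.LabEq

/-!
# S36 engine, LABEL core (helper630), part 10: the label equation from UNITS-ONLY norm–residue
formulas (the shape of the fields `nr_α₁, nr_α₂, nr_β₁, nr_β₂` of `Eng.TripleCtx`)

* `NormResSplitU V' V₁ V₂ e` : `res_{V'} (N y) = res_{V₁} y · (res_{V₂} y) ^ e` for `y` a unit of
  `V₁` and of `V₂` (body of `nr_α₁` / `nr_β₁`, with `algebraMap F' F` for the degeneracy map);
* `NormResInsepU V q` : `N y ≡ y ^ q` on `V` for units `y` of `V` (body of `nr_α₂` / `nr_β₂`);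
* `resLiftPow_of_insepU` : `ResLiftPow` from `NormResInsepU` and `N B ⊆ A`;
* `valAt_norm_splitU`, `valAt_norm_insepU` : LAB-NORM for values which are units at the point;
* `label_eq_of_normU` : the label equation.
-/

set_option autoImplicit false
set_option linter.unusedSectionVars false

namespace Fermat.Agent.S36.H630

variable {R : Type*} [CommRing R] {F' : Type*} [Field F'] [Algebra R F']
variable {F : Type*} [Field F] [Algebra R F] [Algebra F' F] [IsScalarTower R F' F]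

/-- Norm–residue formula, split case, for units. -/
def NormResSplitU (V' : ValuationSubring F') (V₁ V₂ : ValuationSubring F) (e : ℕ) : Prop :=
  ∀ y : F, (y ≠ 0 ∧ y ∈ V₁ ∧ y⁻¹ ∈ V₁) → (y ≠ 0 ∧ y ∈ V₂ ∧ y⁻¹ ∈ V₂) → ∀ x₁ x₂ : F',
    algebraMap F' F x₁ - y ∈ V₁.nonunits → algebraMap F' F x₂ - y ∈ V₂.nonunits →
      Algebra.norm F' y - x₁ * x₂ ^ e ∈ V'.nonunits

/-- Norm–residue formula, purely inseparable case of degree `q`, for units. -/
def NormResInsepU (V : ValuationSubring F) (q : ℕ) : Prop :=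
  ∀ y : F, (y ≠ 0 ∧ y ∈ V ∧ y⁻¹ ∈ V) →
    algebraMap F' F (Algebra.norm F' y) - y ^ q ∈ V.nonunits

section NormU

variable {A : Subalgebra R F'} {B : Subalgebra R F}
variable {N₁ : Ideal A} {n : Ideal B}

/-- `ResLiftPow` from the purely inseparable norm–residue formula. -/
theorem resLiftPow_of_insepU (hnormA : ∀ b : B, Algebra.norm F' (b : F) ∈ A)
    {V : ValuationSubring F} (hBV : ChartLe B V) {q : ℕ} (hq : q ≠ 0)
    (hNR : NormResInsepU (F' := F') V q) : ResLiftPow A B V q := by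
  intro b
  by_cases hb : (b : F) ∈ V.nonunits
  · refine ⟨0, ?_⟩
    have : (b : F) ^ q - algebraMap F' F ((0 : A) : F') = (b : F) ^ q := by
      rw [ZeroMemClass.coe_zero, map_zero, sub_zero]
    rw [this]
    exact vnu_pow V hb hq
  · refine ⟨⟨_, hnormA b⟩, ?_⟩
    have hb0 : (b : F) ≠ 0 := fun h0 => hb (h0 ▸ vnu_zero V)
    have h1 := hNR (b : F) ⟨hb0, hBV b, vnu_inv_mem V (hBV b) hb⟩
    have : (b : F) ^ q - algebraMap F' F (Algebra.norm F' (b : F))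
        = -(algebraMap F' F (Algebra.norm F' (b : F)) - (b : F) ^ q) := by ring
    rw [this]
    exact vnu_neg V h1

/-- **LAB-NORM, split side, unit values.** -/
theorem valAt_norm_splitU [n.IsPrime] [N₁.IsPrime]
    (hAB : ∀ a : A, algebraMap F' F (a : F') ∈ B)
    (hNn : ∀ a : A, a ∈ N₁ ↔ (⟨algebraMap F' F (a : F'), hAB a⟩ : B) ∈ n)
    {V' : ValuationSubring F'} (hAV' : ChartLe A V') (hth' : PassThrough A N₁ V')
    {V₁ V₂ : ValuationSubring F} (hBV₁ : ChartLe B V₁) (hth₁ : PassThrough B n V₁)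
    (hBV₂ : ChartLe B V₂) (hth₂ : PassThrough B n V₂)
    (hlift₁ : ResLift A B V₁) (hlift₂ : ResLift A B V₂)
    {e : ℕ} (hNR : NormResSplitU V' V₁ V₂ e)
    {d : F} {η₁ η₂ : R} (hη₁n : algebraMap R B η₁ ∉ n) (hη₂n : algebraMap R B η₂ ∉ n)
    (h₁ : ValAt B n V₁ d η₁) (h₂ : ValAt B n V₂ d η₂) :
    ValAt A N₁ V' (Algebra.norm F' d) (η₁ * η₂ ^ e) := by
  obtain ⟨a₁, b₁, hb₁, hη₁, hd₁⟩ := exists_lift_of_valAt hAB hNn hBV₁ hth₁ hlift₁ h₁
  obtain ⟨a₂, b₂, hb₂, hη₂, hd₂⟩ := exists_lift_of_valAt hAB hNn hBV₂ hth₂ hlift₂ h₂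
  have hy₁ := sub_div_mem_nonunits hAB hNn hBV₁ hth₁ hb₁ hd₁
  have hy₂ := sub_div_mem_nonunits hAB hNn hBV₂ hth₂ hb₂ hd₂
  have hy₁' : algebraMap F' F ((a₁ : F') / (b₁ : F')) - d ∈ V₁.nonunits := by
    have := vnu_neg V₁ hy₁
    rwa [neg_sub] at this
  have hy₂' : algebraMap F' F ((a₂ : F') / (b₂ : F')) - d ∈ V₂.nonunits := by
    have := vnu_neg V₂ hy₂
    rwa [neg_sub] at this
  have hdV₁ := h₁.mem hBV₁ hth₁
  have hdV₂ := h₂.mem hBV₂ hth₂
  have hdu₁ := h₁.not_nonunits hBV₁ hth₁ hη₁n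
  have hd0 : d ≠ 0 := fun h0 => hdu₁ (h0 ▸ vnu_zero V₁)
  have hN := hNR d ⟨hd0, hdV₁, vnu_inv_mem V₁ hdV₁ hdu₁⟩
    ⟨hd0, hdV₂, vnu_inv_mem V₂ hdV₂ (h₂.not_nonunits hBV₂ hth₂ hη₂n)⟩ _ _ hy₁' hy₂'
  have hv₁ : ValAt A N₁ V' ((a₁ : F') / (b₁ : F')) η₁ := valAt_div hb₁ hη₁
  have hv₂ : ValAt A N₁ V' ((a₂ : F') / (b₂ : F')) η₂ := valAt_div hb₂ hη₂
  have hv : ValAt A N₁ V' ((a₁ : F') / (b₁ : F') * ((a₂ : F') / (b₂ : F')) ^ e) (η₁ * η₂ ^ e) :=
    hv₁.mul hAV' hth' (hv₂.pow hAV' hth' e)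
  refine hv.congr hAV' ?_
  have : (a₁ : F') / (b₁ : F') * ((a₂ : F') / (b₂ : F')) ^ e - Algebra.norm F' d
      = -(Algebra.norm F' d - (a₁ : F') / (b₁ : F') * ((a₂ : F') / (b₂ : F')) ^ e) := by ring
  rw [this]
  exact vnu_neg V' hN

/-- **LAB-NORM, purely inseparable side, unit values.** -/
theorem valAt_norm_insepU [n.IsPrime] [N₁.IsPrime]
    (hAB : ∀ a : A, algebraMap F' F (a : F') ∈ B)
    (hNn : ∀ a : A, a ∈ N₁ ↔ (⟨algebraMap F' F (a : F'), hAB a⟩ : B) ∈ n)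
    (hnormA : ∀ b : B, Algebra.norm F' (b : F) ∈ A)
    {V' : ValuationSubring F'} (hAV' : ChartLe A V')
    {V : ValuationSubring F} (hBV : ChartLe B V) (hth : PassThrough B n V)
    (hcomap : ∀ y' : F', algebraMap F' F y' ∈ V.nonunits → y' ∈ V'.nonunits)
    {q : ℕ} (hq : q ≠ 0) (hNR : NormResInsepU (F' := F') V q)
    {d : F} {η : R} (hηn : algebraMap R B η ∉ n) (h : ValAt B n V d η) :
    ValAt A N₁ V' (Algebra.norm F' d) (η ^ q) := by
  have hlift : ResLiftPow A B V q := resLiftPow_of_insepU hnormA hBV hq hNR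
  obtain ⟨a₁, b₁, hb₁, hη₁, hd₁⟩ := exists_lift_pow_of_valAt hAB hNn hBV hth hlift h
  have hy := sub_div_mem_nonunits hAB hNn hBV hth hb₁ hd₁
  have hdV := h.mem hBV hth
  have hdu := h.not_nonunits hBV hth hηn
  have hd0 : d ≠ 0 := fun h0 => hdu (h0 ▸ vnu_zero V)
  have hN := hNR d ⟨hd0, hdV, vnu_inv_mem V hdV hdu⟩
  have hN' : Algebra.norm F' d - (a₁ : F') / (b₁ : F') ∈ V'.nonunits := by
    apply hcomap
    rw [map_sub]
    have : algebraMap F' F (Algebra.norm F' d) - algebraMap F' F ((a₁ : F') / (b₁ : F'))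
        = (algebraMap F' F (Algebra.norm F' d) - d ^ q)
          + (d ^ q - algebraMap F' F ((a₁ : F') / (b₁ : F'))) := by ring
    rw [this]
    exact vnu_add V hN hy
  have hv : ValAt A N₁ V' ((a₁ : F') / (b₁ : F')) (η ^ q) := valAt_div hb₁ hη₁
  refine hv.congr hAV' ?_
  have : (a₁ : F') / (b₁ : F') - Algebra.norm F' d
      = -(Algebra.norm F' d - (a₁ : F') / (b₁ : F')) := by ring
  rw [this]
  exact vnu_neg V' hN'

/-- **The label equation, from units-only norm–residue formulas.** -/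
theorem label_eq_of_normU [n.IsPrime] [N₁.IsPrime]
    (hAB : ∀ a : A, algebraMap F' F (a : F') ∈ B)
    (hNn : ∀ a : A, a ∈ N₁ ↔ (⟨algebraMap F' F (a : F'), hAB a⟩ : B) ∈ n)
    (hnormA : ∀ b : B, Algebra.norm F' (b : F) ∈ A)
    {m : ℕ} (hrootA : ∀ z : F', z ^ m ∈ A → z ∈ A)
    {V₁' V₂' : ValuationSubring F'}
    (hAV₁' : ChartLe A V₁') (hth₁' : PassThrough A N₁ V₁')
    (hAV₂' : ChartLe A V₂') (hth₂' : PassThrough A N₁ V₂')
    {VFF Vmid VVV : ValuationSubring F}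
    (hBFF : ChartLe B VFF) (hthFF : PassThrough B n VFF)
    (hBmid : ChartLe B Vmid) (hthmid : PassThrough B n Vmid)
    (hBVV : ChartLe B VVV) (hthVV : PassThrough B n VVV)
    (hliftFF : ResLift A B VFF) (hliftmid : ResLift A B Vmid)
    (hcomap : ∀ y' : F', algebraMap F' F y' ∈ VVV.nonunits → y' ∈ V₂'.nonunits)
    {e q : ℕ} (hq : q ≠ 0)
    (hNR₁ : NormResSplitU V₁' VFF Vmid e) (hNR₂ : NormResInsepU (F' := F') VVV q)
    {u d : F} {t : A} (ht : t ∉ N₁) {b' : B}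
    (hpure : u * d ^ m * algebraMap F' F (t : F') = b')
    {k : F'} (hk : Algebra.norm F' u = k ^ m) {ξ₁ ξ₂ : R}
    (hξ₁ : k - algebraMap R F' ξ₁ ∈ V₁'.nonunits) (hξ₂ : k - algebraMap R F' ξ₂ ∈ V₂'.nonunits)
    {ηFF ηmid ηVV : R}
    (hηFF : algebraMap R B ηFF ∉ n) (hηmid : algebraMap R B ηmid ∉ n)
    (hηVV : algebraMap R B ηVV ∉ n)
    (hFF : ValAt B n VFF d ηFF) (hmid : ValAt B n Vmid d ηmid) (hVV : ValAt B n VVV d ηVV) :
    algebraMap R A (ξ₁ * (ηFF * ηmid ^ e) - ξ₂ * ηVV ^ q) ∈ N₁ := by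
  have hN₁top : N₁ ≠ ⊤ := Ideal.IsPrime.ne_top ‹N₁.IsPrime›
  set D : ℕ := Module.finrank F' F with hD
  set δ : F' := k * Algebra.norm F' d with hδ
  -- `δ ^ m t ^ D = N b'`
  have h1 : δ ^ m * (t : F') ^ D = Algebra.norm F' (b' : F) := by
    rw [← hpure, map_mul, map_mul, map_pow, hk, Algebra.norm_algebraMap, hδ, mul_pow]
  -- `δ t ^ D ∈ A`
  have h2 : (δ * (t : F') ^ D) ^ m ∈ A := by
    rcases Nat.eq_zero_or_pos m with hm0 | hm0
    · rw [hm0, pow_zero]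
      exact A.one_mem
    · obtain ⟨j, hj⟩ : ∃ j, m = j + 1 := ⟨m - 1, (Nat.sub_add_cancel hm0).symm⟩
      have h3 : (δ * (t : F') ^ D) ^ m
          = Algebra.norm F' (b' : F) * ((t : F') ^ D) ^ j := by
        rw [← h1, mul_pow]
        have h33 : ((t : F') ^ D) ^ m = ((t : F') ^ D) ^ j * (t : F') ^ D := by
          rw [hj, pow_succ]
        rw [h33]
        ring
      rw [h3]
      exact A.mul_mem (hnormA b') (A.pow_mem (A.pow_mem t.2 D) j)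
  have h4 : δ * (t : F') ^ D ∈ A := hrootA _ h2
  set c' : A := ⟨_, h4⟩ with hc'
  have htD : t ^ D ∉ N₁ := fun h => ht (Ideal.IsPrime.mem_of_pow_mem ‹N₁.IsPrime› D h)
  have hsc : ((t ^ D : A) : F') * δ = c' := by
    show ((t ^ D : A) : F') * δ = δ * (t : F') ^ D
    push_cast
    ring
  -- the two values of `δ`
  have hv₁ : ValAt A N₁ V₁' δ (ξ₁ * (ηFF * ηmid ^ e)) :=
    (ValAt.const hN₁top hξ₁).mul hAV₁' hth₁'
      (valAt_norm_splitU hAB hNn hAV₁' hth₁' hBFF hthFF hBmid hthmid hliftFF hliftmid hNR₁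
        hηFF hηmid hFF hmid)
  have hv₂ : ValAt A N₁ V₂' δ (ξ₂ * ηVV ^ q) :=
    (ValAt.const hN₁top hξ₂).mul hAV₂' hth₂'
      (valAt_norm_insepU hAB hNn hnormA hAV₂' hBVV hthVV hcomap hq hNR₂ hηVV hVV)
  have e₁ := hv₁.frac_mem hAV₁' hth₁' hsc
  have e₂ := hv₂.frac_mem hAV₂' hth₂' hsc
  have h5 : algebraMap R A (ξ₁ * (ηFF * ηmid ^ e) - ξ₂ * ηVV ^ q) * t ^ D ∈ N₁ := by
    have : algebraMap R A (ξ₁ * (ηFF * ηmid ^ e) - ξ₂ * ηVV ^ q) * t ^ D
        = (c' - algebraMap R A (ξ₂ * ηVV ^ q) * t ^ D)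
          - (c' - algebraMap R A (ξ₁ * (ηFF * ηmid ^ e)) * t ^ D) := by
      rw [map_sub]
      ring
    rw [this]
    exact N₁.sub_mem e₂ e₁
  rcases (Ideal.IsPrime.mem_or_mem ‹N₁.IsPrime› h5) with h6 | h6
  · exact h6
  · exact absurd h6 htD

end NormU

end Fermat.Agent.S36.H630
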