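import Mathlib

/-!
# S36 engine, LABEL core (helper630), part 1: values at closed points along sheets

Elementwise language (no localisation types, no residue-field types).

* `R` base ring (a DVR in the application), `F` a field over `R`, `B ⊆ F` a chart,
  `n` a closed point of the special fibre of `B` (a prime ideal of `B`),
  `V` a *sheet*: a valuation subring of `F` containing `B` (a component of the special fibre);
  `V` *passes through* `n` if every element of `B` vanishing on `V` lies in `n`.

* `ValAt B n V d η` : on the sheet `V` the function `d` is congruent to a quotient `a / b`,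
  `a, b ∈ B`, `b ∉ n`, whose value at `n` is the constant `η ∈ R`:
  "the residue of `d` on the component `V` is regular at `n` and takes the value `η` there".

The values are unique modulo `n` (`ValAt.unique`), multiplicative (`ValAt.mul`, `ValAt.pow`,
`ValAt.inv`), an element of `B_n` has the same value along every sheet (`ValAt.of_frac`), and
a function which is congruent to a constant on `V` has this constant as value (`ValAt.const`).
-/

set_option autoImplicit false

namespace Fermat.Agent.S36.H630

variable {R : Type*} [CommRing R] {F : Type*} [Field F] [Algebra R F]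

section Nonunits

variable (V : ValuationSubring F)

theorem vnu_mem {a : F} (ha : a ∈ V.nonunits) : a ∈ V := V.nonunits_subset ha

theorem vnu_zero : (0 : F) ∈ V.nonunits := by
  rw [ValuationSubring.mem_nonunits_iff, map_zero]
  exact zero_lt_one

theorem vnu_add {a b : F} (ha : a ∈ V.nonunits) (hb : b ∈ V.nonunits) :
    a + b ∈ V.nonunits := by
  rw [ValuationSubring.mem_nonunits_iff] at *
  exact Valuation.map_add_lt _ ha hb

theorem vnu_neg {a : F} (ha : a ∈ V.nonunits) : -a ∈ V.nonunits := by
  rw [ValuationSubring.mem_nonunits_iff] at *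
  rwa [Valuation.map_neg]

theorem vnu_sub {a b : F} (ha : a ∈ V.nonunits) (hb : b ∈ V.nonunits) :
    a - b ∈ V.nonunits := by
  rw [ValuationSubring.mem_nonunits_iff] at *
  exact Valuation.map_sub_lt _ ha hb

theorem vnu_mul_left {a c : F} (ha : a ∈ V.nonunits) (hc : c ∈ V) : c * a ∈ V.nonunits := by
  rw [ValuationSubring.mem_nonunits_iff] at ha ⊢
  rw [map_mul]
  have h1 : V.valuation c ≤ 1 := (V.valuation_le_one_iff c).2 hc
  calc V.valuation c * V.valuation a ≤ 1 * V.valuation a := by gcongr
    _ = V.valuation a := one_mul _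
    _ < 1 := ha

theorem vnu_mul_right {a c : F} (ha : a ∈ V.nonunits) (hc : c ∈ V) : a * c ∈ V.nonunits := by
  rw [mul_comm]
  exact vnu_mul_left V ha hc

theorem vnu_one_not : (1 : F) ∉ V.nonunits := by
  rw [ValuationSubring.mem_nonunits_iff, map_one]
  exact lt_irrefl _

/-- an element of `V` outside the maximal ideal has its inverse in `V` -/
theorem vnu_inv_mem {a : F} (ha : a ∈ V) (ha' : a ∉ V.nonunits) : a⁻¹ ∈ V := by
  rw [ValuationSubring.mem_nonunits_iff, not_lt] at ha'
  have h1 : V.valuation a = 1 := le_antisymm ((V.valuation_le_one_iff a).2 ha) ha'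
  rw [← V.valuation_le_one_iff, map_inv₀, h1, inv_one]

theorem vnu_inv_not {a : F} (ha : a ∈ V) (ha' : a ∉ V.nonunits) : a⁻¹ ∉ V.nonunits := by
  rw [ValuationSubring.mem_nonunits_iff, not_lt] at ha' ⊢
  have h1 : V.valuation a = 1 := le_antisymm ((V.valuation_le_one_iff a).2 ha) ha'
  rw [map_inv₀, h1, inv_one]

theorem vnu_mul_not {a b : F} (ha : a ∈ V) (hb : b ∈ V)
    (ha' : a ∉ V.nonunits) (hb' : b ∉ V.nonunits) : a * b ∉ V.nonunits := by
  rw [ValuationSubring.mem_nonunits_iff, not_lt] at *
  have h1 : V.valuation a = 1 := le_antisymm ((V.valuation_le_one_iff a).2 ha) ha'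
  have h2 : V.valuation b = 1 := le_antisymm ((V.valuation_le_one_iff b).2 hb) hb'
  rw [map_mul, h1, h2, one_mul]

theorem vnu_pow {a : F} (ha : a ∈ V.nonunits) {k : ℕ} (hk : k ≠ 0) : a ^ k ∈ V.nonunits := by
  obtain ⟨j, rfl⟩ := Nat.exists_eq_succ_of_ne_zero hk
  rw [pow_succ]
  exact vnu_mul_left V ha (V.pow_mem (vnu_mem V ha) j)

/-- if `a ≡ b` on `V` and `b` is a unit of `V`, so is `a` -/
theorem vnu_unit_of_sub {a b : F} (h : a - b ∈ V.nonunits) (hb : b ∈ V) (hb' : b ∉ V.nonunits) :
    a ∈ V ∧ a ∉ V.nonunits := by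
  constructor
  · have : a = (a - b) + b := by ring
    rw [this]
    exact V.add_mem _ _ (vnu_mem V h) hb
  · intro ha
    apply hb'
    have : b = a - (a - b) := by ring
    rw [this]
    exact vnu_sub V ha h

end Nonunits

/-- The chart `B` is contained in the sheet `V`. -/
def ChartLe (B : Subalgebra R F) (V : ValuationSubring F) : Prop :=
  ∀ b : B, (b : F) ∈ V

/-- The sheet `V` passes through the closed point `n` of the chart `B`. -/
def PassThrough (B : Subalgebra R F) (n : Ideal B) (V : ValuationSubring F) : Prop :=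
  ∀ c : B, (c : F) ∈ V.nonunits → c ∈ n

/-- **Value at a closed point along a sheet.** -/
def ValAt (B : Subalgebra R F) (n : Ideal B) (V : ValuationSubring F) (d : F) (η : R) : Prop :=
  ∃ a b : B, b ∉ n ∧ (b : F) * d - (a : F) ∈ V.nonunits ∧ a - algebraMap R B η * b ∈ n

section Basic

variable {B : Subalgebra R F} {n : Ideal B} {V : ValuationSubring F}

theorem PassThrough.not_nonunits (hth : PassThrough B n V) {b : B} (hb : b ∉ n) :
    (b : F) ∉ V.nonunits := fun h => hb (hth b h)

/-- A function with a value along `V` is integral on `V`. -/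
theorem ValAt.mem (hBV : ChartLe B V) (hth : PassThrough B n V) {d : F} {η : R}
    (h : ValAt B n V d η) : d ∈ V := by
  obtain ⟨a, b, hb, hV, -⟩ := h
  have hbu := hth.not_nonunits hb
  have h1 : (b : F) * d ∈ V := by
    have : (b : F) * d = ((b : F) * d - a) + a := by ring
    rw [this]
    exact V.add_mem _ _ (vnu_mem V hV) (hBV a)
  have h2 : d = (b : F)⁻¹ * ((b : F) * d) := by
    have hb0 : (b : F) ≠ 0 := by
      intro h0
      apply hbu
      rw [h0]
      exact vnu_zero V
    field_simp
  rw [h2]
  exact V.mul_mem _ _ (vnu_inv_mem V (hBV b) hbu) h1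

/-- **Uniqueness of the value** (modulo `n`). -/
theorem ValAt.unique [n.IsPrime] (hBV : ChartLe B V) (hth : PassThrough B n V) {d : F}
    {η η' : R} (h : ValAt B n V d η) (h' : ValAt B n V d η') :
    algebraMap R B (η - η') ∈ n := by
  obtain ⟨a, b, hb, hV, hn⟩ := h
  obtain ⟨a', b', hb', hV', hn'⟩ := h'
  -- `b a' - b' a` vanishes on `V`
  have h1 : ((b * a' - b' * a : B) : F) ∈ V.nonunits := by
    have : ((b * a' - b' * a : B) : F)
        = (b' : F) * ((b : F) * d - a) - (b : F) * ((b' : F) * d - a') := by
      push_cast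
      ring
    rw [this]
    exact vnu_sub V (vnu_mul_left V hV (hBV b')) (vnu_mul_left V hV' (hBV b))
  have h2 : b * a' - b' * a ∈ n := hth _ h1
  -- modulo `n`
  have h3 : b * b' * algebraMap R B (η - η') ∈ n := by
    have : b * b' * algebraMap R B (η - η')
        = b * (a' - algebraMap R B η' * b') - b' * (a - algebraMap R B η * b)
          - (b * a' - b' * a) := by
      rw [map_sub]
      ring
    rw [this]
    exact n.sub_mem (n.sub_mem (n.mul_mem_left _ hn') (n.mul_mem_left _ hn)) h2
  rcases (Ideal.IsPrime.mem_or_mem ‹n.IsPrime› h3) with h4 | h4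
  · rcases (Ideal.IsPrime.mem_or_mem ‹n.IsPrime› h4) with h5 | h5
    · exact absurd h5 hb
    · exact absurd h5 hb'
  · exact h4

/-- The value only depends on the class of the constant modulo `n`. -/
theorem ValAt.congr_const {d : F} {η η' : R} (h : ValAt B n V d η)
    (hη : algebraMap R B (η - η') ∈ n) : ValAt B n V d η' := by
  obtain ⟨a, b, hb, hV, hn⟩ := h
  refine ⟨a, b, hb, hV, ?_⟩
  have : a - algebraMap R B η' * b = (a - algebraMap R B η * b) + algebraMap R B (η - η') * b := by
    rw [map_sub]
    ring
  rw [this]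
  exact n.add_mem hn (n.mul_mem_right _ hη)

/-- The value only depends on the class of the function modulo the maximal ideal of `V`. -/
theorem ValAt.congr (hBV : ChartLe B V) {d d' : F} {η : R} (h : ValAt B n V d η)
    (hd : d - d' ∈ V.nonunits) : ValAt B n V d' η := by
  obtain ⟨a, b, hb, hV, hn⟩ := h
  refine ⟨a, b, hb, ?_, hn⟩
  have : (b : F) * d' - a = ((b : F) * d - a) - (b : F) * (d - d') := by ring
  rw [this]
  exact vnu_sub V hV (vnu_mul_left V hd (hBV b))

/-- **Multiplicativity.** -/
theorem ValAt.mul [n.IsPrime] (hBV : ChartLe B V) (hth : PassThrough B n V) {d d' : F}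
    {η η' : R} (h : ValAt B n V d η) (h' : ValAt B n V d' η') :
    ValAt B n V (d * d') (η * η') := by
  have hd'V : d' ∈ V := h'.mem hBV hth
  obtain ⟨a, b, hb, hV, hn⟩ := h
  obtain ⟨a', b', hb', hV', hn'⟩ := h'
  refine ⟨a * a', b * b', ?_, ?_, ?_⟩
  · intro hmem
    rcases (Ideal.IsPrime.mem_or_mem ‹n.IsPrime› hmem) with h5 | h5
    · exact hb h5
    · exact hb' h5
  · have : ((b * b' : B) : F) * (d * d') - ((a * a' : B) : F)
        = ((b : F) * d - a) * ((b' : F) * d') + (a : F) * ((b' : F) * d' - a') := by
      push_cast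
      ring
    rw [this]
    exact vnu_add V (vnu_mul_right V hV (V.mul_mem _ _ (hBV b') hd'V))
      (vnu_mul_left V hV' (hBV a))
  · have : a * a' - algebraMap R B (η * η') * (b * b')
        = a * (a' - algebraMap R B η' * b') + algebraMap R B η' * b' * (a - algebraMap R B η * b) := by
      rw [map_mul]
      ring
    rw [this]
    exact n.add_mem (n.mul_mem_left _ hn') (n.mul_mem_left _ hn)

theorem ValAt.one (hn : n ≠ ⊤) : ValAt B n V (1 : F) (1 : R) := by
  refine ⟨1, 1, ?_, ?_, ?_⟩
  · intro h
    exact hn ((Ideal.eq_top_iff_one n).2 h)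
  · simp only [OneMemClass.coe_one, mul_one, sub_self]
    exact vnu_zero V
  · simp

/-- **Powers.** -/
theorem ValAt.pow [hn : n.IsPrime] (hBV : ChartLe B V) (hth : PassThrough B n V) {d : F}
    {η : R} (h : ValAt B n V d η) (k : ℕ) : ValAt B n V (d ^ k) (η ^ k) := by
  induction k with
  | zero =>
    rw [pow_zero, pow_zero]
    exact ValAt.one hn.ne_top
  | succ k ih =>
    rw [pow_succ, pow_succ]
    exact ih.mul hBV hth h

/-- **An element of `B_n` has the same value along every sheet.** -/
theorem ValAt.of_frac {d : F} {η : R} {a b : B} (hb : b ∉ n) (hd : (b : F) * d = a)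
    (hη : a - algebraMap R B η * b ∈ n) : ValAt B n V d η := by
  refine ⟨a, b, hb, ?_, hη⟩
  rw [hd, sub_self]
  exact vnu_zero V

/-- **A function congruent to a constant on `V` has this constant as value.** -/
theorem ValAt.const (hn : n ≠ ⊤) {d : F} {η : R} (hd : d - algebraMap R F η ∈ V.nonunits) :
    ValAt B n V d η := by
  refine ⟨algebraMap R B η, 1, ?_, ?_, ?_⟩
  · intro h
    exact hn ((Ideal.eq_top_iff_one n).2 h)
  · have : ((1 : B) : F) * d - ((algebraMap R B η : B) : F) = d - algebraMap R F η := by
      simp only [OneMemClass.coe_one, one_mul]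
      rfl
    rw [this]
    exact hd
  · simp

/-- A function with a value which is a unit modulo `n` is a unit of `V`. -/
theorem ValAt.not_nonunits (hBV : ChartLe B V) (hth : PassThrough B n V) {d : F} {η : R}
    (h : ValAt B n V d η) (hη : algebraMap R B η ∉ n) [n.IsPrime] : d ∉ V.nonunits := by
  obtain ⟨a, b, hb, hV, hn⟩ := h
  intro hd
  -- then `a` vanishes on `V`, so `a ∈ n`, so `η b ∈ n`
  have h1 : (a : F) ∈ V.nonunits := by
    have : (a : F) = (b : F) * d - ((b : F) * d - a) := by ring
    rw [this]
    exact vnu_sub V (vnu_mul_left V hd (hBV b)) hV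
  have h2 : a ∈ n := hth a h1
  have h3 : algebraMap R B η * b ∈ n := by
    have : algebraMap R B η * b = a - (a - algebraMap R B η * b) := by ring
    rw [this]
    exact n.sub_mem h2 hn
  rcases (Ideal.IsPrime.mem_or_mem ‹n.IsPrime› h3) with h5 | h5
  · exact hη h5
  · exact hb h5

/-- **Inverses.** -/
theorem ValAt.inv [n.IsPrime] (hBV : ChartLe B V) (hth : PassThrough B n V) {d : F}
    {η η' : R} (h : ValAt B n V d η) (hη : algebraMap R B (η * η' - 1) ∈ n) :
    ValAt B n V d⁻¹ η' := by
  have hηu : algebraMap R B η ∉ n := by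
    intro h1
    have h2 : algebraMap R B (η * η') ∈ n := by
      rw [map_mul]
      exact n.mul_mem_right _ h1
    have h3 : (1 : B) ∈ n := by
      have : (1 : B) = algebraMap R B (η * η') - algebraMap R B (η * η' - 1) := by
        rw [map_sub, map_one]
        ring
      rw [this]
      exact n.sub_mem h2 hη
    exact (Ideal.IsPrime.ne_top ‹n.IsPrime›) ((Ideal.eq_top_iff_one n).2 h3)
  have hdV : d ∈ V := h.mem hBV hth
  have hdu : d ∉ V.nonunits := h.not_nonunits hBV hth hηu
  have hd0 : d ≠ 0 := by
    rintro rfl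
    exact hdu (vnu_zero V)
  obtain ⟨a, b, hb, hV, hn⟩ := h
  have han : a ∉ n := by
    intro ha
    have h3 : algebraMap R B η * b ∈ n := by
      have : algebraMap R B η * b = a - (a - algebraMap R B η * b) := by ring
      rw [this]
      exact n.sub_mem ha hn
    rcases (Ideal.IsPrime.mem_or_mem ‹n.IsPrime› h3) with h5 | h5
    · exact hηu h5
    · exact hb h5
  refine ⟨b, a, han, ?_, ?_⟩
  · have : (a : F) * d⁻¹ - b = -(((b : F) * d - a) * d⁻¹) := by
      field_simp
      ring
    rw [this]
    exact vnu_neg V (vnu_mul_right V hV (vnu_inv_mem V hdV hdu))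
  · -- `b - η' a = -(η' (a - η b)) - (η η' - 1) b`
    have : b - algebraMap R B η' * a
        = -(algebraMap R B η' * (a - algebraMap R B η * b)) - algebraMap R B (η * η' - 1) * b := by
      rw [map_sub, map_mul, map_one]
      ring
    rw [this]
    exact n.sub_mem (n.neg_mem (n.mul_mem_left _ hn)) (n.mul_mem_right _ hη)

end Basic

end Fermat.Agent.S36.H630
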